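/-
S48lib / X1 / Field / Defs  (helper3)

**Formal generators of the function field of `X(M)` / `X₁(M)`** (design note `plans/S48_K1.md`, §1.1).

`Q = q^{1/M}` is the variable of all series below; level one series are substituted `q ↦ Q^M`
through the Prelude's `ModularCurve.qExpand`.

* `cX M ζ a b n`   : the `n`-th coefficient (`n ≥ 1`) of Tate's `x`-series at `w = ζ^b Q^a`:
  `∑_{d ∣ n} d ([n/d ≡ a (M)] ζ^{bd} + [n/d ≡ -a (M)] ζ^{-bd}) - 2 [M ∣ n] σ₁(n/M)`;
* `Xser M ζ κ a b` : `κ·[M ∣ a] + ∑_{n ≥ 1} cX M ζ a b n Qⁿ` (`κ` = the constant term, to be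
  `ζ^b/(1-ζ^b)²`), a power series over an arbitrary commutative ring;
* `s3`, `e6`       : `∑ σ₃(n) qⁿ`, `E₆` (the Prelude has `E₄ = eisenstein4`, `Δ/q = dedekindEtaUnit`);
* `tauSer`         : `6 X² + X - 10 s₃(Q^M)` (the normalised `℘''`, integral at every prime);
* `tau`, `fr`      : the weight zero generators `(E₄²/Δ)·tauSer` and `(E₄E₆/Δ)·(X + 1/12)` in
  `LaurentSeries`.
Functoriality in the coefficient ring (`map`) is proved here; it gives the integrality and the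
reduction of the generators for free.
-/
import Mathlib
import Fermat.Prelude.Def_ModularCurve_X0
import Fermat.Prelude.Def_ModularCurve_LaurentCoeff
import Fermat.Prelude.Def_ModularCurve_X0ModL

set_option autoImplicit false

noncomputable section

namespace Fermat.Agent.S48lib.X1

open PowerSeries ModularCurve

/-! ### coefficients -/

section Coeff

variable {R : Type*} [CommRing R]

/-- the divisor sum `σ₁` with value `0` at non-multiples: `[M ∣ n] σ₁(n / M)`. -/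
def sigmaDiv (M n : ℕ) : ℤ :=
  if M ∣ n then ∑ d ∈ (n / M).divisors, (d : ℤ) else 0

/-- the `n`-th coefficient of Tate's `x`-series at `w = ζ^b Q^a`, `q = Q^M`. -/
def cX (M : ℕ) (ζ : Rˣ) (a b : ℤ) (n : ℕ) : R :=
  ∑ d ∈ n.divisors,
      (d : R) * ((if ((n / d : ℕ) : ℤ) ≡ a [ZMOD M] then ((ζ ^ (b * d) : Rˣ) : R) else 0) +
        (if ((n / d : ℕ) : ℤ) ≡ -a [ZMOD M] then ((ζ ^ (-(b * d)) : Rˣ) : R) else 0))
    - 2 * (sigmaDiv M n : R)

/-- Tate's `x`-series at `w = ζ^b Q^a`, with prescribed constant term `κ` (used when `M ∣ a`). -/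
def Xser (M : ℕ) (ζ : Rˣ) (κ : R) (a b : ℤ) : PowerSeries R :=
  PowerSeries.mk fun n => if n = 0 then (if (M : ℤ) ∣ a then κ else 0) else cX M ζ a b n

@[simp] theorem coeff_Xser_zero (M : ℕ) (ζ : Rˣ) (κ : R) (a b : ℤ) :
    PowerSeries.coeff 0 (Xser M ζ κ a b) = if (M : ℤ) ∣ a then κ else 0 := by
  rw [Xser, PowerSeries.coeff_mk, if_pos rfl]

theorem coeff_Xser_of_ne_zero (M : ℕ) (ζ : Rˣ) (κ : R) (a b : ℤ) {n : ℕ} (hn : n ≠ 0) :
    PowerSeries.coeff n (Xser M ζ κ a b) = cX M ζ a b n := by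
  rw [Xser, PowerSeries.coeff_mk, if_neg hn]

/-- `cX` only depends on `a` modulo `M`. -/
theorem cX_congr_left (M : ℕ) (ζ : Rˣ) {a a' : ℤ} (h : a ≡ a' [ZMOD M]) (b : ℤ) (n : ℕ) :
    cX M ζ a b n = cX M ζ a' b n := by
  unfold cX
  congr 1
  refine Finset.sum_congr rfl fun d _ => ?_
  have h1 : ∀ x : ℤ, x ≡ a [ZMOD M] ↔ x ≡ a' [ZMOD M] :=
    fun x => ⟨fun hx => hx.trans h, fun hx => hx.trans h.symm⟩
  have h2 : ∀ x : ℤ, x ≡ -a [ZMOD M] ↔ x ≡ -a' [ZMOD M] :=
    fun x => ⟨fun hx => hx.trans h.neg, fun hx => hx.trans h.neg.symm⟩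
  simp only [h1, h2]

/-- `cX` only depends on `b` modulo `M` when `ζ^M = 1`. -/
theorem cX_congr_right (M : ℕ) (ζ : Rˣ) (hζ : ζ ^ M = 1) (a : ℤ) {b b' : ℤ}
    (h : b ≡ b' [ZMOD M]) (n : ℕ) : cX M ζ a b n = cX M ζ a b' n := by
  have key : ∀ x y : ℤ, x ≡ y [ZMOD M] → ζ ^ x = ζ ^ y := by
    intro x y hxy
    obtain ⟨c, hc⟩ := hxy.symm.dvd
    have : x = y + M * c := by linarith
    rw [this, zpow_add, zpow_mul, zpow_natCast, hζ, one_zpow, mul_one]
  unfold cX
  congr 1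
  refine Finset.sum_congr rfl fun d _ => ?_
  rw [key (b * d) (b' * d) (h.mul_right _), key (-(b * d)) (-(b' * d)) (h.mul_right _).neg]

/-- the symmetry `v ↦ -v`. -/
theorem cX_neg (M : ℕ) (ζ : Rˣ) (a b : ℤ) (n : ℕ) : cX M ζ (-a) (-b) n = cX M ζ a b n := by
  unfold cX
  congr 1
  refine Finset.sum_congr rfl fun d _ => ?_
  rw [neg_neg, neg_mul, neg_neg, add_comm]

/-- functoriality of the coefficients. -/
theorem map_cX {S : Type*} [CommRing S] (φ : R →+* S) (M : ℕ) (ζ : Rˣ) (a b : ℤ) (n : ℕ) :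
    φ (cX M ζ a b n) = cX M (Units.map (φ : R →* S) ζ) a b n := by
  unfold cX
  rw [map_sub, map_sum, map_mul, map_ofNat, map_intCast]
  congr 1
  refine Finset.sum_congr rfl fun d _ => ?_
  rw [map_mul, map_natCast, map_add, apply_ite φ, apply_ite φ, map_zero, ← map_zpow, ← map_zpow]
  rfl

theorem map_Xser {S : Type*} [CommRing S] (φ : R →+* S) (M : ℕ) (ζ : Rˣ) (κ : R) (a b : ℤ) :
    (Xser M ζ κ a b).map φ = Xser M (Units.map (φ : R →* S) ζ) (φ κ) a b := by
  ext n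
  rw [PowerSeries.coeff_map]
  by_cases hn : n = 0
  · subst hn
    rw [coeff_Xser_zero, coeff_Xser_zero, apply_ite φ, map_zero]
  · rw [coeff_Xser_of_ne_zero _ _ _ _ _ hn, coeff_Xser_of_ne_zero _ _ _ _ _ hn, map_cX]

end Coeff

/-! ### level one -/

/-- `∑_{n ≥ 1} σ₃(n) qⁿ`. -/
def s3 : PowerSeries ℤ :=
  PowerSeries.mk fun n => if n = 0 then 0 else ∑ d ∈ n.divisors, (d : ℤ) ^ 3

/-- `E₆ = 1 - 504 ∑ σ₅(n) qⁿ`. -/
def e6 : PowerSeries ℤ :=
  PowerSeries.mk fun n => if n = 0 then 1 else -504 * ∑ d ∈ n.divisors, (d : ℤ) ^ 5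

theorem eisenstein4_eq : eisenstein4 = 1 + 240 * s3 := by
  ext n
  by_cases hn : n = 0
  · subst hn
    simp [eisenstein4, s3]
  · have h240 : (240 : PowerSeries ℤ) = PowerSeries.C (240 : ℤ) := by
      rw [map_ofNat]
    rw [map_add, h240, PowerSeries.coeff_C_mul, PowerSeries.coeff_one, if_neg hn, zero_add,
      eisenstein4, s3, PowerSeries.coeff_mk, PowerSeries.coeff_mk, if_neg hn, if_neg hn]

@[simp] theorem constantCoeff_e6 : PowerSeries.constantCoeff e6 = 1 := by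
  rw [← PowerSeries.coeff_zero_eq_constantCoeff]
  simp [e6]

section Gen

variable {R : Type*} [CommRing R]

/-- a level one series with integer coefficients, as a Laurent series in `Q = q^{1/M}` over `R`
(`q ↦ Q^M`). -/
def lvl1 (R : Type*) [CommRing R] (M : ℕ) [NeZero M] (f : PowerSeries ℤ) : LaurentSeries R :=
  qExpand R M (HahnSeries.ofPowerSeries ℤ R (f.map (Int.castRingHom R)))

/-- `q⁻¹ = Q^{-M}`. -/
def qInv (R : Type*) [CommRing R] (M : ℕ) : LaurentSeries R := HahnSeries.single (-(M : ℤ)) 1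

/-- the power series `6 X² + X - 10 s₃(Q^M)`: the expansion of the normalised `℘''` at the
division point `(a τ + b)/M`. -/
def tauSer (M : ℕ) [NeZero M] (ζ : Rˣ) (κ : R) (a b : ℤ) : LaurentSeries R :=
  6 * (HahnSeries.ofPowerSeries ℤ R (Xser M ζ κ a b)) ^ 2 +
    HahnSeries.ofPowerSeries ℤ R (Xser M ζ κ a b) - 10 * lvl1 R M s3

/-- **the weight zero generator** `τ_v = (E₄²/Δ)·(6 X_v² + X_v - 10 s₃)`. -/
def tau (M : ℕ) [NeZero M] (ζ : Rˣ) (κ : R) (a b : ℤ) : LaurentSeries R :=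
  qInv R M * lvl1 R M (eisenstein4 ^ 2 * dedekindEtaUnitInv) * tauSer M ζ κ a b

/-- **the Fricke function** `f_v = (E₄E₆/Δ)·(X_v + 1/12)` (needs `12` invertible). -/
def fr (M : ℕ) [NeZero M] (ζ : Rˣ) (κ twelfth : R) (a b : ℤ) : LaurentSeries R :=
  qInv R M * lvl1 R M (eisenstein4 * e6 * dedekindEtaUnitInv) *
    (HahnSeries.ofPowerSeries ℤ R (Xser M ζ κ a b) + HahnSeries.C twelfth)

end Gen

/-! ### functoriality in the coefficient ring -/

section Map

variable {R S : Type*} [CommRing R] [CommRing S] (φ : R →+* S)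

theorem coeffMap_lvl1 (M : ℕ) [NeZero M] (f : PowerSeries ℤ) :
    coeffMap φ (lvl1 R M f) = lvl1 S M f := by
  rw [lvl1, coeffMap_qExpand, coeffMap_ofPowerSeries,
    ← RingHom.comp_apply (PowerSeries.map φ) (PowerSeries.map (Int.castRingHom R)),
    ← PowerSeries.map_comp, RingHom.ext_int (φ.comp (Int.castRingHom R)) (Int.castRingHom S)]
  rfl

theorem coeffMap_qInv (M : ℕ) : coeffMap φ (qInv R M) = qInv S M := by
  rw [qInv, coeffMap_single, map_one, qInv]

theorem coeffMap_tauSer (M : ℕ) [NeZero M] (ζ : Rˣ) (κ : R) (a b : ℤ) :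
    coeffMap φ (tauSer M ζ κ a b) = tauSer M (Units.map (φ : R →* S) ζ) (φ κ) a b := by
  rw [tauSer, map_sub, map_add, map_mul, map_mul, map_pow, coeffMap_ofPowerSeries, map_Xser,
    coeffMap_lvl1, map_ofNat, map_ofNat, tauSer]

/-- **functoriality of the generator `τ_v`**: integrality and reduction for free. -/
theorem coeffMap_tau (M : ℕ) [NeZero M] (ζ : Rˣ) (κ : R) (a b : ℤ) :
    coeffMap φ (tau M ζ κ a b) = tau M (Units.map (φ : R →* S) ζ) (φ κ) a b := by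
  rw [tau, map_mul, map_mul, coeffMap_qInv, coeffMap_lvl1, coeffMap_tauSer, tau]

theorem coeffMap_fr (M : ℕ) [NeZero M] (ζ : Rˣ) (κ t : R) (a b : ℤ) :
    coeffMap φ (fr M ζ κ t a b) = fr M (Units.map (φ : R →* S) ζ) (φ κ) (φ t) a b := by
  rw [fr, map_mul, map_mul, coeffMap_qInv, coeffMap_lvl1, map_add, coeffMap_ofPowerSeries,
    map_Xser, fr]
  congr 2
  exact coeffMap_single φ 0 t

end Map

end Fermat.Agent.S48lib.X1
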