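/-
S48lib / X1 / Field / Sep  (helper3)

**(Sep)**: over a field `k` containing a primitive `M`-th root of unity `ζ` (so `char k ∤ M`), the
generators `τ_v` (`v ∈ (ℤ/M)² ∖ 0` modulo `±1`) are pairwise distinct.  Proof by the first
coefficients of Tate's `x`-series (`plans/S48_K1.md`, §1.1).
-/
import Fermat.Agent.S48lib.X1.Field.Defs

set_option autoImplicit false

noncomputable section

namespace Fermat.Agent.S48lib.X1

open PowerSeries ModularCurve

/-! ### congruence bookkeeping -/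

theorem natCast_modEq_iff_of_lt {M x a : ℕ} (hx : x < M) (ha : a < M) :
    ((x : ℤ) ≡ (a : ℤ) [ZMOD (M : ℤ)]) ↔ x = a := by
  rw [Int.natCast_modEq_iff]
  exact ⟨fun h => Nat.ModEq.eq_of_lt_of_lt h hx ha, fun h => h ▸ Nat.ModEq.refl _⟩

theorem natCast_modEq_neg_iff {M x a : ℕ} (h0 : 0 < x + a) (h1 : x + a < 2 * M) :
    ((x : ℤ) ≡ -(a : ℤ) [ZMOD (M : ℤ)]) ↔ x + a = M := by
  rw [Int.modEq_iff_dvd]
  constructor
  · rintro ⟨c, hc⟩
    have hM : (0 : ℤ) < M := by
      rcases Nat.eq_zero_or_pos M with h | h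
      · omega
      · exact_mod_cast h
    have h2 : c < 0 := by
      by_contra hcon
      have : (0 : ℤ) ≤ (M : ℤ) * c := mul_nonneg hM.le (not_lt.mp hcon)
      omega
    have h3 : -2 < c := by
      by_contra hcon
      have : (M : ℤ) * c ≤ (M : ℤ) * (-2) := mul_le_mul_of_nonneg_left (by omega) hM.le
      omega
    have h4 : c = -1 := by omega
    subst h4
    omega
  · intro h
    refine ⟨-1, ?_⟩
    omega

/-! ### the first coefficients of Tate's series -/

section SmallCoeff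

variable {R : Type*} [CommRing R]

theorem sigmaDiv_of_lt {M n : ℕ} (h0 : 0 < n) (h : n < M) : sigmaDiv M n = 0 := by
  unfold sigmaDiv
  rw [if_neg]
  intro hd
  exact absurd (Nat.le_of_dvd h0 hd) (by omega)

theorem sigmaDiv_self {M : ℕ} (hM : 0 < M) : sigmaDiv M M = 1 := by
  unfold sigmaDiv
  rw [if_pos dvd_rfl, Nat.div_self hM]
  simp

theorem div_facts {n d : ℕ} (hd : d ∈ n.divisors) :
    0 < n / d ∧ n / d ≤ n ∧ (n / d = n ↔ d = 1) := by
  obtain ⟨hdn, hn⟩ := Nat.mem_divisors.mp hd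
  have hdpos : 0 < d := Nat.pos_of_dvd_of_pos hdn (Nat.pos_of_ne_zero hn)
  refine ⟨Nat.div_pos (Nat.le_of_dvd (Nat.pos_of_ne_zero hn) hdn) hdpos, Nat.div_le_self n d, ?_⟩
  rw [Nat.div_eq_self]
  exact ⟨fun h => h.resolve_left hn, Or.inr⟩

/-- below `min(a, M-a)` the coefficients vanish. -/
theorem cX_of_lt (M : ℕ) (ζ : Rˣ) {a n : ℕ} (b : ℤ) (hn : 0 < n) (hna : n < a) (ha : 2 * a ≤ M) :
    cX M ζ (a : ℤ) b n = 0 := by
  unfold cX
  rw [sigmaDiv_of_lt hn (by omega), Int.cast_zero, mul_zero, sub_zero]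
  refine Finset.sum_eq_zero fun d hd => ?_
  obtain ⟨h1, h2, -⟩ := div_facts hd
  rw [if_neg, if_neg, add_zero, mul_zero]
  · rw [natCast_modEq_neg_iff (by omega) (by omega)]
    omega
  · rw [natCast_modEq_iff_of_lt (by omega) (by omega)]
    omega

/-- for `a = 0` the coefficients below `M` vanish. -/
theorem cX_zero_of_lt (M : ℕ) (ζ : Rˣ) {n : ℕ} (b : ℤ) (hn : 0 < n) (hnM : n < M) :
    cX M ζ 0 b n = 0 := by
  unfold cX
  rw [sigmaDiv_of_lt hn hnM, Int.cast_zero, mul_zero, sub_zero]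
  refine Finset.sum_eq_zero fun d hd => ?_
  obtain ⟨h1, h2, -⟩ := div_facts hd
  have h0 : ¬ (((n / d : ℕ) : ℤ) ≡ 0 [ZMOD (M : ℤ)]) := by
    have := natCast_modEq_iff_of_lt (M := M) (x := n / d) (a := 0) (by omega) (by omega)
    rw [Nat.cast_zero] at this
    rw [this]
    omega
  simp only [neg_zero, if_neg h0, add_zero, mul_zero]

/-- the leading coefficient for `0 < a < M/2`. -/
theorem cX_self (M : ℕ) (ζ : Rˣ) {a : ℕ} (b : ℤ) (ha0 : 0 < a) (ha : 2 * a < M) :
    cX M ζ (a : ℤ) b a = ((ζ ^ b : Rˣ) : R) := by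
  unfold cX
  rw [sigmaDiv_of_lt ha0 (by omega), Int.cast_zero, mul_zero, sub_zero]
  rw [Finset.sum_eq_single 1]
  · rw [Nat.div_one, if_pos (Int.ModEq.refl _), if_neg, add_zero]
    · simp only [Nat.cast_one, one_mul, mul_one]
    · rw [natCast_modEq_neg_iff (by omega) (by omega)]
      omega
  · intro d hd hd1
    obtain ⟨h1, h2, h3⟩ := div_facts hd
    rw [if_neg, if_neg, add_zero, mul_zero]
    · rw [natCast_modEq_neg_iff (by omega) (by omega)]
      omega
    · rw [natCast_modEq_iff_of_lt (by omega) (by omega), h3]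
      exact hd1
  · intro h
    exact absurd (Nat.mem_divisors.mpr ⟨one_dvd _, by omega⟩) h

/-- the leading coefficient for `a = M/2`. -/
theorem cX_half (M : ℕ) (ζ : Rˣ) {a : ℕ} (b : ℤ) (ha0 : 0 < a) (ha : 2 * a = M) :
    cX M ζ (a : ℤ) b a = ((ζ ^ b : Rˣ) : R) + ((ζ ^ (-b) : Rˣ) : R) := by
  unfold cX
  rw [sigmaDiv_of_lt ha0 (by omega), Int.cast_zero, mul_zero, sub_zero]
  rw [Finset.sum_eq_single 1]
  · rw [Nat.div_one, if_pos (Int.ModEq.refl _), if_pos]
    · simp only [Nat.cast_one, one_mul, mul_one]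
    · rw [natCast_modEq_neg_iff (by omega) (by omega)]
      omega
  · intro d hd hd1
    obtain ⟨h1, h2, h3⟩ := div_facts hd
    rw [if_neg, if_neg, add_zero, mul_zero]
    · rw [natCast_modEq_neg_iff (by omega) (by omega)]
      intro h
      exact hd1 (h3.mp (by omega))
    · rw [natCast_modEq_iff_of_lt (by omega) (by omega), h3]
      exact hd1
  · intro h
    exact absurd (Nat.mem_divisors.mpr ⟨one_dvd _, by omega⟩) h

/-- the coefficient of `q = Q^M` for `a = 0`. -/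
theorem cX_zero_M (M : ℕ) (ζ : Rˣ) (b : ℤ) (hM : 1 < M) :
    cX M ζ 0 b M = ((ζ ^ b : Rˣ) : R) + ((ζ ^ (-b) : Rˣ) : R) - 2 := by
  unfold cX
  rw [sigmaDiv_self (by omega), Int.cast_one, mul_one, neg_zero]
  congr 1
  rw [Finset.sum_eq_single 1]
  · have h0 : (((M / 1 : ℕ) : ℤ) ≡ 0 [ZMOD (M : ℤ)]) := by
      rw [Nat.div_one, Int.modEq_zero_iff_dvd]
    simp only [if_pos h0, Nat.cast_one, one_mul, mul_one]
  · intro d hd hd1
    obtain ⟨h1, h2, h3⟩ := div_facts hd
    have h0 : ¬ (((M / d : ℕ) : ℤ) ≡ 0 [ZMOD (M : ℤ)]) := by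
      rw [Int.modEq_zero_iff_dvd, Int.natCast_dvd_natCast]
      intro h
      have := Nat.le_of_dvd h1 h
      exact hd1 (h3.mp (by omega))
    simp only [if_neg h0, add_zero, mul_zero]
  · intro h
    exact absurd (Nat.mem_divisors.mpr ⟨one_dvd _, by omega⟩) h

/-- the coefficient of `q = Q^M` for `a = M/2`. -/
theorem cX_half_M (M : ℕ) (ζ : Rˣ) {a : ℕ} (b : ℤ) (ha0 : 0 < a) (ha : 2 * a = M) :
    cX M ζ (a : ℤ) b M = 2 * (((ζ ^ (b * 2) : Rˣ) : R) + ((ζ ^ (-(b * 2)) : Rˣ) : R)) - 2 := by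
  unfold cX
  rw [sigmaDiv_self (by omega), Int.cast_one, mul_one]
  congr 1
  have hdiv : M / 2 = a := by omega
  rw [Finset.sum_eq_single 2]
  · rw [hdiv, if_pos (Int.ModEq.refl _), if_pos, Nat.cast_ofNat]
    · norm_num
    · rw [natCast_modEq_neg_iff (by omega) (by omega)]
      omega
  · intro d hd hd2
    obtain ⟨h1, h2, h3⟩ := div_facts hd
    obtain ⟨hdM, hM0⟩ := Nat.mem_divisors.mp hd
    have hne : M / d ≠ a := by
      intro h
      apply hd2
      have h4 : M = d * (M / d) := (Nat.mul_div_cancel' hdM).symm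
      rw [h] at h4
      have : d * a = 2 * a := by omega
      exact Nat.eq_of_mul_eq_mul_right ha0 this
    by_cases hdM' : M / d = M
    · -- d = 1
      rw [if_neg, if_neg, add_zero, mul_zero]
      · rw [hdM', Int.modEq_iff_dvd]
        rintro ⟨c, hc⟩
        have hM : (0 : ℤ) < M := by exact_mod_cast (by omega : 0 < M)
        have hMa : (M : ℤ) = 2 * a := by exact_mod_cast ha.symm
        have h5 : -3 * (a : ℤ) = 2 * a * c := by rw [← hMa]; linarith
        have ha' : (0 : ℤ) < a := by exact_mod_cast ha0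
        have h6 : (-3 : ℤ) = 2 * c := by
          have : (a : ℤ) * (-3) = a * (2 * c) := by linarith
          exact mul_left_cancel₀ ha'.ne' this
        omega
      · rw [hdM', Int.modEq_iff_dvd]
        rintro ⟨c, hc⟩
        have hMa : (M : ℤ) = 2 * a := by exact_mod_cast ha.symm
        have ha' : (0 : ℤ) < a := by exact_mod_cast ha0
        have h6 : (-1 : ℤ) = 2 * c := by
          have : (a : ℤ) * (-1) = a * (2 * c) := by rw [hMa] at hc; linarith
          exact mul_left_cancel₀ ha'.ne' this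
        omega
    · have hlt : M / d < M := lt_of_le_of_ne h2 hdM'
      rw [if_neg, if_neg, add_zero, mul_zero]
      · rw [natCast_modEq_neg_iff (by omega) (by omega)]
        omega
      · rw [natCast_modEq_iff_of_lt hlt (by omega)]
        exact hne
  · intro h
    exact absurd (Nat.mem_divisors.mpr ⟨⟨a, by omega⟩, by omega⟩) h

end SmallCoeff

/-! ### algebra of the constant terms -/

section Kap

variable {k : Type*} [Field k]

/-- `u/(1-u)²`: the constant term of Tate's series at a point of the toric part. -/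
def kap (u : k) : k := u / (1 - u) ^ 2

theorem kap_eq_iff {u u' : k} (hu : u ≠ 1) (hu' : u' ≠ 1) :
    kap u = kap u' ↔ u' = u ∨ u * u' = 1 := by
  have h1 : (1 - u) ^ 2 ≠ 0 := pow_ne_zero _ (sub_ne_zero.mpr (Ne.symm hu))
  have h2 : (1 - u') ^ 2 ≠ 0 := pow_ne_zero _ (sub_ne_zero.mpr (Ne.symm hu'))
  unfold kap
  rw [div_eq_div_iff h1 h2]
  have key : u * (1 - u') ^ 2 - u' * (1 - u) ^ 2 = (u - u') * (1 - u * u') := by ring
  constructor
  · intro h
    have h0 : (u - u') * (1 - u * u') = 0 := by rw [← key, h, sub_self]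
    rcases mul_eq_zero.mp h0 with h3 | h3
    · exact Or.inl (sub_eq_zero.mp h3).symm
    · exact Or.inr (sub_eq_zero.mp h3).symm
  · rintro (h | h)
    · rw [h]
    · have h0 : (u - u') * (1 - u * u') = 0 := by rw [h, sub_self, mul_zero]
      rw [← key] at h0
      exact sub_eq_zero.mp h0

theorem kap_ne_zero {u : k} (hu : u ≠ 1) (hu0 : u ≠ 0) : kap u ≠ 0 :=
  div_ne_zero hu0 (pow_ne_zero _ (sub_ne_zero.mpr (Ne.symm hu)))

theorem kap_mul {u : k} (hu : u ≠ 1) (hu0 : u ≠ 0) : kap u * (u + u⁻¹ - 2) = 1 := by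
  have h1 : (1 - u) ≠ 0 := sub_ne_zero.mpr (Ne.symm hu)
  unfold kap
  field_simp
  ring

theorem add_inv_eq_iff {u u' : k} (hu : u ≠ 0) (hu' : u' ≠ 0) :
    u + u⁻¹ = u' + u'⁻¹ ↔ u' = u ∨ u * u' = 1 := by
  have key : (u + u⁻¹ - (u' + u'⁻¹)) * (u * u') = (u - u') * (u * u' - 1) := by
    field_simp
    ring
  constructor
  · intro h
    have h0 : (u - u') * (u * u' - 1) = 0 := by rw [← key, h, sub_self, zero_mul]
    rcases mul_eq_zero.mp h0 with h3 | h3
    · exact Or.inl (sub_eq_zero.mp h3).symm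
    · exact Or.inr (sub_eq_zero.mp h3)
  · rintro (h | h)
    · rw [h]
    · have h0 : (u + u⁻¹ - (u' + u'⁻¹)) * (u * u') = 0 := by rw [key, h, sub_self, mul_zero]
      rcases mul_eq_zero.mp h0 with h3 | h3
      · exact sub_eq_zero.mp h3
      · exact absurd h3 (mul_ne_zero hu hu')

end Kap

/-! ### injectivity of `v ↦ X_v` on normalised representatives -/

section Main

variable {k : Type*} [Field k] {M : ℕ} {ζ : kˣ}

theorem zpow_eq_zpow_iff (hζ : IsPrimitiveRoot ζ M) (b b' : ℤ) :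
    ((ζ ^ b : kˣ) : k) = ((ζ ^ b' : kˣ) : k) ↔ b ≡ b' [ZMOD (M : ℤ)] := by
  rw [Units.val_inj, Int.modEq_iff_dvd, ← hζ.zpow_eq_one_iff_dvd, zpow_sub, mul_inv_eq_one,
    eq_comm]

theorem zpow_mul_eq_one_iff (hζ : IsPrimitiveRoot ζ M) (b b' : ℤ) :
    ((ζ ^ b : kˣ) : k) * ((ζ ^ b' : kˣ) : k) = 1 ↔ b ≡ -b' [ZMOD (M : ℤ)] := by
  rw [← Units.val_mul, Units.val_eq_one, ← zpow_add, hζ.zpow_eq_one_iff_dvd, Int.modEq_iff_dvd]
  constructor
  · rintro ⟨c, hc⟩
    exact ⟨-c, by linarith⟩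
  · rintro ⟨c, hc⟩
    exact ⟨-c, by linarith⟩

theorem zpow_ne_one (hζ : IsPrimitiveRoot ζ M) {b : ℤ} (hb : ¬ (M : ℤ) ∣ b) :
    ((ζ ^ b : kˣ) : k) ≠ 1 := by
  rw [Ne, Units.val_eq_one, hζ.zpow_eq_one_iff_dvd]
  exact hb

/-- Tate's series at the `M`-division point `v = (a,b)` over a field. -/
def XK (M : ℕ) (ζ : kˣ) (a b : ℤ) : PowerSeries k := Xser M ζ (kap ((ζ ^ b : kˣ) : k)) a b

theorem coeff_XK_zero_of_pos {a : ℕ} (b : ℤ) (ha0 : 0 < a) (haM : a < M) :
    PowerSeries.coeff 0 (XK M ζ a b) = 0 := by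
  rw [XK, coeff_Xser_zero, if_neg]
  rw [Int.natCast_dvd_natCast]
  intro h
  exact absurd (Nat.le_of_dvd ha0 h) (by omega)

theorem coeff_XK_zero_zero (b : ℤ) :
    PowerSeries.coeff 0 (XK M ζ 0 b) = kap ((ζ ^ b : kˣ) : k) := by
  rw [XK, coeff_Xser_zero, if_pos (dvd_zero _)]

/-- **injectivity on normalised representatives** `0 ≤ a ≤ M/2`. -/
theorem XK_injective (hζ : IsPrimitiveRoot ζ M) {a a' : ℕ} {b b' : ℤ} (ha : 2 * a ≤ M)
    (ha' : 2 * a' ≤ M) (hv : a = 0 → ¬ (M : ℤ) ∣ b) (hw : a' = 0 → ¬ (M : ℤ) ∣ b')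
    (h : XK M ζ a b = XK M ζ a' b') :
    a = a' ∧ (b ≡ b' [ZMOD (M : ℤ)] ∨ ((a = 0 ∨ 2 * a = M) ∧ b ≡ -b' [ZMOD (M : ℤ)])) := by
  have hc : ∀ n, PowerSeries.coeff n (XK M ζ a b) = PowerSeries.coeff n (XK M ζ a' b') :=
    fun n => by rw [h]
  have hunit : ∀ c : ℤ, ((ζ ^ c : kˣ) : k) ≠ 0 := fun c => Units.ne_zero _
  rcases Nat.eq_zero_or_pos a with ha0 | ha0
  · subst ha0
    rcases Nat.eq_zero_or_pos a' with ha0' | ha0'
    · subst ha0'
      refine ⟨rfl, ?_⟩
      have h0 := hc 0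
      rw [Nat.cast_zero, coeff_XK_zero_zero, coeff_XK_zero_zero,
        kap_eq_iff (zpow_ne_one hζ (hv rfl)) (zpow_ne_one hζ (hw rfl))] at h0
      rcases h0 with h1 | h1
      · exact Or.inl ((zpow_eq_zpow_iff hζ _ _).mp h1.symm)
      · exact Or.inr ⟨Or.inl rfl, (zpow_mul_eq_one_iff hζ _ _).mp h1⟩
    · exfalso
      have h0 := hc 0
      rw [Nat.cast_zero, coeff_XK_zero_zero, coeff_XK_zero_of_pos b' ha0' (by omega)] at h0
      exact kap_ne_zero (zpow_ne_one hζ (hv rfl)) (hunit b) h0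
  · rcases Nat.eq_zero_or_pos a' with ha0' | ha0'
    · subst ha0'
      exfalso
      have h0 := hc 0
      rw [Nat.cast_zero, coeff_XK_zero_zero, coeff_XK_zero_of_pos b ha0 (by omega)] at h0
      exact kap_ne_zero (zpow_ne_one hζ (hw rfl)) (hunit b') h0.symm
    · -- both positive
      have key : ∀ {a a' : ℕ} {b b' : ℤ}, 0 < a → a < a' → 2 * a' ≤ M →
          (∀ n, PowerSeries.coeff n (XK M ζ a b) = PowerSeries.coeff n (XK M ζ a' b')) →
          False := by
        intro a a' b b' h0 hlt hle hcc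
        have h1 := hcc a
        rw [XK, XK, coeff_Xser_of_ne_zero _ _ _ _ _ h0.ne', coeff_Xser_of_ne_zero _ _ _ _ _ h0.ne',
          cX_self M ζ b h0 (by omega), cX_of_lt M ζ b' h0 hlt hle] at h1
        exact Units.ne_zero _ h1
      rcases lt_trichotomy a a' with hlt | heq | hgt
      · exact (key ha0 hlt ha' hc).elim
      · subst heq
        refine ⟨rfl, ?_⟩
        have h1 := hc a
        rw [XK, XK, coeff_Xser_of_ne_zero _ _ _ _ _ ha0.ne',
          coeff_Xser_of_ne_zero _ _ _ _ _ ha0.ne'] at h1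
        rcases ha.lt_or_eq with hlt | heq
        · rw [cX_self M ζ b ha0 hlt, cX_self M ζ b' ha0 hlt] at h1
          exact Or.inl ((zpow_eq_zpow_iff hζ _ _).mp h1)
        · rw [cX_half M ζ b ha0 heq, cX_half M ζ b' ha0 heq, zpow_neg, zpow_neg,
            Units.val_inv_eq_inv_val, Units.val_inv_eq_inv_val,
            add_inv_eq_iff (hunit b) (hunit b')] at h1
          rcases h1 with h2 | h2
          · exact Or.inl ((zpow_eq_zpow_iff hζ _ _).mp h2.symm)
          · exact Or.inr ⟨Or.inr heq, (zpow_mul_eq_one_iff hζ _ _).mp h2⟩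
      · exact (key ha0' hgt ha fun n => (hc n).symm).elim

end Main

/-! ### `℘(v) + ℘(w) ≠ 0` -/

section Sum

variable {k : Type*} [Field k] {M : ℕ} {ζ : kˣ}

theorem coeff_six_mul_add (f g : PowerSeries k) (n : ℕ) :
    PowerSeries.coeff n (PowerSeries.C (6 : k) * (f + g) + 1) =
      6 * (PowerSeries.coeff n f + PowerSeries.coeff n g) + if n = 0 then 1 else 0 := by
  rw [map_add, PowerSeries.coeff_C_mul, map_add, PowerSeries.coeff_one]

/-- the case `a = 0 < a'` of `XK_add_ne`. -/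
theorem XK_add_ne_aux (hζ : IsPrimitiveRoot ζ M) (h6 : (6 : k) ≠ 0) (hM : 1 < M) {a' : ℕ}
    {b b' : ℤ} (ha' : 2 * a' ≤ M) (hv : ¬ (M : ℤ) ∣ b) (ha0' : 0 < a')
    (hc : ∀ n, 6 * (PowerSeries.coeff n (XK M ζ 0 b) + PowerSeries.coeff n (XK M ζ a' b')) +
      (if n = 0 then (1 : k) else 0) = 0) : False := by
  have hunit : ∀ c : ℤ, ((ζ ^ c : kˣ) : k) ≠ 0 := fun c => Units.ne_zero _
  have hpos : ∀ n, 0 < n →
      PowerSeries.coeff n (XK M ζ 0 b) + PowerSeries.coeff n (XK M ζ a' b') = 0 := by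
    intro n hn
    have := hc n
    rw [if_neg hn.ne', add_zero] at this
    exact (mul_eq_zero.mp this).resolve_left h6
  have h1 := hpos a' ha0'
  rw [XK, XK, coeff_Xser_of_ne_zero _ _ _ _ _ ha0'.ne', coeff_Xser_of_ne_zero _ _ _ _ _ ha0'.ne',
    cX_zero_of_lt M ζ b ha0' (by omega), zero_add] at h1
  rcases ha'.lt_or_eq with hlt | heq
  · rw [cX_self M ζ b' ha0' hlt] at h1
    exact hunit b' h1
  · rw [cX_half M ζ b' ha0' heq] at h1
    -- `ζ^{b'} + ζ^{-b'} = 0`, so `ζ^{2b'} + ζ^{-2b'} = -2`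
    set u : k := ((ζ ^ b' : kˣ) : k) with hu
    have hu' : ((ζ ^ (-b') : kˣ) : k) = u⁻¹ := by
      rw [zpow_neg, Units.val_inv_eq_inv_val]
    rw [hu'] at h1
    have hsq : ((ζ ^ (b' * 2) : kˣ) : k) + ((ζ ^ (-(b' * 2)) : kˣ) : k) = -2 := by
      have e1 : ((ζ ^ (b' * 2) : kˣ) : k) = u ^ 2 := by
        rw [zpow_mul, zpow_ofNat, Units.val_pow_eq_pow_val]
      have e2 : ((ζ ^ (-(b' * 2)) : kˣ) : k) = (u⁻¹) ^ 2 := by
        rw [zpow_neg, zpow_mul, zpow_ofNat, Units.val_inv_eq_inv_val, Units.val_pow_eq_pow_val,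
          inv_pow]
      rw [e1, e2]
      have : (u + u⁻¹) ^ 2 = u ^ 2 + u⁻¹ ^ 2 + 2 := by
        have hu0 : u ≠ 0 := hunit b'
        field_simp
        ring
      rw [h1] at this
      linear_combination -this
    have hMpos : 0 < M := by omega
    have h2 := hpos M hMpos
    rw [XK, XK, coeff_Xser_of_ne_zero _ _ _ _ _ hMpos.ne', coeff_Xser_of_ne_zero _ _ _ _ _ hMpos.ne',
      cX_zero_M M ζ b hM, cX_half_M M ζ b' ha0' heq, hsq] at h2
    -- constant term
    have h0 := hc 0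
    rw [if_pos rfl, coeff_XK_zero_zero, coeff_XK_zero_of_pos b' ha0' (by omega),
      add_zero] at h0
    have hk := kap_mul (zpow_ne_one hζ hv) (hunit b)
    set κ : k := kap ((ζ ^ b : kˣ) : k) with hκ
    set w : k := ((ζ ^ b : kˣ) : k) with hw
    have hw' : ((ζ ^ (-b) : kˣ) : k) = w⁻¹ := by
      rw [zpow_neg, Units.val_inv_eq_inv_val]
    rw [hw'] at h2
    -- `s := w + w⁻¹ - 2 = 6`, `κ s = 1`, `6 κ = -1`
    have hs : w + w⁻¹ - 2 = 6 := by linear_combination h2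
    rw [hs] at hk
    have h2' : (2 : k) ≠ 0 := by
      intro h
      apply h6
      have : (6 : k) = 2 * 3 := by norm_num
      rw [this, h, zero_mul]
    have : (2 : k) = 0 := by linear_combination h0 - hk
    exact h2' this

/-- **`℘(v) + ℘(w) ≢ 0`**: when `6 ≠ 0`, `6 (X_v + X_w) + 1 ≠ 0` (i.e. `pw_v + pw_w ≠ 0`). -/
theorem XK_add_ne (hζ : IsPrimitiveRoot ζ M) (h6 : (6 : k) ≠ 0) (hM : 1 < M) {a a' : ℕ}
    {b b' : ℤ} (ha : 2 * a ≤ M) (ha' : 2 * a' ≤ M) (hv : a = 0 → ¬ (M : ℤ) ∣ b)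
    (hw : a' = 0 → ¬ (M : ℤ) ∣ b') :
    PowerSeries.C (6 : k) * (XK M ζ a b + XK M ζ a' b') + 1 ≠ 0 := by
  intro h
  have hc : ∀ n, 6 * (PowerSeries.coeff n (XK M ζ a b) + PowerSeries.coeff n (XK M ζ a' b')) +
      (if n = 0 then (1 : k) else 0) = 0 := by
    intro n
    rw [← coeff_six_mul_add, h, map_zero]
  have hunit : ∀ c : ℤ, ((ζ ^ c : kˣ) : k) ≠ 0 := fun c => Units.ne_zero _
  rcases Nat.eq_zero_or_pos a with ha0 | ha0
  · subst ha0
    rcases Nat.eq_zero_or_pos a' with ha0' | ha0'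
    · subst ha0'
      -- both on the toric part
      have hMpos : 0 < M := by omega
      have h0 := hc 0
      rw [if_pos rfl, Nat.cast_zero, coeff_XK_zero_zero, coeff_XK_zero_zero] at h0
      have h2 := hc M
      rw [if_neg hMpos.ne', add_zero, Nat.cast_zero, XK, XK,
        coeff_Xser_of_ne_zero _ _ _ _ _ hMpos.ne', coeff_Xser_of_ne_zero _ _ _ _ _ hMpos.ne',
        cX_zero_M M ζ b hM, cX_zero_M M ζ b' hM] at h2
      have h2' := (mul_eq_zero.mp h2).resolve_left h6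
      have hk := kap_mul (zpow_ne_one hζ (hv rfl)) (hunit b)
      have hk' := kap_mul (zpow_ne_one hζ (hw rfl)) (hunit b')
      rw [zpow_neg, Units.val_inv_eq_inv_val] at h2'
      rw [zpow_neg ζ b', Units.val_inv_eq_inv_val] at h2'
      set w : k := ((ζ ^ b : kˣ) : k)
      set w' : k := ((ζ ^ b' : kˣ) : k)
      set s : k := w + w⁻¹ - 2 with hs
      have hs' : w' + w'⁻¹ - 2 = -s := by linear_combination h2'
      rw [hs'] at hk'
      -- κ s = 1, κ' (-s) = 1, 6 (κ + κ') + 1 = 0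
      have hs0 : s ≠ 0 := by
        intro h
        rw [h, mul_zero] at hk
        exact zero_ne_one hk
      have : (kap w + kap w') * s = 0 := by linear_combination hk - hk'
      have hsum : kap w + kap w' = 0 := (mul_eq_zero.mp this).resolve_right hs0
      rw [hsum, mul_zero, zero_add] at h0
      exact one_ne_zero h0
    · exact XK_add_ne_aux hζ h6 hM ha' (hv rfl) ha0' (by simpa using hc)
  · rcases Nat.eq_zero_or_pos a' with ha0' | ha0'
    · subst ha0'
      refine XK_add_ne_aux (b := b') (b' := b) hζ h6 hM ha (hw rfl) ha0 (fun n => ?_)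
      have := hc n
      rw [Nat.cast_zero] at this
      rw [add_comm (PowerSeries.coeff n (XK M ζ 0 b'))]
      exact this
    · have h0 := hc 0
      rw [if_pos rfl, coeff_XK_zero_of_pos b ha0 (by omega),
        coeff_XK_zero_of_pos b' ha0' (by omega), add_zero, mul_zero, zero_add] at h0
      exact one_ne_zero h0

end Sum

/-! ### the generators `τ_v` -/

section Tau

variable {k : Type*} [Field k] {M : ℕ} [NeZero M] {ζ : kˣ}

/-- the generator `τ_v` over a field (constant term `ζ^b/(1-ζ^b)²`). -/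
def tauK (M : ℕ) [NeZero M] (ζ : kˣ) (a b : ℤ) : LaurentSeries k :=
  tau M ζ (kap ((ζ ^ b : kˣ) : k)) a b

theorem lvl1_ne_zero {f : PowerSeries ℤ} (hf : PowerSeries.constantCoeff f = 1) :
    lvl1 k M f ≠ 0 := by
  intro h
  have h1 : (lvl1 k M f).coeff ((M : ℤ) * 0) = 1 := by
    rw [lvl1, qExpand_coeff_mul, show (0 : ℤ) = ((0 : ℕ) : ℤ) from rfl,
      HahnSeries.ofPowerSeries_apply_coeff, PowerSeries.coeff_map,
      PowerSeries.coeff_zero_eq_constantCoeff_apply, hf]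
    simp
  rw [h] at h1
  exact zero_ne_one h1

omit [NeZero M] in
theorem qInv_ne_zero : qInv k M ≠ 0 := by
  rw [qInv]
  exact HahnSeries.single_ne_zero one_ne_zero

theorem tauK_eq (a b : ℤ) :
    tauK M ζ a b = qInv k M * lvl1 k M (eisenstein4 ^ 2 * dedekindEtaUnitInv) *
      (HahnSeries.ofPowerSeries ℤ k
        (PowerSeries.C (6 : k) * XK M ζ a b ^ 2 + XK M ζ a b) - 10 * lvl1 k M s3) := by
  rw [tauK, tau, tauSer, map_add, map_mul, map_pow, XK]
  congr 3
  rw [HahnSeries.ofPowerSeries_C]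
  norm_num
  rw [ofNat_smul_eq_nsmul, nsmul_eq_mul, Nat.cast_ofNat]

/-- **(Sep)**: the generators `τ_v` over a field containing a primitive `M`-th root of unity are
pairwise distinct on normalised representatives `v = (a,b)`, `0 ≤ a ≤ M/2`, up to `v ↦ -v`. -/
theorem tauK_injective (hζ : IsPrimitiveRoot ζ M) (hM : 1 < M) {a a' : ℕ} {b b' : ℤ}
    (ha : 2 * a ≤ M) (ha' : 2 * a' ≤ M) (hv : a = 0 → ¬ (M : ℤ) ∣ b)
    (hw : a' = 0 → ¬ (M : ℤ) ∣ b') (h : tauK M ζ a b = tauK M ζ a' b') :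
    a = a' ∧ (b ≡ b' [ZMOD (M : ℤ)] ∨ ((a = 0 ∨ 2 * a = M) ∧ b ≡ -b' [ZMOD (M : ℤ)])) := by
  have hpre : qInv k M * lvl1 k M (eisenstein4 ^ 2 * dedekindEtaUnitInv) ≠ 0 :=
    mul_ne_zero qInv_ne_zero (lvl1_ne_zero (by
      rw [map_mul, map_pow, constantCoeff_eisenstein4, constantCoeff_dedekindEtaUnitInv, one_pow,
        one_mul]))
  rw [tauK_eq, tauK_eq] at h
  have h1 := mul_left_cancel₀ hpre h
  have h2 := sub_left_injective h1
  have h3 : PowerSeries.C (6 : k) * XK M ζ a b ^ 2 + XK M ζ a b =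
      PowerSeries.C (6 : k) * XK M ζ a' b' ^ 2 + XK M ζ a' b' :=
    HahnSeries.ofPowerSeries_injective h2
  have h4 : (XK M ζ a b - XK M ζ a' b') *
      (PowerSeries.C (6 : k) * (XK M ζ a b + XK M ζ a' b') + 1) = 0 := by
    linear_combination h3
  rcases mul_eq_zero.mp h4 with h5 | h5
  · exact XK_injective hζ ha ha' hv hw (sub_eq_zero.mp h5)
  · exfalso
    by_cases h6 : (6 : k) = 0
    · rw [h6, map_zero, zero_mul, zero_add] at h5
      exact one_ne_zero h5
    · exact XK_add_ne hζ h6 hM ha ha' hv hw h5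

end Tau

end Fermat.Agent.S48lib.X1
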