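/-
S48lib / X1 / Field / BridgeAn  (helper3)

**The analytic Fricke functions have the formal generators as `Q`-expansions.**

* `zC M = e(1/M) : ℂˣ`; `pwCoeff_eq_cX` : helper7's Lambert coefficients are the formal `cX`;
* `laurentExp_pwOf`  : `laurentExp M (pwOf M a b) = X_(a,b) + 1/12`;
* `laurentExp_fricke`: `laurentExp M (fricke M v) = fr M ζ κ (1/12) a b` (`a = v 0 % M`, `b = v 1 % M`).
-/
import Fermat.Agent.S48lib.X1.Field.Sep
import Fermat.Agent.S48lib.X1.Wp.QCoeff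
import Fermat.Agent.S48lib.X1.Wp.FrickeWH0
import Fermat.Agent.S48lib.X1.HeckeJ.QExpGen

set_option autoImplicit false
set_option linter.unusedSectionVars false

noncomputable section

namespace Fermat.Agent.S48lib.X1

open PowerSeries ModularCurve UpperHalfPlane
open Fermat.Agent.ProgramR Fermat.Agent.ProgramR.QExp

/-! ### the root of unity and the coefficients -/

section Coeff

variable (M : ℕ) [NeZero M]

/-- `ζ_M = e(1/M)` as a unit of `ℂ`. -/
def zC : ℂˣ := Units.mk0 (Wp.ee (1 / (M : ℂ))) (Wp.ee_ne_zero _)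

theorem zC_zpow (b : ℤ) : ((zC M ^ b : ℂˣ) : ℂ) = Wp.zOf M b := by
  rw [Units.val_zpow_eq_zpow_val, zC, Units.val_mk0, ← Wp.ee_int_mul, Wp.zOf]
  congr 1
  ring

theorem zC_zpow_neg (b : ℤ) : ((zC M ^ (-b) : ℂˣ) : ℂ) = (Wp.zOf M b)⁻¹ := by
  rw [zpow_neg, Units.val_inv_eq_inv_val, zC_zpow]

theorem phi_eq_kap (u : ℂ) : Wp.phi u = kap u := rfl

/-- the divisor sum `∑_{i ∣ n, M ∣ n/i} i` is `[M ∣ n] σ₁(n/M)`. -/
theorem sum_ind3 (n : ℕ) (hn : n ≠ 0) :
    ∑ i ∈ n.divisors, (i : ℂ) * Wp.ind3 M (n / i) = (sigmaDiv M n : ℂ) := by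
  unfold sigmaDiv
  split_ifs with hMn
  · obtain ⟨k, rfl⟩ := hMn
    have hM0 : M ≠ 0 := NeZero.ne M
    have hk0 : k ≠ 0 := fun h => hn (by rw [h, mul_zero])
    rw [Nat.mul_div_cancel_left k (Nat.pos_of_ne_zero hM0)]
    push_cast
    have hfilter : (M * k).divisors.filter (fun i => M ∣ (M * k) / i) = k.divisors := by
      ext i
      simp only [Finset.mem_filter, Nat.mem_divisors]
      constructor
      · rintro ⟨⟨hi, _⟩, j, hj⟩
        refine ⟨?_, hk0⟩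
        have h1 : M * k = i * (M * j) := by
          rw [← hj, Nat.mul_div_cancel' hi]
        have h2 : M * k = M * (i * j) := by rw [h1]; ring
        exact ⟨j, Nat.eq_of_mul_eq_mul_left (Nat.pos_of_ne_zero hM0) h2⟩
      · rintro ⟨⟨j, rfl⟩, _⟩
        have hi0 : 0 < i := Nat.pos_of_ne_zero fun h => hk0 (by rw [h, zero_mul])
        refine ⟨⟨⟨M * j, by ring⟩, hn⟩, j, ?_⟩
        rw [show M * (i * j) = i * (M * j) by ring, Nat.mul_div_cancel_left _ hi0]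
    rw [← hfilter, Finset.sum_filter]
    refine Finset.sum_congr rfl fun i _ => ?_
    unfold Wp.ind3
    split_ifs with h1 h2 h2
    · rw [mul_one]
    · exact absurd (Int.natCast_dvd_natCast.mp h1) h2
    · exact absurd (Int.natCast_dvd_natCast.mpr h2) h1
    · rw [mul_zero]
  · rw [Int.cast_zero]
    refine Finset.sum_eq_zero fun i hi => ?_
    unfold Wp.ind3
    rw [if_neg, mul_zero]
    intro h
    exact hMn ((Int.natCast_dvd_natCast.mp h).trans (Nat.div_dvd_of_dvd (Nat.mem_divisors.mp hi).1))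

/-- **helper7's Lambert coefficients are the formal coefficients `cX`.** -/
theorem pwCoeff_eq_cX (a : ℕ) (b : ℤ) {n : ℕ} (hn : n ≠ 0) :
    Wp.pwCoeff M a b n = cX M (zC M) (a : ℤ) b n := by
  rw [Wp.pwCoeff, if_neg hn, Nat.sum_divisorsAntidiagonal' (f := fun d m => Wp.lamG M a b d m)]
  unfold cX
  rw [← sum_ind3 M n hn, Finset.mul_sum, ← Finset.sum_sub_distrib]
  refine Finset.sum_congr rfl fun i _ => ?_
  unfold Wp.lamG Wp.ind1 Wp.ind2
  have h1 : ((M : ℤ) ∣ ((n / i : ℕ) : ℤ) - (a : ℤ)) ↔ (((n / i : ℕ) : ℤ) ≡ (a : ℤ) [ZMOD (M : ℤ)]) := by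
    rw [Int.modEq_iff_dvd, dvd_sub_comm]
  have h2 : ((M : ℤ) ∣ ((n / i : ℕ) : ℤ) + (a : ℤ)) ↔
      (((n / i : ℕ) : ℤ) ≡ -(a : ℤ) [ZMOD (M : ℤ)]) := by
    rw [Int.modEq_iff_dvd, ← dvd_neg]
    have : -(((n / i : ℕ) : ℤ) + (a : ℤ)) = -(a : ℤ) - ((n / i : ℕ) : ℤ) := by ring
    rw [this]
  simp only [h1, h2]
  have e1 : ((zC M ^ (b * (i : ℤ)) : ℂˣ) : ℂ) = Wp.zOf M b ^ i := by
    rw [zpow_mul, zpow_natCast, Units.val_pow_eq_pow_val, zC_zpow]
  have e2 : ((zC M ^ (-(b * (i : ℤ))) : ℂˣ) : ℂ) = (Wp.zOf M b)⁻¹ ^ i := by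
    rw [← neg_mul, zpow_mul, zpow_natCast, Units.val_pow_eq_pow_val, zC_zpow_neg]
  rw [e1, e2]
  split_ifs <;> ring

end Coeff

/-! ### the expansion of `pwOf` -/

section PwOf

open Function Wp

variable {M : ℕ} [NeZero M]

theorem Mpos_real : (0 : ℝ) < (M : ℝ) := Nat.cast_pos.mpr (NeZero.pos M)

theorem qParam_eq_ee (τ : ℂ) : Periodic.qParam (M : ℝ) τ = ee (τ / M) := by
  rw [Periodic.qParam, ee]
  congr 1
  push_cast
  ring

theorem pwOf_add_M (a b : ℤ) (t : ℂ) : pwOf M a b (t + M) = pwOf M a b t := by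
  unfold pwOf wOf
  have h1 : ee (((a : ℂ) * (t + M) + b) / M) = ee (((a : ℂ) * t + b) / M) := by
    have hM : (M : ℂ) ≠ 0 := Nat.cast_ne_zero.2 (NeZero.ne M)
    have : ((a : ℂ) * (t + M) + b) / M = ((a : ℂ) * t + b) / M + (a : ℤ) := by
      field_simp
      ring
    rw [this, ee_add, ee_intCast, mul_one]
  have h2 : ee (t + M) = ee t := by
    have : t + (M : ℂ) = t + ((M : ℤ) : ℂ) := by push_cast; rfl
    rw [this, ee_add, ee_intCast, mul_one]
  rw [h1, h2]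

theorem isHolPerBdd_pwOf {a : ℕ} (ha : a < M) (b : ℤ) (hab : ¬ ((a : ℤ) = 0 ∧ (M : ℤ) ∣ b)) :
    IsHolPerBdd (M : ℝ) (fun τ : ℍ => pwOf M (a : ℤ) b τ) where
  holo := by
    rw [UpperHalfPlane.mdifferentiable_iff]
    refine (differentiableOn_pwOf (Int.natCast_nonneg a) (by exact_mod_cast ha) hab).congr ?_
    intro t ht
    simp only [Function.comp_apply]
    rw [ofComplex_apply_of_im_pos ht]
  periodic := by
    apply periodic_comp_ofComplex_of_vadd
    intro τ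
    have : (((M : ℝ) +ᵥ τ : ℍ) : ℂ) = (τ : ℂ) + M := by
      rw [UpperHalfPlane.coe_vadd]
      push_cast
      ring
    show pwOf M (a : ℤ) b (((M : ℝ) +ᵥ τ : ℍ) : ℂ) = pwOf M (a : ℤ) b τ
    rw [this, pwOf_add_M]
  bdd := isBoundedAtImInfty_pwOf (Int.natCast_nonneg a) (by exact_mod_cast ha)

theorem mk_pwCoeff {a : ℕ} (haM : a < M) (b : ℤ) :
    PowerSeries.mk (pwCoeff M a b) =
      XK M (zC M) (a : ℤ) b + PowerSeries.C (1 / 12 : ℂ) := by
  ext n
  rw [PowerSeries.coeff_mk, map_add, PowerSeries.coeff_C]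
  by_cases hn : n = 0
  · subst hn
    rw [if_pos rfl, XK, coeff_Xser_zero, pwCoeff, if_pos rfl, zC_zpow, phi_eq_kap, add_comm]
    congr 1
    by_cases ha : a = 0
    · subst ha
      rw [if_pos rfl, Nat.cast_zero, if_pos (dvd_zero _)]
    · rw [if_neg ha, if_neg]
      intro h
      exact ha (Nat.eq_zero_of_dvd_of_lt (Int.natCast_dvd_natCast.mp h) haM)
  · rw [if_neg hn, add_zero, XK, coeff_Xser_of_ne_zero _ _ _ _ _ hn, pwCoeff_eq_cX M a b hn]

/-- **the `Q`-expansion of `pwOf`** -/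
theorem qExpansion_pwOf {a : ℕ} (ha : a < M) (b : ℤ) (hab : ¬ ((a : ℤ) = 0 ∧ (M : ℤ) ∣ b)) :
    qExpansion (M : ℝ) (fun τ : ℍ => pwOf M (a : ℤ) b τ) =
      XK M (zC M) (a : ℤ) b + PowerSeries.C (1 / 12 : ℂ) := by
  have hH := isHolPerBdd_pwOf ha b hab
  rw [← mk_pwCoeff ha]
  refine qExpansion_eq_of_hasSum Mpos_real (hH.analyticAt Mpos_real) (c := pwCoeff M a b) ?_
  intro τ
  have h := hasSum_pwOf ha b τ
  simpa only [smul_eq_mul, qParam_eq_ee] using h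

end PwOf

end Fermat.Agent.S48lib.X1
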