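/-
S48lib / X1 / Field / AnTau  (helper3)

**The analytic generators** `τ_v = (E₄²/Δ)(6 ℘_v² - E₄/24)` of level `M` (`℘_v` the normalised
Weierstrass function at the division point `(v₀ τ + v₁)/M`): transformation under `SL(2,ℤ)`,
membership in `WH0 (Γ(M))`, and the `Q`-expansion (`Q = e(τ/M)`) — the formal generator `tau` of
`Field/Defs`.
-/
import Fermat.Agent.S48lib.X1.Field.BridgeAn

set_option autoImplicit false
set_option linter.unusedSectionVars false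

noncomputable section

namespace Fermat.Agent.S48lib.X1

open UpperHalfPlane hiding I
open PowerSeries ModularCurve Complex Filter Topology MatrixGroups ModularForm EisensteinSeries
open scoped Real Manifold
open Fermat.Agent.ProgramR Fermat.Agent.ProgramR.QExp Fermat.Agent.ProgramR.LevelOne
open Wp

local notation "Δ" => ModularForm.discriminant

/-! ### definition and transformation -/

/-- the normalised Weierstrass function at the division point `(v₀τ + v₁)/M` -/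
def wpN (M : ℕ) (v : Fin 2 → ℤ) (τ : ℍ) : ℂ := wp τ (divPt M v τ) / (2 * π * I) ^ 2

/-- **the analytic generator** `τ_v` of level `M` -/
def tauAn (M : ℕ) (v : Fin 2 → ℤ) (τ : ℍ) : ℂ :=
  E₄ τ ^ 2 / Δ τ * (6 * wpN M v τ ^ 2 - E₄ τ / 24)

theorem wpN_smul (M : ℕ) (v : Fin 2 → ℤ) (γ : SL(2, ℤ)) (τ : ℍ) :
    wpN M v (γ • τ) = denom γ τ ^ 2 * wpN M (rowMul v γ) τ := by
  rw [wpN, wpN, divPt_smul, wp_smul]
  ring

/-- **transformation of the generators** -/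
theorem tauAn_smul (M : ℕ) (v : Fin 2 → ℤ) (γ : SL(2, ℤ)) (τ : ℍ) :
    tauAn M v (γ • τ) = tauAn M (rowMul v γ) τ := by
  have hd : denom γ τ ≠ 0 := denom_ne_zero _ _
  have hΔ : Δ τ ≠ 0 := discriminant_ne_zero τ
  rw [tauAn, tauAn, wpN_smul, discriminant_smul, E₄_smul]
  have e4 : denom γ τ ^ (4 : ℤ) = denom γ τ ^ 4 := by norm_cast
  have e12 : denom γ τ ^ (12 : ℤ) = denom γ τ ^ 12 := by norm_cast
  rw [e4, e12]
  field_simp

theorem wpN_neg (M : ℕ) (v : Fin 2 → ℤ) : wpN M (-v) = wpN M v := by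
  funext τ
  rw [wpN, wpN, divPt_neg, wp_neg]

theorem tauAn_neg (M : ℕ) (v : Fin 2 → ℤ) : tauAn M (-v) = tauAn M v := by
  funext τ
  rw [tauAn, tauAn, wpN_neg]

theorem wpN_add_mul (M : ℕ) [NeZero M] (v u : Fin 2 → ℤ) :
    wpN M (v + (M : ℤ) • u) = wpN M v := by
  funext τ
  rw [wpN, wpN, divPt_add_mul, wp_add_int_mul]

/-- `℘_v` only depends on `v` modulo `M` -/
theorem wpN_congr (M : ℕ) [NeZero M] {v v' : Fin 2 → ℤ}
    (h : ∀ i, (M : ℤ) ∣ v' i - v i) : wpN M v' = wpN M v := by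
  choose u hu using h
  have e : v' = v + (M : ℤ) • u := by
    funext i
    simp only [Pi.add_apply, Pi.smul_apply, smul_eq_mul]
    linarith [hu i]
  rw [e, wpN_add_mul]

/-- `τ_v` only depends on `v` modulo `M` -/
theorem tauAn_congr (M : ℕ) [NeZero M] {v v' : Fin 2 → ℤ}
    (h : ∀ i, (M : ℤ) ∣ v' i - v i) : tauAn M v' = tauAn M v := by
  funext τ
  rw [tauAn, tauAn, wpN_congr M h]

theorem wpN_red (M : ℕ) [NeZero M] (v : Fin 2 → ℤ) : wpN M (red M v) = wpN M v :=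
  wpN_congr M fun i => by
    simp only [red]
    exact ⟨-(v i / (M : ℤ)), by linarith [Int.emod_add_mul_ediv (v i) (M : ℤ)]⟩

section

variable {M : ℕ} [NeZero M] {v : Fin 2 → ℤ}

theorem wpN_eq_pwOf (hv : NZ M v) (τ : ℍ) :
    wpN M v τ = pwOf M (v 0 % M) (v 1 % M) τ := by
  rw [← wpN_red, wpN, wp_eq (divPt_notMem_lattice (nz_red.2 hv) τ),
    mul_div_cancel_left₀ _ two_pi_I_sq_ne_zero]
  rfl

/-- **the `q`-product form of the generators** -/
theorem tauAn_eq_pwOf (hv : NZ M v) (τ : ℍ) :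
    tauAn M v τ = E₄ τ ^ 2 / Δ τ * (6 * pwOf M (v 0 % M) (v 1 % M) τ ^ 2 - E₄ τ / 24) := by
  rw [tauAn, wpN_eq_pwOf hv]

theorem tauAn_mul_discriminant (hv : NZ M v) (τ : ℍ) :
    tauAn M v τ * Δ τ = E₄ τ ^ 2 * (6 * pwOf M (v 0 % M) (v 1 % M) τ ^ 2 - E₄ τ / 24) := by
  rw [tauAn_eq_pwOf hv]
  field_simp [discriminant_ne_zero τ]

theorem mdifferentiable_tauAn (hv : NZ M v) : MDiff (tauAn M v) := by
  have h1 : MDiff (fun z : ℍ => E₄ z ^ 2 / CuspForm.discriminant z) :=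
    (E₄.holo'.pow 2).div CuspForm.discriminant.holo' discriminant_ne_zero
  have hp := mdifferentiable_pwOf hv
  have hc6 : MDiff (fun _ : ℍ => (6 : ℂ)) := mdifferentiable_const
  have hc24 : MDiff (fun _ : ℍ => (24 : ℂ)⁻¹) := mdifferentiable_const
  have h2 : MDiff (fun z : ℍ => (6 : ℂ) * pwOf M (v 0 % M) (v 1 % M) z ^ 2 - E₄ z * (24 : ℂ)⁻¹) :=
    (hc6.mul (hp.pow 2)).sub (E₄.holo'.mul hc24)
  have h3 := h1.mul h2
  have e : tauAn M v = (fun z : ℍ => E₄ z ^ 2 / CuspForm.discriminant z) *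
      (fun z : ℍ => (6 : ℂ) * pwOf M (v 0 % M) (v 1 % M) z ^ 2 - E₄ z * (24 : ℂ)⁻¹) := by
    funext τ
    rw [tauAn_eq_pwOf hv, Pi.mul_apply, div_eq_mul_inv (E₄ τ) 24]
    rfl
  rw [e]
  exact h3

theorem isBoundedAtImInfty_tauAn_mul (hv : NZ M v) :
    IsBoundedAtImInfty (fun τ : ℍ => tauAn M v τ * Δ τ) := by
  have hE : IsBoundedAtImInfty (E₄ : ℍ → ℂ) := ModularFormClass.bdd_at_infty E₄
  have hp : IsBoundedAtImInfty (fun τ : ℍ => pwOf M (v 0 % M) (v 1 % M) τ) :=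
    isBoundedAtImInfty_pwOf (b := v 1 % M) (emod_nonneg' (M := M) (v 0)) (emod_lt' (v 0))
  have h6 : IsBoundedAtImInfty (fun _ : ℍ => (6 : ℂ)) := isBoundedAtImInfty_const 6
  have h24 : IsBoundedAtImInfty (fun _ : ℍ => (24 : ℂ)⁻¹) := isBoundedAtImInfty_const _
  have h := (hE.mul hE).mul (((h6.mul (hp.mul hp)).sub (hE.mul h24)))
  refine Asymptotics.IsBigO.congr_left h fun τ => ?_
  simp only [Pi.mul_apply, Pi.sub_apply]
  rw [tauAn_mul_discriminant hv]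
  ring

/-- **the generators are weakly holomorphic modular functions for any `Γ' ⊆ SL(2,ℤ)` that fixes
them** (e.g. `Γ(M)`, and `±Γ₁(M)` for `v = (0,b)`) -/
theorem isWH0_tauAn_of (hv : NZ M v) (Γ' : Subgroup SL(2, ℤ))
    (hΓ : ∀ γ ∈ Γ', tauAn M (rowMul v γ) = tauAn M v) : IsWH0 Γ' (tauAn M v) where
  mdiff := mdifferentiable_tauAn hv
  smul_eq := by
    intro γ hγ z
    rw [tauAn_smul, hΓ γ hγ]
  exists_bdd := by
    refine ⟨1, fun g => ?_⟩
    have h := isBoundedAtImInfty_tauAn_mul ((nz_rowMul g).2 hv)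
    have e : (fun z : ℍ => tauAn M v (g • z) * Δ z ^ 1) =
        fun τ : ℍ => tauAn M (rowMul v g) τ * Δ τ := by
      funext z
      rw [tauAn_smul, pow_one]
    rw [e]
    exact h

theorem isWH0_tauAn (hv : NZ M v) : IsWH0 (CongruenceSubgroup.Gamma M) (tauAn M v) :=
  isWH0_tauAn_of hv _ fun γ hγ => tauAn_congr M (rowMul_sub_dvd (v := v) hγ)

end

/-! ### the `Q`-expansion -/

section Lvl1

variable (R : Type*) [CommRing R] (M : ℕ) [NeZero M]

theorem lvl1_mul (f g : PowerSeries ℤ) : lvl1 R M (f * g) = lvl1 R M f * lvl1 R M g := by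
  rw [lvl1, lvl1, lvl1, map_mul, map_mul, map_mul]

theorem lvl1_one : lvl1 R M 1 = 1 := by
  rw [lvl1, map_one, map_one, map_one]

theorem lvl1_add (f g : PowerSeries ℤ) : lvl1 R M (f + g) = lvl1 R M f + lvl1 R M g := by
  rw [lvl1, lvl1, lvl1, map_add, map_add, map_add]

theorem lvl1_pow (f : PowerSeries ℤ) (n : ℕ) : lvl1 R M (f ^ n) = lvl1 R M f ^ n := by
  rw [lvl1, lvl1, map_pow, map_pow, map_pow]

theorem lvl1_ofNat (n : ℕ) [n.AtLeastTwo] :
    lvl1 R M (OfNat.ofNat n : PowerSeries ℤ) = (OfNat.ofNat n : LaurentSeries R) := by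
  rw [lvl1, map_ofNat, map_ofNat, map_ofNat]

theorem lvl1_eisenstein4 : lvl1 R M eisenstein4 = 1 + 240 * lvl1 R M s3 := by
  rw [eisenstein4_eq, lvl1_add, lvl1_mul, lvl1_one, lvl1_ofNat]

theorem lvl1_eta_mul_inv : lvl1 R M dedekindEtaUnit * lvl1 R M dedekindEtaUnitInv = 1 := by
  rw [← lvl1_mul, dedekindEtaUnit_mul_inv, lvl1_one]

end Lvl1

section Expansion

variable {M : ℕ} [NeZero M] {v : Fin 2 → ℤ}

theorem isMeroAtInfty_of_one {f : ℍ → ℂ} (hf : IsHolPerBdd 1 f) :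
    IsMeroAtInfty (M : ℝ) 0 f := by
  have h := isMeroAtInfty_period_mul one_pos (NeZero.pos M) (IsMeroAtInfty.of_isHolPerBdd hf)
  rwa [mul_one, mul_zero] at h

theorem laurentExp_of_one {f : ℍ → ℂ} (hf : IsHolPerBdd 1 f) :
    laurentExp (M : ℝ) f =
      qExpand ℂ M (HahnSeries.ofPowerSeries ℤ ℂ (qExpansion 1 f)) := by
  have h := laurentExp_period_mul (n := M) one_pos (IsMeroAtInfty.of_isHolPerBdd hf)
  rw [mul_one] at h
  rw [h, laurentExp_of_isHolPerBdd one_pos hf]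

theorem isHolPerBdd_E₄ : IsHolPerBdd 1 (E₄ : ℍ → ℂ) := isHolPerBdd_of_modularForm E₄

theorem isHolPerBdd_discriminant : IsHolPerBdd 1 (fun τ : ℍ => Δ τ) :=
  isHolPerBdd_of_modularForm (CuspForm.discriminant : CuspForm 𝒮ℒ 12)

theorem laurentExp_E₄ : laurentExp (M : ℝ) (E₄ : ℍ → ℂ) = lvl1 ℂ M eisenstein4 := by
  rw [laurentExp_of_one isHolPerBdd_E₄, qExpansion_E₄, lvl1]

theorem laurentExp_discriminant :
    laurentExp (M : ℝ) (fun τ : ℍ => Δ τ) =
      HahnSeries.single (M : ℤ) 1 * lvl1 ℂ M dedekindEtaUnit := by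
  rw [laurentExp_of_one isHolPerBdd_discriminant, qExpansion_discriminant, map_mul, map_mul,
    HahnSeries.ofPowerSeries_X, qExpand_single, mul_one, lvl1, dedekindEtaUnit, etaProdC]
  simp only [map_pow]

theorem emod_toNat_lt (x : ℤ) : (x % (M : ℤ)).toNat < M := by
  have h0 : 0 ≤ x % (M : ℤ) := emod_nonneg' (M := M) x
  have h1 : x % (M : ℤ) < M := emod_lt' (M := M) x
  have : ((x % (M : ℤ)).toNat : ℤ) < M := by rw [Int.toNat_of_nonneg h0]; exact h1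
  exact_mod_cast this

theorem isHolPerBdd_pwOf_emod (hv : NZ M v) :
    IsHolPerBdd (M : ℝ) (fun τ : ℍ => pwOf M (v 0 % M) (v 1 % M) τ) := by
  have h0 : 0 ≤ v 0 % (M : ℤ) := emod_nonneg' (M := M) (v 0)
  have h := isHolPerBdd_pwOf (emod_toNat_lt (M := M) (v 0)) (v 1 % (M : ℤ))
    (by rw [Int.toNat_of_nonneg h0]; exact not_zero_of_nz hv)
  rwa [Int.toNat_of_nonneg h0] at h

theorem qExpansion_pwOf_emod (hv : NZ M v) :
    qExpansion (M : ℝ) (fun τ : ℍ => pwOf M (v 0 % M) (v 1 % M) τ) =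
      XK M (zC M) (v 0 % M) (v 1 % M) + PowerSeries.C (1 / 12 : ℂ) := by
  have h0 : 0 ≤ v 0 % (M : ℤ) := emod_nonneg' (M := M) (v 0)
  have h := qExpansion_pwOf (emod_toNat_lt (M := M) (v 0)) (v 1 % (M : ℤ))
    (by rw [Int.toNat_of_nonneg h0]; exact not_zero_of_nz hv)
  rwa [Int.toNat_of_nonneg h0] at h

theorem T_pow_mem_Gamma : ModularGroup.T ^ (M : ℤ) ∈ CongruenceSubgroup.Gamma M := by
  rw [CongruenceSubgroup.Gamma_mem, ModularGroup.coe_T_zpow]
  simp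

/-- **the `Q`-expansion of the analytic generator is the formal generator** -/
theorem laurentExp_tauAn (hv : NZ M v) :
    laurentExp (M : ℝ) (tauAn M v) = tauK M (zC M) (v 0 % M) (v 1 % M) := by
  have hpos : (0 : ℝ) < (M : ℝ) := Mpos_real
  -- the four functions in the ring of meromorphic-at-infinity functions
  have hT := HeckeJ.mem_merRing_of_mem_WH0_width (CongruenceSubgroup.Gamma M) M T_pow_mem_Gamma
    (mem_WH0.mpr (isWH0_tauAn hv))
  have hE : (E₄ : ℍ → ℂ) ∈ merRing (M : ℝ) hpos :=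
    mem_merRing.mpr ⟨0, isMeroAtInfty_of_one isHolPerBdd_E₄⟩
  have hD : (fun τ : ℍ => Δ τ) ∈ merRing (M : ℝ) hpos :=
    mem_merRing.mpr ⟨0, isMeroAtInfty_of_one isHolPerBdd_discriminant⟩
  have hP : (fun τ : ℍ => pwOf M (v 0 % M) (v 1 % M) τ) ∈ merRing (M : ℝ) hpos :=
    mem_merRing.mpr ⟨0, IsMeroAtInfty.of_isHolPerBdd (isHolPerBdd_pwOf_emod hv)⟩
  set tA : merRing (M : ℝ) hpos := ⟨tauAn M v, hT⟩
  set eE : merRing (M : ℝ) hpos := ⟨(E₄ : ℍ → ℂ), hE⟩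
  set dD : merRing (M : ℝ) hpos := ⟨fun τ : ℍ => Δ τ, hD⟩
  set pP : merRing (M : ℝ) hpos := ⟨fun τ : ℍ => pwOf M (v 0 % M) (v 1 % M) τ, hP⟩
  have hrel : 24 * tA * dD = eE ^ 2 * (144 * pP ^ 2 - eE) := by
    apply Subtype.ext
    funext τ
    show (24 : ℂ) * tauAn M v τ * Δ τ =
      E₄ τ ^ 2 * (144 * pwOf M (v 0 % M) (v 1 % M) τ ^ 2 - E₄ τ)
    rw [mul_assoc, tauAn_mul_discriminant hv]
    ring
  have hrel' := congrArg (laurentExpHom (M : ℝ) hpos) hrel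
  rw [map_mul, map_mul, map_mul, map_sub, map_mul, map_pow, map_pow, map_ofNat, map_ofNat] at hrel'
  simp only [laurentExpHom_apply] at hrel'
  change (24 : LaurentSeries ℂ) * laurentExp (M : ℝ) (tauAn M v) *
      laurentExp (M : ℝ) (fun τ : ℍ => Δ τ) =
    laurentExp (M : ℝ) (E₄ : ℍ → ℂ) ^ 2 *
      (144 * laurentExp (M : ℝ) (fun τ : ℍ => pwOf M (v 0 % M) (v 1 % M) τ) ^ 2 -
        laurentExp (M : ℝ) (E₄ : ℍ → ℂ)) at hrel'
  rw [laurentExp_E₄, laurentExp_discriminant,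
    laurentExp_of_isHolPerBdd hpos (isHolPerBdd_pwOf_emod hv), qExpansion_pwOf_emod hv, map_add,
    HahnSeries.ofPowerSeries_C, lvl1_eisenstein4] at hrel'
  -- the formal side
  set x : LaurentSeries ℂ := HahnSeries.ofPowerSeries ℤ ℂ (XK M (zC M) (v 0 % M) (v 1 % M))
  set c : LaurentSeries ℂ := HahnSeries.C (1 / 12 : ℂ)
  set s : LaurentSeries ℂ := lvl1 ℂ M s3
  set L : LaurentSeries ℂ := laurentExp (M : ℝ) (tauAn M v)
  have hc : 12 * c = 1 := by
    show (12 : LaurentSeries ℂ) * HahnSeries.C (1 / 12 : ℂ) = 1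
    rw [show (12 : LaurentSeries ℂ) = HahnSeries.C (12 : ℂ) by rw [map_ofNat], ← map_mul]
    norm_num
  have hq : qInv ℂ M * HahnSeries.single (M : ℤ) (1 : ℂ) = 1 := by
    rw [qInv, HahnSeries.single_mul_single, neg_add_cancel, mul_one]
    rfl
  have he := lvl1_eta_mul_inv ℂ M
  have hu : (24 : LaurentSeries ℂ) *
      (HahnSeries.single (M : ℤ) (1 : ℂ) * lvl1 ℂ M dedekindEtaUnit) ≠ 0 := by
    refine mul_ne_zero ?_ (mul_ne_zero (HahnSeries.single_ne_zero one_ne_zero) ?_)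
    · rw [show (24 : LaurentSeries ℂ) = HahnSeries.C (24 : ℂ) by rw [map_ofNat]]
      exact (map_ne_zero_iff _ HahnSeries.C_injective).mpr (by norm_num)
    · exact lvl1_ne_zero constantCoeff_dedekindEtaUnit
  apply mul_right_cancel₀ hu
  rw [tauK, tau, tauSer, lvl1_mul, lvl1_pow, lvl1_eisenstein4]
  change L * _ = qInv ℂ M * ((1 + 240 * s) ^ 2 * lvl1 ℂ M dedekindEtaUnitInv) *
    (6 * x ^ 2 + x - 10 * s) * _
  linear_combination hrel' +
    (-(1 + 240 * s) ^ 2 * (6 * x ^ 2 + x - 10 * s) * 24 * (qInv ℂ M *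
        HahnSeries.single (M : ℤ) (1 : ℂ))) * he +
    (-(1 + 240 * s) ^ 2 * (6 * x ^ 2 + x - 10 * s) * 24) * hq +
    ((1 + 240 * s) ^ 2 * (24 * x + 12 * c + 1)) * hc

end Expansion

end Fermat.Agent.S48lib.X1
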