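/-
S48lib / X1 / Field / Formal  (helper3)

Formal properties of the generators `τ_v = tauK M ζ a b`, `v = (a,b)`:
* `tauK_congr` : dependence on `v` modulo `M` only; `tauK_neg` : `τ_{-v} = τ_v`;
* `tauK_eq_iff` : **`τ_v = τ_w ↔ v ≡ ± w (mod M)`** (any field, any characteristic prime to `M`).
-/
import Fermat.Agent.S48lib.X1.Field.Sep

set_option autoImplicit false
set_option linter.unusedSectionVars false

noncomputable section

namespace Fermat.Agent.S48lib.X1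

open PowerSeries ModularCurve

section Congr

variable {R : Type*} [CommRing R]

theorem Xser_congr (M : ℕ) (ζ : Rˣ) (hζ : ζ ^ M = 1) (κ : R) {a a' b b' : ℤ}
    (ha : a ≡ a' [ZMOD (M : ℤ)]) (hb : b ≡ b' [ZMOD (M : ℤ)]) :
    Xser M ζ κ a b = Xser M ζ κ a' b' := by
  ext n
  by_cases hn : n = 0
  · subst hn
    rw [coeff_Xser_zero, coeff_Xser_zero]
    have : (M : ℤ) ∣ a ↔ (M : ℤ) ∣ a' := by
      rw [← Int.modEq_zero_iff_dvd, ← Int.modEq_zero_iff_dvd]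
      exact ⟨fun h => ha.symm.trans h, fun h => ha.trans h⟩
    simp only [this]
  · rw [coeff_Xser_of_ne_zero _ _ _ _ _ hn, coeff_Xser_of_ne_zero _ _ _ _ _ hn,
      cX_congr_left M ζ ha, cX_congr_right M ζ hζ a' hb]

theorem Xser_neg (M : ℕ) (ζ : Rˣ) (κ : R) (a b : ℤ) :
    Xser M ζ κ (-a) (-b) = Xser M ζ κ a b := by
  ext n
  by_cases hn : n = 0
  · subst hn
    rw [coeff_Xser_zero, coeff_Xser_zero]
    simp only [dvd_neg]
  · rw [coeff_Xser_of_ne_zero _ _ _ _ _ hn, coeff_Xser_of_ne_zero _ _ _ _ _ hn, cX_neg]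

theorem tau_congr (M : ℕ) [NeZero M] (ζ : Rˣ) (hζ : ζ ^ M = 1) (κ : R) {a a' b b' : ℤ}
    (ha : a ≡ a' [ZMOD (M : ℤ)]) (hb : b ≡ b' [ZMOD (M : ℤ)]) :
    tau M ζ κ a b = tau M ζ κ a' b' := by
  rw [tau, tau, tauSer, tauSer, Xser_congr M ζ hζ κ ha hb]

theorem tau_neg (M : ℕ) [NeZero M] (ζ : Rˣ) (κ : R) (a b : ℤ) :
    tau M ζ κ (-a) (-b) = tau M ζ κ a b := by
  rw [tau, tau, tauSer, tauSer, Xser_neg]

end Congr

section Field

variable {k : Type*} [Field k] {M : ℕ} [NeZero M] {ζ : kˣ}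

theorem kap_inv (u : k) : kap u⁻¹ = kap u := by
  by_cases hu : u = 0
  · subst hu
    rw [inv_zero]
  · unfold kap
    by_cases h1 : 1 - u = 0
    · have : u = 1 := by linear_combination -h1
      subst this
      rw [inv_one]
    · have h2 : 1 - u⁻¹ ≠ 0 := by
        intro h
        apply h1
        have : u⁻¹ = 1 := by linear_combination -h
        rw [inv_eq_one] at this
        rw [this, sub_self]
      rw [div_eq_div_iff (pow_ne_zero 2 h2) (pow_ne_zero 2 h1)]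
      field_simp
      ring

theorem zpow_congr (hζ : ζ ^ M = 1) {b b' : ℤ} (h : b ≡ b' [ZMOD (M : ℤ)]) : ζ ^ b = ζ ^ b' := by
  obtain ⟨c, hc⟩ := h.symm.dvd
  have : b = b' + M * c := by linarith
  rw [this, zpow_add, zpow_mul, zpow_natCast, hζ, one_zpow, mul_one]

theorem tauK_congr (hζ : ζ ^ M = 1) {a a' b b' : ℤ}
    (ha : a ≡ a' [ZMOD (M : ℤ)]) (hb : b ≡ b' [ZMOD (M : ℤ)]) :
    tauK M ζ a b = tauK M ζ a' b' := by
  rw [tauK, tauK, zpow_congr hζ hb, tau_congr M ζ hζ _ ha hb]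

theorem tauK_neg (a b : ℤ) : tauK M ζ (-a) (-b) = tauK M ζ a b := by
  rw [tauK, tauK, tau_neg, zpow_neg, Units.val_inv_eq_inv_val, kap_inv]

/-- normalisation of a vector modulo `M` and sign: first coordinate in `[0, M/2]` -/
theorem exists_normal (M : ℕ) [NeZero M] (a b : ℤ) :
    ∃ (a₀ : ℕ) (b₀ : ℤ), 2 * a₀ ≤ M ∧
      ((a ≡ a₀ [ZMOD (M : ℤ)] ∧ b ≡ b₀ [ZMOD (M : ℤ)]) ∨
        (a ≡ -a₀ [ZMOD (M : ℤ)] ∧ b ≡ -b₀ [ZMOD (M : ℤ)])) := by
  have hM : (0 : ℤ) < M := Int.natCast_pos.2 (NeZero.pos M)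
  have h0 : 0 ≤ a % (M : ℤ) := Int.emod_nonneg _ hM.ne'
  have h1 : a % (M : ℤ) < M := Int.emod_lt_of_pos _ hM
  by_cases h : 2 * (a % (M : ℤ)) ≤ M
  · refine ⟨(a % (M : ℤ)).toNat, b, ?_, Or.inl ⟨?_, Int.ModEq.refl _⟩⟩
    · have : (2 : ℤ) * ((a % (M : ℤ)).toNat : ℤ) ≤ M := by rw [Int.toNat_of_nonneg h0]; exact h
      exact_mod_cast this
    · rw [Int.toNat_of_nonneg h0]
      exact (Int.mod_modEq a M).symm
  · refine ⟨((M : ℤ) - a % (M : ℤ)).toNat, -b, ?_, Or.inr ⟨?_, by rw [neg_neg]⟩⟩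
    · have h2 : 0 ≤ (M : ℤ) - a % (M : ℤ) := by linarith
      have : (2 : ℤ) * (((M : ℤ) - a % (M : ℤ)).toNat : ℤ) ≤ M := by
        rw [Int.toNat_of_nonneg h2]; linarith
      exact_mod_cast this
    · have h2 : 0 ≤ (M : ℤ) - a % (M : ℤ) := by linarith
      rw [Int.toNat_of_nonneg h2, Int.modEq_iff_dvd]
      have h3 := Int.emod_add_mul_ediv a (M : ℤ)
      exact ⟨-(a / (M : ℤ)) - 1, by linarith⟩

/-- **(Sep), vector form**: `τ_v = τ_w ↔ v ≡ ± w (mod M)`. -/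
theorem tauK_eq_iff (hζ : IsPrimitiveRoot ζ M) (hM : 1 < M) {a a' b b' : ℤ}
    (hv : ¬ ((M : ℤ) ∣ a ∧ (M : ℤ) ∣ b)) (hw : ¬ ((M : ℤ) ∣ a' ∧ (M : ℤ) ∣ b')) :
    tauK M ζ a b = tauK M ζ a' b' ↔
      (a ≡ a' [ZMOD (M : ℤ)] ∧ b ≡ b' [ZMOD (M : ℤ)]) ∨
        (a ≡ -a' [ZMOD (M : ℤ)] ∧ b ≡ -b' [ZMOD (M : ℤ)]) := by
  have hζ1 : ζ ^ M = 1 := hζ.pow_eq_one
  constructor
  · intro h
    obtain ⟨a₀, b₀, h2a, hn⟩ := exists_normal M a b
    obtain ⟨a₁, b₁, h2a', hn'⟩ := exists_normal M a' b'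
    have e0 : tauK M ζ a b = tauK M ζ a₀ b₀ := by
      rcases hn with ⟨h1, h2⟩ | ⟨h1, h2⟩
      · exact tauK_congr hζ1 h1 h2
      · rw [tauK_congr hζ1 h1 h2, tauK_neg]
    have e1 : tauK M ζ a' b' = tauK M ζ a₁ b₁ := by
      rcases hn' with ⟨h1, h2⟩ | ⟨h1, h2⟩
      · exact tauK_congr hζ1 h1 h2
      · rw [tauK_congr hζ1 h1 h2, tauK_neg]
    -- non-vanishing of the normalised vectors
    have nz0 : a₀ = 0 → ¬ (M : ℤ) ∣ b₀ := by
      intro ha0 hb0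
      apply hv
      rcases hn with ⟨h1, h2⟩ | ⟨h1, h2⟩
      · refine ⟨?_, ?_⟩
        · rw [← Int.modEq_zero_iff_dvd]
          refine h1.trans ?_
          rw [ha0]; rfl
        · rw [← Int.modEq_zero_iff_dvd]
          exact h2.trans (Int.modEq_zero_iff_dvd.2 hb0)
      · refine ⟨?_, ?_⟩
        · rw [← Int.modEq_zero_iff_dvd]
          refine h1.trans ?_
          rw [ha0]; rfl
        · rw [← Int.modEq_zero_iff_dvd]
          exact h2.trans (Int.modEq_zero_iff_dvd.2 (dvd_neg.2 hb0))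
    have nz1 : a₁ = 0 → ¬ (M : ℤ) ∣ b₁ := by
      intro ha0 hb0
      apply hw
      rcases hn' with ⟨h1, h2⟩ | ⟨h1, h2⟩
      · refine ⟨?_, ?_⟩
        · rw [← Int.modEq_zero_iff_dvd]
          refine h1.trans ?_
          rw [ha0]; rfl
        · rw [← Int.modEq_zero_iff_dvd]
          exact h2.trans (Int.modEq_zero_iff_dvd.2 hb0)
      · refine ⟨?_, ?_⟩
        · rw [← Int.modEq_zero_iff_dvd]
          refine h1.trans ?_
          rw [ha0]; rfl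
        · rw [← Int.modEq_zero_iff_dvd]
          exact h2.trans (Int.modEq_zero_iff_dvd.2 (dvd_neg.2 hb0))
    rw [e0, e1] at h
    obtain ⟨haa, hbb⟩ := tauK_injective hζ hM h2a h2a' nz0 nz1 h
    subst haa
    -- `(a₀, b₀) ≡ ± (a₀, b₁)`
    have key : ((a₀ : ℤ) ≡ a₀ [ZMOD (M : ℤ)] ∧ b₀ ≡ b₁ [ZMOD (M : ℤ)]) ∨
        ((a₀ : ℤ) ≡ -a₀ [ZMOD (M : ℤ)] ∧ b₀ ≡ -b₁ [ZMOD (M : ℤ)]) := by
      rcases hbb with hbb | ⟨haz, hbb⟩
      · exact Or.inl ⟨Int.ModEq.refl _, hbb⟩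
      · refine Or.inr ⟨?_, hbb⟩
        rcases haz with haz | haz
        · rw [haz]; rfl
        · rw [Int.modEq_iff_dvd]
          exact ⟨-1, by have : (2 : ℤ) * a₀ = M := by exact_mod_cast haz
                        linarith⟩
    -- combine the signs
    rcases hn with ⟨h1, h2⟩ | ⟨h1, h2⟩ <;> rcases hn' with ⟨h1', h2'⟩ | ⟨h1', h2'⟩ <;>
      rcases key with ⟨k1, k2⟩ | ⟨k1, k2⟩
    · exact Or.inl ⟨h1.trans h1'.symm, h2.trans (k2.trans h2'.symm)⟩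
    · exact Or.inr ⟨h1.trans (k1.trans h1'.neg.symm), h2.trans (k2.trans h2'.neg.symm)⟩
    · refine Or.inr ⟨h1.trans ?_, h2.trans (k2.trans ?_)⟩
      · have := h1'.neg; rw [neg_neg] at this; exact this.symm
      · have := h2'.neg; rw [neg_neg] at this; exact this.symm
    · refine Or.inl ⟨h1.trans (k1.trans h1'.symm), h2.trans (k2.trans h2'.symm)⟩
    · refine Or.inr ⟨h1.trans h1'.neg.symm, h2.trans (k2.neg.trans h2'.neg.symm)⟩
    · refine Or.inl ⟨h1.trans (k1.neg.trans ?_), h2.trans (k2.neg.trans ?_)⟩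
      · rw [neg_neg]; exact h1'.symm
      · rw [neg_neg]; exact h2'.symm
    · refine Or.inl ⟨h1.trans h1'.symm, h2.trans (k2.neg.trans h2'.symm)⟩
    · refine Or.inr ⟨h1.trans (k1.neg.trans ?_), h2.trans (k2.neg.trans ?_)⟩
      · rw [neg_neg]
        have := h1'.neg; rw [neg_neg] at this; exact this.symm
      · rw [neg_neg]
        have := h2'.neg; rw [neg_neg] at this; exact this.symm
  · rintro (⟨h1, h2⟩ | ⟨h1, h2⟩)
    · exact tauK_congr hζ1 h1 h2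
    · rw [tauK_congr hζ1 h1 h2, tauK_neg]

end Field

end Fermat.Agent.S48lib.X1
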