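/-
S48lib / X1 / Field / Model  (helper3)

**The `q`-model of `X₁(M)`** (design note `plans/S48_K1.md`, §1.2).

* `Xq`, `tauq`   : the generators `τ_(0,b)` as Laurent series in `q` itself (they only involve powers
  of `q = Q^M`); `qExpand_tauq : qExpand R M (tauq M ζ κ b) = tau M ζ κ 0 b`;
* `KM M`         : `ℚ(ζ_M)`; `genK M` : the subfield `ℚ(ζ_M)(j, τ_(0,b) : b)` of `ℚ(ζ_M)((q))`;
* `F1 M`         : **the rational model** `F₁(M) = {x ∈ ℚ((q)) | x ∈ ℚ(ζ_M)(j, τ_(0,b))}`, an
  `IntermediateField ℚ (LaurentSeries ℚ)` in the Prelude's pattern (so `laurentBaseChange L (F1 M)`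
  and `arithmeticGalois (F1 M)` are available);
* `genL`         : for a field `L ⊇ ℚ` with a primitive `M`-th root of unity, the explicit field
  `L(j, τ_(0,b) : b)`; `laurentBaseChange_F1_le : laurentBaseChange L (F1 M) ≤ genL`.
-/
import Fermat.Agent.S48lib.X1.Field.Sep

set_option autoImplicit false

noncomputable section

namespace Fermat.Agent.S48lib.X1

open PowerSeries ModularCurve

/-! ### the generators on the toric part, as series in `q` -/

section Toric

variable {R : Type*} [CommRing R]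

/-- for `a = 0` only powers of `q = Q^M` occur. -/
theorem cX_zero_of_not_dvd (M : ℕ) (ζ : Rˣ) (b : ℤ) {n : ℕ} (hn : ¬ M ∣ n) :
    cX M ζ 0 b n = 0 := by
  unfold cX
  have hs : sigmaDiv M n = 0 := by
    unfold sigmaDiv
    rw [if_neg hn]
  rw [hs, Int.cast_zero, mul_zero, sub_zero]
  refine Finset.sum_eq_zero fun d hd => ?_
  obtain ⟨hdn, -⟩ := Nat.mem_divisors.mp hd
  have h0 : ¬ (((n / d : ℕ) : ℤ) ≡ 0 [ZMOD (M : ℤ)]) := by
    rw [Int.modEq_zero_iff_dvd, Int.natCast_dvd_natCast]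
    intro h
    exact hn (h.trans (Nat.div_dvd_of_dvd hdn))
  simp only [neg_zero, if_neg h0, add_zero, mul_zero]

/-- Tate's series at the point `ζ^b` of the toric part, as a power series in `q`. -/
def Xq (M : ℕ) (ζ : Rˣ) (κ : R) (b : ℤ) : PowerSeries R :=
  PowerSeries.mk fun m => if m = 0 then κ else cX M ζ 0 b (M * m)

/-- a level one series with integer coefficients as a Laurent series in `q` over `R`. -/
def lvl1q (R : Type*) [CommRing R] (f : PowerSeries ℤ) : LaurentSeries R :=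
  HahnSeries.ofPowerSeries ℤ R (f.map (Int.castRingHom R))

/-- `τ_(0,b)` as a Laurent series in `q`. -/
def tauq (M : ℕ) (ζ : Rˣ) (κ : R) (b : ℤ) : LaurentSeries R :=
  HahnSeries.single (-1 : ℤ) 1 * lvl1q R (eisenstein4 ^ 2 * dedekindEtaUnitInv) *
    (6 * (HahnSeries.ofPowerSeries ℤ R (Xq M ζ κ b)) ^ 2 +
      HahnSeries.ofPowerSeries ℤ R (Xq M ζ κ b) - 10 * lvl1q R s3)

theorem qExpand_ofPowerSeries_Xq (M : ℕ) [NeZero M] (ζ : Rˣ) (κ : R) (b : ℤ) :
    qExpand R M (HahnSeries.ofPowerSeries ℤ R (Xq M ζ κ b)) =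
      HahnSeries.ofPowerSeries ℤ R (Xser M ζ κ 0 b) := by
  ext n
  by_cases hn : (M : ℤ) ∣ n
  · obtain ⟨m, rfl⟩ := hn
    rw [qExpand_coeff_mul]
    rcases lt_or_ge m 0 with hm | hm
    · have hM : (0 : ℤ) < M := by exact_mod_cast Nat.pos_of_ne_zero (NeZero.ne M)
      rw [ofPowerSeries_coeff_of_neg _ hm,
        ofPowerSeries_coeff_of_neg _ (mul_neg_of_pos_of_neg hM hm)]
    · lift m to ℕ using hm
      rw [HahnSeries.ofPowerSeries_apply_coeff, ← Nat.cast_mul,
        HahnSeries.ofPowerSeries_apply_coeff, Xq, PowerSeries.coeff_mk]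
      by_cases hm0 : m = 0
      · subst hm0
        rw [if_pos rfl, mul_zero, coeff_Xser_zero, if_pos (dvd_zero _)]
      · rw [if_neg hm0, coeff_Xser_of_ne_zero _ _ _ _ _ (mul_ne_zero (NeZero.ne M) hm0)]
  · rw [qExpand_coeff_of_not_dvd _ _ hn]
    rcases lt_or_ge n 0 with hn0 | hn0
    · rw [ofPowerSeries_coeff_of_neg _ hn0]
    · lift n to ℕ using hn0
      rw [HahnSeries.ofPowerSeries_apply_coeff]
      have hn' : ¬ M ∣ n := fun h => hn (Int.natCast_dvd_natCast.mpr h)
      have hn0 : n ≠ 0 := fun h => hn' (h ▸ dvd_zero _)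
      rw [coeff_Xser_of_ne_zero _ _ _ _ _ hn0, cX_zero_of_not_dvd M ζ b hn']

theorem qExpand_lvl1q (M : ℕ) [NeZero M] (f : PowerSeries ℤ) :
    qExpand R M (lvl1q R f) = lvl1 R M f := rfl

/-- **`τ_(0,b)(q)` substituted `q = Q^M` is the generator `τ_(0,b)`**. -/
theorem qExpand_tauq (M : ℕ) [NeZero M] (ζ : Rˣ) (κ : R) (b : ℤ) :
    qExpand R M (tauq M ζ κ b) = tau M ζ κ 0 b := by
  rw [tauq, tau, tauSer, qInv, map_mul, map_mul, map_sub, map_add, map_mul, map_mul, map_pow,
    qExpand_ofPowerSeries_Xq, qExpand_lvl1q, qExpand_lvl1q, qExpand_single, map_ofNat, map_ofNat,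
    mul_neg, mul_one]

theorem coeffMap_lvl1q {S : Type*} [CommRing S] (φ : R →+* S) (f : PowerSeries ℤ) :
    coeffMap φ (lvl1q R f) = lvl1q S f := by
  rw [lvl1q, coeffMap_ofPowerSeries,
    ← RingHom.comp_apply (PowerSeries.map φ) (PowerSeries.map (Int.castRingHom R)),
    ← PowerSeries.map_comp, RingHom.ext_int (φ.comp (Int.castRingHom R)) (Int.castRingHom S)]
  rfl

theorem map_Xq {S : Type*} [CommRing S] (φ : R →+* S) (M : ℕ) (ζ : Rˣ) (κ : R) (b : ℤ) :
    (Xq M ζ κ b).map φ = Xq M (Units.map (φ : R →* S) ζ) (φ κ) b := by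
  ext m
  rw [PowerSeries.coeff_map, Xq, Xq, PowerSeries.coeff_mk, PowerSeries.coeff_mk, apply_ite φ,
    map_cX]

/-- functoriality of `τ_(0,b)(q)`. -/
theorem coeffMap_tauq {S : Type*} [CommRing S] (φ : R →+* S) (M : ℕ) (ζ : Rˣ) (κ : R) (b : ℤ) :
    coeffMap φ (tauq M ζ κ b) = tauq M (Units.map (φ : R →* S) ζ) (φ κ) b := by
  rw [tauq, map_mul, map_mul, coeffMap_single, map_one, coeffMap_lvl1q, map_sub, map_add, map_mul,
    map_mul, map_pow, coeffMap_ofPowerSeries, map_Xq, coeffMap_lvl1q, map_ofNat, map_ofNat, tauq]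

end Toric

/-! ### the explicit fields -/

section Fields

variable (L : Type*) [Field L]

/-- `τ_(0,b)(q)` over a field (constant term `ζ^b/(1-ζ^b)²`). -/
def tauqL (M : ℕ) (ζ : Lˣ) (b : ℤ) : LaurentSeries L := tauq M ζ (kap ((ζ ^ b : Lˣ) : L)) b

/-- the generating set of the explicit model. -/
def genSet (M : ℕ) (ζ : Lˣ) : Set (LaurentSeries L) :=
  {jqModC L} ∪ {x | ∃ b : ℤ, ¬ (M : ℤ) ∣ b ∧ x = tauqL L M ζ b}

/-- **the explicit model** `L(j, τ_(0,b) : b ≢ 0)` of the function field of `X₁(M)` over a field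
`L` with a chosen `M`-th root of unity. -/
def genL (M : ℕ) (ζ : Lˣ) : IntermediateField L (LaurentSeries L) :=
  IntermediateField.adjoin L (genSet L M ζ)

theorem jqModC_mem_genL (M : ℕ) (ζ : Lˣ) : jqModC L ∈ genL L M ζ :=
  IntermediateField.subset_adjoin L _ (Or.inl rfl)

theorem tauqL_mem_genL (M : ℕ) (ζ : Lˣ) {b : ℤ} (hb : ¬ (M : ℤ) ∣ b) :
    tauqL L M ζ b ∈ genL L M ζ :=
  IntermediateField.subset_adjoin L _ (Or.inr ⟨b, hb, rfl⟩)

variable {L}

theorem map_kap {L' : Type*} [Field L'] (φ : L →+* L') (u : L) : φ (kap u) = kap (φ u) := by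
  unfold kap
  rw [map_div₀, map_pow, map_sub, map_one]

theorem coeffMap_tauqL {L' : Type*} [Field L'] (φ : L →+* L') (M : ℕ) (ζ : Lˣ) (b : ℤ) :
    coeffMap φ (tauqL L M ζ b) = tauqL L' M (Units.map (φ : L →* L') ζ) b := by
  rw [tauqL, coeffMap_tauq, map_kap, tauqL]
  congr 2
  rw [← map_zpow, Units.coe_map]
  rfl

/-- a field embedding carrying `ζ` to `ζ'` maps the explicit model into the explicit model. -/
theorem coeffMap_mem_genL {L' : Type*} [Field L'] (φ : L →+* L') (M : ℕ) (ζ : Lˣ)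
    {x : LaurentSeries L} (hx : x ∈ genL L M ζ) :
    coeffMap φ x ∈ genL L' M (Units.map (φ : L →* L') ζ) := by
  have hx' : x ∈ Subfield.closure
      (Set.range (algebraMap L (LaurentSeries L)) ∪ genSet L M ζ) := hx
  clear hx
  induction hx' using Subfield.closure_induction with
  | mem y hy =>
    rcases hy with ⟨c, rfl⟩ | rfl | ⟨b, hb, rfl⟩
    · rw [algebraMap_laurentSeries_eq_single, coeffMap_single,
        ← algebraMap_laurentSeries_eq_single]
      exact (genL L' M _).algebraMap_mem _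
    · rw [coeffMap_jqModC]
      exact jqModC_mem_genL L' M _
    · rw [coeffMap_tauqL]
      exact tauqL_mem_genL L' M _ hb
  | one => rw [map_one]; exact one_mem _
  | add y z _ _ hy hz => rw [map_add]; exact add_mem hy hz
  | neg y _ hy => rw [map_neg]; exact neg_mem hy
  | inv y _ hy =>
    rw [map_inv₀]
    exact inv_mem hy
  | mul y z _ _ hy hz => rw [map_mul]; exact mul_mem hy hz

end Fields

/-! ### the rational model -/

section Rational

local notation "Qb" => AlgebraicClosure ℚ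

variable (M : ℕ) [NeZero M]

/-- the chosen primitive `M`-th root of unity of `ℚ̄`, as a unit. -/
def zbar : Qbˣ :=
  ((IsCyclotomicExtension.zeta_spec M Qb Qb).isUnit (NeZero.ne M)).unit

theorem zbar_spec : IsPrimitiveRoot (zbar M) M := by
  have h := IsCyclotomicExtension.zeta_spec M Qb Qb
  rw [← IsPrimitiveRoot.coe_units_iff]
  exact h

/-- **the rational model of the function field of `X₁(M)`**: the Laurent series with rational
coefficients lying in `ℚ̄(j, τ_(0,b) : b ≢ 0)`. -/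
def F1 : IntermediateField ℚ (LaurentSeries ℚ) :=
  Subfield.toIntermediateField ((genL Qb M (zbar M)).toSubfield.comap (coeffEmb Qb)) (by
    intro r
    show coeffEmb Qb (algebraMap ℚ (LaurentSeries ℚ) r) ∈ genL Qb M (zbar M)
    rw [algebraMap_laurentSeries_eq_single, coeffEmb, coeffMap_single,
      ← algebraMap_laurentSeries_eq_single]
    exact (genL Qb M (zbar M)).algebraMap_mem _)

theorem mem_F1_iff {x : LaurentSeries ℚ} :
    x ∈ F1 M ↔ coeffEmb Qb x ∈ genL Qb M (zbar M) := Iff.rfl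

theorem jq_mem_F1 : jq ∈ F1 M := by
  rw [mem_F1_iff, coeffEmb, ← jqModC_rat, coeffMap_jqModC]
  exact jqModC_mem_genL _ _ _

/-- the function field of `X₁(M)` over `ℚ̄`, in the Prelude's pattern. -/
def FBar1 : IntermediateField Qb (LaurentSeries Qb) := laurentBaseChange Qb (F1 M)

theorem FBar1_le_genL : FBar1 M ≤ genL Qb M (zbar M) := by
  rw [FBar1, laurentBaseChange, IntermediateField.adjoin_le_iff]
  rintro _ ⟨x, hx, rfl⟩
  exact hx

end Rational

end Fermat.Agent.S48lib.X1
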