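/-
S48lib / X1 / Field / AnSep  (helper3)

**Separation for the analytic generators**: `τ_v = τ_w ↔ v ≡ ± w (mod M)`;
`τ_(0,b) ∈ WH0(±Γ₁(M))`, `τ_(0,1)` separates the cosets of `±Γ₁(M)`; width one expansions.
-/
import Fermat.Agent.S48lib.X1.Field.AnTau
import Fermat.Agent.S48lib.X1.Field.Formal
import Fermat.Agent.S48lib.X1.Field.Model
import Fermat.Agent.S48lib.X1.Wp.Sep

set_option autoImplicit false
set_option linter.unusedSectionVars false

noncomputable section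

namespace Fermat.Agent.S48lib.X1

open UpperHalfPlane hiding I
open PowerSeries ModularCurve Complex Filter Topology MatrixGroups ModularForm EisensteinSeries
open scoped Real Manifold
open Fermat.Agent.ProgramR Fermat.Agent.ProgramR.QExp Fermat.Agent.ProgramR.LevelOne
open Wp

variable {M : ℕ} [NeZero M]

theorem zC_isPrimitiveRoot : IsPrimitiveRoot (zC M) M := by
  rw [← IsPrimitiveRoot.coe_units_iff]
  have h := Complex.isPrimitiveRoot_exp M (NeZero.ne M)
  have e : ((zC M : ℂˣ) : ℂ) = Complex.exp (2 * π * I / M) := by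
    rw [zC, Units.val_mk0, ee]
    congr 1
    ring
  rw [e]
  exact h

theorem zC_pow : (zC M) ^ M = 1 := zC_isPrimitiveRoot.pow_eq_one

/-- the `Q`-expansion, without reduction of the vector -/
theorem laurentExp_tauAn' {v : Fin 2 → ℤ} (hv : NZ M v) :
    laurentExp (M : ℝ) (tauAn M v) = tauK M (zC M) (v 0) (v 1) := by
  rw [laurentExp_tauAn hv]
  exact tauK_congr zC_pow (Int.mod_modEq _ _) (Int.mod_modEq _ _)

/-- **analytic (Sep)** -/
theorem tauAn_eq_iff (hM : 1 < M) {v w : Fin 2 → ℤ} (hv : NZ M v) (hw : NZ M w) :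
    tauAn M v = tauAn M w ↔
      (∀ i, (M : ℤ) ∣ v i - w i) ∨ (∀ i, (M : ℤ) ∣ v i + w i) := by
  constructor
  · intro h
    have h1 : tauK M (zC M) (v 0) (v 1) = tauK M (zC M) (w 0) (w 1) := by
      rw [← laurentExp_tauAn' hv, ← laurentExp_tauAn' hw, h]
    rcases (tauK_eq_iff zC_isPrimitiveRoot hM hv hw).1 h1 with ⟨h2, h3⟩ | ⟨h2, h3⟩
    · left
      intro i
      fin_cases i
      · exact h2.symm.dvd
      · exact h3.symm.dvd
    · right
      intro i
      fin_cases i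
      · have := h2.symm.dvd
        rwa [sub_neg_eq_add] at this
      · have := h3.symm.dvd
        rwa [sub_neg_eq_add] at this
  · rintro (h | h)
    · exact tauAn_congr M fun i => h i
    · rw [← tauAn_neg M w]
      refine tauAn_congr M fun i => ?_
      have := h i
      rwa [Pi.neg_apply, sub_neg_eq_add]

/-! ### the generators of level `±Γ₁(M)` -/

/-- the vector `(0, b)` -/
def e0 (b : ℤ) : Fin 2 → ℤ := ![0, b]

theorem nz_e0 {b : ℤ} (hb : ¬ (M : ℤ) ∣ b) : NZ M (e0 b) := by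
  rintro ⟨-, h⟩
  exact hb (by simpa [e0] using h)

theorem rowMul_e0_zero (b : ℤ) (γ : SL(2, ℤ)) : rowMul (e0 b) γ 0 = b * γ 1 0 := by
  rw [rowMul_zero]; simp [e0]

theorem rowMul_e0_one (b : ℤ) (γ : SL(2, ℤ)) : rowMul (e0 b) γ 1 = b * γ 1 1 := by
  rw [rowMul_one]; simp [e0]

theorem tauAn_e0_rowMul (b : ℤ) {γ : SL(2, ℤ)} (hγ : γ ∈ pmGamma1 M) :
    tauAn M (rowMul (e0 b) γ) = tauAn M (e0 b) := by
  rw [mem_pmGamma1_iff_dvd] at hγ
  obtain ⟨h0, h1 | h1⟩ := hγ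
  · refine tauAn_congr M fun i => ?_
    fin_cases i
    · show (M : ℤ) ∣ rowMul (e0 b) γ 0 - e0 b 0
      rw [rowMul_e0_zero]
      simpa [e0] using h0.mul_left b
    · show (M : ℤ) ∣ rowMul (e0 b) γ 1 - e0 b 1
      rw [rowMul_e0_one]
      have : b * γ 1 1 - e0 b 1 = b * (γ 1 1 - 1) := by simp [e0]; ring
      rw [this]
      exact h1.mul_left b
  · rw [← tauAn_neg M (e0 b)]
    refine tauAn_congr M fun i => ?_
    fin_cases i
    · show (M : ℤ) ∣ rowMul (e0 b) γ 0 - (-e0 b) 0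
      rw [rowMul_e0_zero]
      simpa [e0] using h0.mul_left b
    · show (M : ℤ) ∣ rowMul (e0 b) γ 1 - (-e0 b) 1
      rw [rowMul_e0_one]
      have : b * γ 1 1 - (-e0 b) 1 = b * (γ 1 1 + 1) := by simp [e0]; ring
      rw [this]
      exact h1.mul_left b

theorem isWH0_tauAn_e0 {b : ℤ} (hb : ¬ (M : ℤ) ∣ b) : IsWH0 (pmGamma1 M) (tauAn M (e0 b)) :=
  isWH0_tauAn_of (nz_e0 hb) _ fun _ hγ => tauAn_e0_rowMul b hγ

/-- `τ_(0,b)` as an element of `WH0 (±Γ₁(M))` -/
def tauWH0 {b : ℤ} (hb : ¬ (M : ℤ) ∣ b) : WH0 (pmGamma1 M) :=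
  ⟨tauAn M (e0 b), isWH0_tauAn_e0 hb⟩

theorem not_dvd_one (hM : 1 < M) : ¬ (M : ℤ) ∣ 1 := by
  intro h
  have h2 := Int.le_of_dvd one_pos h
  omega

/-- **`τ_(0,1)` separates the cosets of `±Γ₁(M)`** -/
theorem separates_tauWH0 (hM : 1 < M) : Separates (pmGamma1 M) (tauWH0 (not_dvd_one hM)) := by
  intro g g' h
  have h1 : ∀ τ : ℍ, tauAn M (e0 1) ((g⁻¹ * g') • τ) = tauAn M (e0 1) τ := by
    intro τ
    have h1 := congrArg (fun f : Hol => (f : ℍ → ℂ) (g' • τ)) h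
    simp only [Hol.slComp_apply] at h1
    rw [inv_smul_smul, ← mul_smul] at h1
    exact h1
  have h2 : tauAn M (rowMul (e0 1) (g⁻¹ * g')) = tauAn M (e0 1) := by
    funext τ
    rw [← tauAn_smul, h1]
  have hnz : NZ M (e0 1) := nz_e0 (not_dvd_one hM)
  rw [tauAn_eq_iff hM ((nz_rowMul _).2 hnz) hnz] at h2
  rw [mem_pmGamma1_iff_dvd]
  rcases h2 with h2 | h2
  · have a0 := h2 0
    have a1 := h2 1
    rw [rowMul_e0_zero] at a0
    rw [rowMul_e0_one] at a1
    simp only [e0, one_mul, Matrix.cons_val_zero, Matrix.cons_val_one, sub_zero] at a0 a1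
    exact ⟨a0, Or.inl a1⟩
  · have a0 := h2 0
    have a1 := h2 1
    rw [rowMul_e0_zero] at a0
    rw [rowMul_e0_one] at a1
    simp only [e0, one_mul, Matrix.cons_val_zero, Matrix.cons_val_one, add_zero] at a0 a1
    exact ⟨a0, Or.inr a1⟩

/-- **`τ_(0,b)` separates the cosets of `±Γ₁(M)`** for `b` prime to `M` -/
theorem separates_tauWH0_of_isCoprime (hM : 1 < M) {b : ℤ} (hcop : IsCoprime b (M : ℤ))
    (hb : ¬ (M : ℤ) ∣ b) : Separates (pmGamma1 M) (tauWH0 hb) := by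
  intro g g' h
  have h1 : ∀ τ : ℍ, tauAn M (e0 b) ((g⁻¹ * g') • τ) = tauAn M (e0 b) τ := by
    intro τ
    have h1 := congrArg (fun f : Hol => (f : ℍ → ℂ) (g' • τ)) h
    simp only [Hol.slComp_apply] at h1
    rw [inv_smul_smul, ← mul_smul] at h1
    exact h1
  have h2 : tauAn M (rowMul (e0 b) (g⁻¹ * g')) = tauAn M (e0 b) := by
    funext τ
    rw [← tauAn_smul, h1]
  have hnz : NZ M (e0 b) := nz_e0 hb
  rw [tauAn_eq_iff hM ((nz_rowMul _).2 hnz) hnz] at h2
  rw [mem_pmGamma1_iff_dvd]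
  rcases h2 with h2 | h2
  · have a0 := h2 0
    have a1 := h2 1
    rw [rowMul_e0_zero] at a0
    rw [rowMul_e0_one] at a1
    simp only [e0, Matrix.cons_val_zero, Matrix.cons_val_one, sub_zero] at a0 a1
    refine ⟨hcop.symm.dvd_of_dvd_mul_left a0, Or.inl ?_⟩
    have : b * (g⁻¹ * g') 1 1 - b = b * ((g⁻¹ * g') 1 1 - 1) := by ring
    rw [this] at a1
    exact hcop.symm.dvd_of_dvd_mul_left a1
  · have a0 := h2 0
    have a1 := h2 1
    rw [rowMul_e0_zero] at a0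
    rw [rowMul_e0_one] at a1
    simp only [e0, Matrix.cons_val_zero, Matrix.cons_val_one, add_zero] at a0 a1
    refine ⟨hcop.symm.dvd_of_dvd_mul_left a0, Or.inr ?_⟩
    have : b * (g⁻¹ * g') 1 1 + b = b * ((g⁻¹ * g') 1 1 + 1) := by ring
    rw [this] at a1
    exact hcop.symm.dvd_of_dvd_mul_left a1

/-! ### width one expansions -/

theorem T_mem_pmGamma1 : ModularGroup.T ^ ((1 : ℕ) : ℤ) ∈ pmGamma1 M := by
  apply Gamma1_le_pmGamma1
  rw [CongruenceSubgroup.Gamma1_mem, ModularGroup.coe_T_zpow]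
  simp

/-- **the `q`-expansion (width one) of `τ_(0,b)` is the formal `tauqL`** -/
theorem laurentExp_one_tauAn_e0 {b : ℤ} (hb : ¬ (M : ℤ) ∣ b) :
    laurentExp 1 (tauAn M (e0 b)) = tauqL ℂ M (zC M) b := by
  have h1 := mem_merRing.mp (HeckeJ.mem_merRing_of_mem_WH0_width (pmGamma1 M) 1 T_mem_pmGamma1
    (mem_WH0.mpr (isWH0_tauAn_e0 hb)))
  obtain ⟨m, hm⟩ := h1
  rw [Nat.cast_one] at hm
  have h2 := laurentExp_period_mul (n := M) one_pos hm
  rw [mul_one, laurentExp_tauAn' (nz_e0 hb)] at h2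
  apply qExpand_injective (R := ℂ) M
  rw [← h2, tauqL, qExpand_tauq, tauK]
  rfl

end Fermat.Agent.S48lib.X1
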