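/-
S48lib / X1 / Field / DegreeGen  (helper3)

**The degree of an analytic `q`-model** (generic version of `ProgramR/BarField/Degree*`).
Let `Γ ≤ SL(2,ℤ)` have finite index, `T ∈ Γ`, and let `F₀ ∋ j(q)` be an analytic `q`-model of `Γ`
(`HeckeJ.IsAnModel`).  For a field `L` with an embedding `e : L → ℂ`:
* `card_le_finrank_WH0` : a family of `L F₀` that is independent over `L[j]` has at most
  `rank_{ℂ[j]} WH0 Γ` elements; hence `L F₀` is finite over `L(j)` of degree `≤ [SL₂(ℤ) : Γ]`;
* `linearIndependent_pow` : if `θ ∈ L F₀` is the expansion of `h ∈ WH0 Γ` whose minimal polynomial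
  has full degree, then `1, θ, …, θ^{n-1}` are independent over `L(j)`: the degree is exactly
  `rank WH0 Γ`.
-/
import Fermat.Agent.S48lib.X1.HeckeJ.QExpGen
import Fermat.Agent.ProgramR.BarField.Degree
import Fermat.Agent.S48lib.X1.Wp.ChartGen

set_option autoImplicit false
set_option linter.unusedSectionVars false

noncomputable section

namespace Fermat.Agent.S48lib.X1

open Polynomial IntermediateField Module
open scoped MatrixGroups
open ModularCurve Fermat.Agent.ProgramR Fermat.Agent.ProgramR.QExp Fermat.Agent.ProgramR.BarField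
open HeckeJ

attribute [local instance] FractionRing.liftAlgebra

section Gen

variable {Γ : Subgroup SL(2, ℤ)} {hT : ModularGroup.T ^ ((1 : ℕ) : ℤ) ∈ Γ}

theorem qExpW_const (c : ℂ) : qExpW Γ 1 hT (algebraMap ℂ (WH0 Γ) c) = HahnSeries.C c := by
  rw [qExpW_apply]
  exact laurentExp_const (width_pos_real 1) c

theorem qExpW_j : qExpW Γ 1 hT (WH0.j Γ) = jqModC ℂ := by
  rw [qExpW_apply]
  show laurentExp ((1 : ℕ) : ℝ) LevelOne.jInv = jqModC ℂ
  rw [Nat.cast_one]
  exact laurentExp_jInv

/-- the `q`-expansion of a polynomial in `j` -/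
theorem qExpW_algebraMap_poly (p : ℂ[X]) :
    qExpW Γ 1 hT (algebraMap ℂ[X] (WH0 Γ) p) = Polynomial.aeval (jqModC ℂ) p := by
  rw [WH0.algebraMap_poly]
  induction p using Polynomial.induction_on' with
  | add p q hp hq => rw [map_add, map_add, map_add, hp, hq]
  | monomial n a =>
    rw [← Polynomial.C_mul_X_pow_eq_monomial]
    simp only [map_mul, map_pow, Polynomial.aeval_X, Polynomial.aeval_C, qExpW_j, qExpW_const]
    congr 1
    rw [algebraMap_laurentSeries_eq_single]
    rfl

variable [Fintype (SL(2, ℤ) ⧸ Γ)] {F₀ : IntermediateField ℚ (LaurentSeries ℚ)}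
  {L : Type*} [Field L] [Algebra ℚ L] (e : L →+* ℂ)

include e in
/-- **Upper bound.** -/
theorem card_le_finrank_WH0 (hM : IsAnModel Γ hT F₀) {n : ℕ} (x : Fin n → LaurentSeries L)
    (hx : ∀ i, x i ∈ laurentBaseChange L F₀)
    (hind : ∀ p : Fin n → L[X], ∑ i, aeval (jqModC L) (p i) * x i = 0 → ∀ i, p i = 0) :
    n ≤ finrank ℂ[X] (WH0 Γ) := by
  classical
  have hy : ∀ i, ∃ η : WH0.FunField Γ, qExpFFW Γ 1 hT η = coeffMap e (x i) := fun i ↦
    RingHom.mem_fieldRange.mp (hM.coeffMap_mem e (hx i))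
  choose η hη using hy
  obtain ⟨s, hs⟩ := IsLocalization.exist_integer_multiples_of_finite
    (nonZeroDivisors ↥(WH0 Γ)) η
  choose b hb using hs
  have hs0 : qExpW Γ 1 hT (s : ↥(WH0 Γ)) ≠ 0 := by
    intro h
    have := qExpW_injective Γ 1 hT (h.trans (map_zero _).symm)
    exact nonZeroDivisors.coe_ne_zero s this
  have hexp : ∀ i, qExpW Γ 1 hT (b i) = qExpW Γ 1 hT (s : ↥(WH0 Γ)) * coeffMap e (x i) := by
    intro i
    have h1 := congrArg (qExpFFW Γ 1 hT) (hb i)
    rw [qExpFFW_algebraMap, Algebra.smul_def, map_mul, qExpFFW_algebraMap, hη] at h1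
    exact h1
  have hlin : LinearIndependent ℂ[X] b := by
    rw [Fintype.linearIndependent_iff]
    intro g hg
    have h1 := congrArg (qExpW Γ 1 hT) hg
    rw [map_sum, map_zero] at h1
    have h2 : ∀ i, qExpW Γ 1 hT (g i • b i) = qExpW Γ 1 hT (s : ↥(WH0 Γ)) *
        (aeval (coeffMap e (jqModC L)) (g i) * coeffMap e (x i)) := by
      intro i
      rw [Algebra.smul_def, map_mul, qExpW_algebraMap_poly, hexp, coeffMap_jqModC]
      ring
    simp only [h2, ← Finset.mul_sum] at h1
    have h3 := (mul_eq_zero.mp h1).resolve_left hs0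
    exact poly_independent_coeffMap e _ x hind g h3
  have h4 := hlin.fintype_card_le_finrank
  rwa [Fintype.card_fin] at h4

/-- **Lower bound**: a nonzero polynomial over `ℂ[j]` that kills a separating function has degree
at least the index. -/
theorem card_le_natDegree_of_separates {h : WH0 Γ} (hsep : Wp.Separates Γ h) {P : ℂ[X][X]}
    (hP0 : P ≠ 0) (hP : Polynomial.aeval h P = 0) :
    Fintype.card (SL(2, ℤ) ⧸ Γ) ≤ P.natDegree := by
  classical
  set A := Wp.wh0Chart hsep
  set m' : Hol[X] := P.map A.φ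
  have hm' : m' ≠ 0 := (Polynomial.map_ne_zero_iff A.φ_injective).mpr hP0
  have hroot : ∀ x : SL(2, ℤ) ⧸ Γ, m'.IsRoot (A.σ x h) := by
    intro x
    rw [Polynomial.IsRoot.def, Polynomial.eval_map]
    have h1 : A.φ = (A.σ x).comp (algebraMap ℂ[X] (WH0 Γ)) :=
      RingHom.ext (fun p => (A.σ_φ x p).symm)
    rw [h1, ← Polynomial.hom_eval₂, ← Polynomial.aeval_def, hP, map_zero]
  have hinj : Function.Injective (fun x : SL(2, ℤ) ⧸ Γ => A.σ x h) := by
    intro x y hxy
    induction x using QuotientGroup.induction_on with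
    | H g =>
      induction y using QuotientGroup.induction_on with
      | H g' =>
        rw [QuotientGroup.eq]
        exact hsep g g' hxy
  have hsub : (Finset.univ.image (fun x : SL(2, ℤ) ⧸ Γ => A.σ x h)).val ⊆ m'.roots := by
    intro f hf
    rw [Finset.mem_val, Finset.mem_image] at hf
    obtain ⟨x, -, rfl⟩ := hf
    exact (Polynomial.mem_roots hm').2 (hroot x)
  have h3 := Polynomial.card_le_degree_of_subset_roots hsub
  rw [Finset.card_image_of_injective _ hinj, Finset.card_univ] at h3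
  exact h3.trans Polynomial.natDegree_map_le

end Gen

/-! ### the degree over `L(j)` -/

section Adjoin

variable {Γ : Subgroup SL(2, ℤ)} {hT : ModularGroup.T ^ ((1 : ℕ) : ℤ) ∈ Γ}
  [Fintype (SL(2, ℤ) ⧸ Γ)] {F₀ : IntermediateField ℚ (LaurentSeries ℚ)}
  {L : Type*} [Field L] [Algebra ℚ L] (e : L →+* ℂ)

theorem jqModC_mem_baseChange (hj : jq ∈ F₀) : jqModC L ∈ laurentBaseChange L F₀ := by
  rw [← coeffEmb_jq]
  exact coeffEmb_mem_laurentBaseChange L hj

/-- `j(q)` in `L F₀` -/
def jB (L : Type*) [Field L] [Algebra ℚ L] (hj : jq ∈ F₀) : ↥(laurentBaseChange L F₀) :=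
  ⟨jqModC L, jqModC_mem_baseChange hj⟩

variable (hj : jq ∈ F₀)

theorem coe_aeval_jB (p : L[X]) :
    ((aeval (jB L hj) p : ↥(laurentBaseChange L F₀)) : LaurentSeries L) = aeval (jqModC L) p := by
  have h := Polynomial.aeval_algHom_apply (laurentBaseChange L F₀).val (jB L hj) p
  exact h.symm

theorem transcendental_jB : Transcendental L (jB L hj) := by
  intro halg
  obtain ⟨P, hP0, hP⟩ := halg
  apply aeval_jqModC_ne_zero L hP0
  rw [← coe_aeval_jB hj, hP]
  rfl

theorem aeval_jB_mem (p : L[X]) : aeval (jB L hj) p ∈ L⟮jB L hj⟯ :=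
  algebra_adjoin_le_adjoin L _ (Polynomial.aeval_mem_adjoin_singleton L _)

include e in
theorem card_le_of_poly_independent_gen (hM : IsAnModel Γ hT F₀) {n : ℕ}
    (x : Fin n → ↥(laurentBaseChange L F₀))
    (hind : ∀ p : Fin n → L[X], ∑ i, aeval (jB L hj) (p i) * x i = 0 → ∀ i, p i = 0) :
    n ≤ finrank ℂ[X] (WH0 Γ) := by
  refine card_le_finrank_WH0 e hM (fun i ↦ (x i : LaurentSeries L)) (fun i ↦ (x i).2) ?_
  intro p hp
  refine hind p ?_
  apply Subtype.ext
  simp only [AddSubmonoidClass.coe_finsetSum, MulMemClass.coe_mul, coe_aeval_jB,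
    ZeroMemClass.coe_zero]
  exact hp

include e in
/-- Any family linearly independent over `L(j)` has at most `rank WH0 Γ` elements. -/
theorem card_le_of_linearIndependent_gen (hM : IsAnModel Γ hT F₀)
    (s : Finset ↥(laurentBaseChange L F₀))
    (hs : LinearIndependent L⟮jB L hj⟯ (fun i : s ↦ (i : ↥(laurentBaseChange L F₀)))) :
    s.card ≤ finrank ℂ[X] (WH0 Γ) := by
  classical
  set n := s.card with hn
  let x : Fin n → ↥(laurentBaseChange L F₀) := fun i ↦ (s.equivFin.symm i : s)
  have hx : LinearIndependent L⟮jB L hj⟯ x := hs.comp _ s.equivFin.symm.injective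
  refine card_le_of_poly_independent_gen e hj hM x fun p hp i ↦ ?_
  have h2 : ∑ i, (⟨aeval (jB L hj) (p i), aeval_jB_mem hj (p i)⟩ : L⟮jB L hj⟯) • x i = 0 := by
    rw [← hp]
    rfl
  have h3 := Fintype.linearIndependent_iff.mp hx _ h2
  have h4 : aeval (jB L hj) (p i) = 0 := congrArg Subtype.val (h3 i)
  exact (transcendental_iff.mp (transcendental_jB hj)) _ h4

include e in
theorem rank_adjoin_jB_le (hM : IsAnModel Γ hT F₀) :
    Module.rank L⟮jB L hj⟯ ↥(laurentBaseChange L F₀) ≤ (finrank ℂ[X] (WH0 Γ) : Cardinal) :=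
  rank_le fun s hs ↦ card_le_of_linearIndependent_gen e hj hM s hs

include e in
set_option synthInstance.maxHeartbeats 400000 in
/-- **an analytic `q`-model is finite over `L(j)`** -/
theorem finiteDimensional_adjoin_jB (hM : IsAnModel Γ hT F₀) :
    FiniteDimensional L⟮jB L hj⟯ ↥(laurentBaseChange L F₀) := by
  rw [FiniteDimensional, ← Module.rank_lt_aleph0_iff]
  exact (rank_adjoin_jB_le e hj hM).trans_lt Cardinal.natCast_lt_aleph0

include e in
set_option synthInstance.maxHeartbeats 400000 in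
theorem finrank_adjoin_jB_le (hM : IsAnModel Γ hT F₀) :
    finrank L⟮jB L hj⟯ ↥(laurentBaseChange L F₀) ≤ finrank ℂ[X] (WH0 Γ) :=
  Module.finrank_le_of_rank_le (rank_adjoin_jB_le e hj hM)

include e in
/-- A relation `∑_{k < n} a_k(j) θ^k = 0`, `n = [SL₂(ℤ) : Γ]`, with polynomial coefficients is
trivial when `θ` is the expansion of a separating function. -/
theorem eq_zero_of_sum_pow_gen (θ : ↥(laurentBaseChange L F₀)) {h : WH0 Γ}
    (hsep : Wp.Separates Γ h)
    (hθ : coeffMap e (θ : LaurentSeries L) = qExpW Γ 1 hT h)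
    (a : Fin (Fintype.card (SL(2, ℤ) ⧸ Γ)) → L[X])
    (hrel : ∑ k, aeval (jB L hj) (a k) * θ ^ (k : ℕ) = 0) : ∀ k, a k = 0 := by
  classical
  set P : ℂ[X][X] := ∑ k : Fin (Fintype.card (SL(2, ℤ) ⧸ Γ)),
    Polynomial.C ((a k).map e) * Polynomial.X ^ (k : ℕ) with hPdef
  have hP : Polynomial.aeval h P = 0 := by
    apply qExpW_injective Γ 1 hT
    rw [map_zero, hPdef, map_sum, map_sum]
    have h2 := congrArg (fun y : ↥(laurentBaseChange L F₀) ↦ coeffMap e (y : LaurentSeries L)) hrel
    simp only [AddSubmonoidClass.coe_finsetSum, MulMemClass.coe_mul, coe_aeval_jB,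
      SubmonoidClass.coe_pow, ZeroMemClass.coe_zero, map_sum, map_mul, map_pow, map_zero] at h2
    rw [← h2]
    refine Finset.sum_congr rfl fun k _ ↦ ?_
    rw [map_mul, map_pow, Polynomial.aeval_X, Polynomial.aeval_C, map_mul, map_pow,
      qExpW_algebraMap_poly, hθ]
    congr 1
    rw [Polynomial.aeval_def, Polynomial.eval₂_map, Polynomial.aeval_def,
      Polynomial.hom_eval₂, coeffMap_jqModC]
    congr 1
    apply RingHom.ext
    intro c
    simp only [RingHom.coe_comp, Function.comp_apply]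
    rw [coeffMap_algebraMap' e c, algebraMap_laurentSeries_eq_single]
    rfl
  have hP0 : P = 0 := by
    by_contra hP0
    have h1 := card_le_natDegree_of_separates hsep hP0 hP
    have h2 : P.natDegree < Fintype.card (SL(2, ℤ) ⧸ Γ) :=
      (Polynomial.natDegree_lt_iff_degree_lt hP0).mpr
        (Polynomial.degree_sum_fin_lt fun k => (a k).map e)
    omega
  intro k
  have h1 : P.coeff (k : ℕ) = (a k).map e := by
    rw [hPdef, Polynomial.finsetSum_coeff, Finset.sum_eq_single k]
    · rw [Polynomial.coeff_C_mul, Polynomial.coeff_X_pow, if_pos rfl, mul_one]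
    · intro k' _ hk'
      rw [Polynomial.coeff_C_mul, Polynomial.coeff_X_pow, if_neg, mul_zero]
      exact fun h ↦ hk' (Fin.ext h.symm)
    · intro h
      exact absurd (Finset.mem_univ _) h
  have h2 : (a k).map e = 0 := by rw [← h1, hP0, Polynomial.coeff_zero]
  exact (Polynomial.map_eq_zero_iff e.injective).mp h2

include e in
/-- the powers `1, θ, …, θ^{n-1}` are linearly independent over `L(j)` -/
theorem linearIndependent_pow_gen (θ : ↥(laurentBaseChange L F₀)) {h : WH0 Γ}
    (hsep : Wp.Separates Γ h)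
    (hθ : coeffMap e (θ : LaurentSeries L) = qExpW Γ 1 hT h) :
    LinearIndependent L⟮jB L hj⟯
      (fun k : Fin (Fintype.card (SL(2, ℤ) ⧸ Γ)) ↦ θ ^ (k : ℕ)) := by
  classical
  rw [Fintype.linearIndependent_iff]
  intro c hc
  obtain ⟨d, hd, ha⟩ := exists_common_denom_adjoin (jB L hj) c
  choose a ha using ha
  have hrel : ∑ k, aeval (jB L hj) (a k) * θ ^ (k : ℕ) = 0 := by
    have h1 : ∑ k, aeval (jB L hj) (a k) * θ ^ (k : ℕ) =
        aeval (jB L hj) d * ∑ k, c k • θ ^ (k : ℕ) := by
      rw [Finset.mul_sum]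
      refine Finset.sum_congr rfl fun k _ ↦ ?_
      rw [← ha k]
      show _ = _ * ((c k : ↥(laurentBaseChange L F₀)) * _)
      ring
    rw [h1, hc, mul_zero]
  have ha0 := eq_zero_of_sum_pow_gen e hj θ hsep hθ a hrel
  intro k
  have h1 := ha k
  rw [ha0 k, map_zero] at h1
  have h2 := (mul_eq_zero.mp h1).resolve_right hd
  exact Subtype.ext h2

include e in
/-- **Degree of an analytic `q`-model containing the expansion of a separating function.** -/
theorem finrank_adjoin_jB_eq (hM : IsAnModel Γ hT F₀) (θ : ↥(laurentBaseChange L F₀))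
    {h : WH0 Γ} (hsep : Wp.Separates Γ h)
    (hθ : coeffMap e (θ : LaurentSeries L) = qExpW Γ 1 hT h) :
    finrank L⟮jB L hj⟯ ↥(laurentBaseChange L F₀) = Fintype.card (SL(2, ℤ) ⧸ Γ) := by
  have := finiteDimensional_adjoin_jB e hj hM
  apply le_antisymm
  · rw [Wp.card_eq_finrank_of_separates hsep]
    exact finrank_adjoin_jB_le e hj hM
  · have h := (linearIndependent_pow_gen e hj θ hsep hθ).fintype_card_le_finrank
    rwa [Fintype.card_fin] at h

end Adjoin

end Fermat.Agent.S48lib.X1
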