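/-
S48lib / X1 / Field / Descent  (helper3)

**`FBar1 M = ℚ̄(j, τ_(0,b) : b ≢ 0)`**: the base change to `ℚ̄` of the rational model `F1 M` is the
explicit field `genL ℚ̄ M ζ̄` (Galois descent along `ℚ(ζ_M)/ℚ` by coefficientwise traces).
-/
import Fermat.Agent.S48lib.X1.Field.Model

set_option autoImplicit false

noncomputable section

namespace Fermat.Agent.S48lib.X1

open PowerSeries ModularCurve

/-! ### changing the root of unity -/

section PowRoot

variable {R : Type*} [CommRing R]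

theorem cX_zpow (M : ℕ) (ζ : Rˣ) (c : ℤ) (a b : ℤ) (n : ℕ) :
    cX M (ζ ^ c) a b n = cX M ζ a (c * b) n := by
  unfold cX
  congr 1
  refine Finset.sum_congr rfl fun d _ => ?_
  rw [← zpow_mul, ← zpow_mul, mul_assoc, mul_neg]

theorem Xq_zpow (M : ℕ) (ζ : Rˣ) (c : ℤ) (κ : R) (b : ℤ) :
    Xq M (ζ ^ c) κ b = Xq M ζ κ (c * b) := by
  unfold Xq
  congr 1
  funext m
  rw [cX_zpow]

theorem tauq_zpow (M : ℕ) (ζ : Rˣ) (c : ℤ) (κ : R) (b : ℤ) :
    tauq M (ζ ^ c) κ b = tauq M ζ κ (c * b) := by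
  unfold tauq
  rw [Xq_zpow]

theorem tauqL_zpow {L : Type*} [Field L] (M : ℕ) (ζ : Lˣ) (c : ℤ) (b : ℤ) :
    tauqL L M (ζ ^ c) b = tauqL L M ζ (c * b) := by
  unfold tauqL
  rw [tauq_zpow, ← zpow_mul]

end PowRoot

/-! ### coefficientwise traces -/

section Descent

local notation "Qb" => AlgebraicClosure ℚ

variable (M : ℕ) [NeZero M]

/-- `ℚ(ζ̄_M) ⊆ ℚ̄`. -/
def KZ : IntermediateField ℚ Qb := IntermediateField.adjoin ℚ {((zbar M : Qbˣ) : Qb)}

theorem zbar_mem_KZ : ((zbar M : Qbˣ) : Qb) ∈ KZ M :=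
  IntermediateField.subset_adjoin ℚ _ rfl

instance : FiniteDimensional ℚ (KZ M) :=
  IntermediateField.adjoin.finiteDimensional
    (IsAlgebraic.isIntegral ((AlgebraicClosure.isAlgebraic ℚ).isAlgebraic _))

/-- `ζ̄_M` as a unit of `ℚ(ζ̄_M)`. -/
def zKZ : (KZ M)ˣ :=
  Units.mk0 ⟨((zbar M : Qbˣ) : Qb), zbar_mem_KZ M⟩ (by
    intro h
    exact (zbar M).ne_zero (congrArg Subtype.val h))

theorem zKZ_pow : zKZ M ^ M = 1 := by
  apply Units.ext
  apply Subtype.ext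
  have h := (zbar_spec M).pow_eq_one
  have : ((zbar M ^ M : Qbˣ) : Qb) = 1 := by rw [h]; rfl
  simpa [zKZ] using this

/-- the image of `ζ` under an embedding is a power of `ζ̄`, with exponent prime to `M`. -/
theorem exists_zpow_eq (σ : KZ M →ₐ[ℚ] Qb) :
    ∃ c : ℤ, Units.map ((σ : KZ M →+* Qb) : KZ M →* Qb) (zKZ M) = zbar M ^ c ∧
      ∀ b : ℤ, ¬ (M : ℤ) ∣ b → ¬ (M : ℤ) ∣ c * b := by
  set u : Qbˣ := Units.map ((σ : KZ M →+* Qb) : KZ M →* Qb) (zKZ M) with hu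
  have hu1 : u ^ M = 1 := by rw [hu, ← map_pow, zKZ_pow, map_one]
  have hzb : IsPrimitiveRoot ((zbar M : Qbˣ) : Qb) M :=
    IsPrimitiveRoot.coe_units_iff.mpr (zbar_spec M)
  have hu1' : ((u : Qbˣ) : Qb) ^ M = 1 := by
    rw [← Units.val_pow_eq_pow_val, hu1]; rfl
  obtain ⟨i, -, hi'⟩ := hzb.eq_pow_of_pow_eq_one hu1'
  have hi : zbar M ^ i = u := by
    apply Units.ext
    rw [Units.val_pow_eq_pow_val]
    exact hi'
  -- `u` is primitive
  have hprimK : IsPrimitiveRoot (zKZ M) M := by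
    have h1 : IsPrimitiveRoot ((zKZ M : (KZ M)ˣ) : KZ M) M := by
      have h2 : IsPrimitiveRoot ((zbar M : Qbˣ) : Qb) M :=
        IsPrimitiveRoot.coe_units_iff.mpr (zbar_spec M)
      exact IsPrimitiveRoot.of_map_of_injective (f := (KZ M).val)
        (by simpa [zKZ] using h2) (KZ M).val.injective
    exact IsPrimitiveRoot.coe_units_iff.mp h1
  have hprimu : IsPrimitiveRoot u M := by
    have h1 : IsPrimitiveRoot (σ ((zKZ M : (KZ M)ˣ) : KZ M)) M :=
      (IsPrimitiveRoot.coe_units_iff.mpr hprimK).map_of_injective σ.toRingHom.injective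
    exact IsPrimitiveRoot.coe_units_iff.mp (by simpa [hu] using h1)
  refine ⟨(i : ℤ), by rw [zpow_natCast, hi], ?_⟩
  intro b hb hdiv
  rw [← hi] at hprimu
  have hcop : i.Coprime M := ((zbar_spec M).pow_iff_coprime (NeZero.pos M) i).mp hprimu
  have : IsCoprime (M : ℤ) (i : ℤ) := by
    rw [Int.isCoprime_iff_gcd_eq_one, Int.gcd_natCast_natCast]
    exact hcop.symm
  exact hb (this.dvd_of_dvd_mul_left hdiv)

/-- the coefficientwise trace `ℚ(ζ̄)((q)) → ℚ((q))`. -/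
def trSer (x : LaurentSeries (KZ M)) : LaurentSeries ℚ := x.map (Algebra.trace ℚ (KZ M))

theorem coeffEmb_trSer (x : LaurentSeries (KZ M)) :
    coeffEmb Qb (trSer M x) = ∑ σ : KZ M →ₐ[ℚ] Qb, coeffMap (σ : KZ M →+* Qb) x := by
  ext k
  rw [coeffEmb_coeff, HahnSeries.coeff_sum]
  simp only [coeffMap_coeff]
  rw [trSer, HahnSeries.map_coeff]
  exact trace_eq_sum_embeddings (K := ℚ) (L := KZ M) Qb

end Descent

section Descent2

local notation "Qb" => AlgebraicClosure ℚ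

variable (M : ℕ) [NeZero M]

/-- the image of `ζ` under an embedding, as a unit of `ℚ̄`. -/
def uOf (σ : KZ M →ₐ[ℚ] Qb) : Qbˣ := Units.map ((σ : KZ M →+* Qb) : KZ M →* Qb) (zKZ M)

theorem uOf_val : uOf M (KZ M).val = zbar M := by
  apply Units.ext
  rfl

theorem uOf_pow (σ : KZ M →ₐ[ℚ] Qb) : uOf M σ ^ M = 1 := by
  rw [uOf, ← map_pow, zKZ_pow, map_one]

/-- the rational generators: coefficientwise traces of `ζ^i τ_(0,b)`. -/
def trb (i : ℕ) (b : ℤ) : LaurentSeries ℚ :=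
  trSer M (HahnSeries.single 0 (((zKZ M) ^ i : (KZ M)ˣ) : KZ M) * tauqL (KZ M) M (zKZ M) b)

theorem coeffEmb_trb (i : ℕ) (b : ℤ) :
    coeffEmb Qb (trb M i b) = ∑ σ : KZ M →ₐ[ℚ] Qb,
      HahnSeries.single 0 (((uOf M σ) ^ i : Qbˣ) : Qb) * tauqL Qb M (uOf M σ) b := by
  rw [trb, coeffEmb_trSer]
  refine Finset.sum_congr rfl fun σ _ => ?_
  rw [map_mul, coeffMap_single, coeffMap_tauqL]
  congr 2
  rw [uOf, ← map_pow, Units.coe_map]
  rfl

omit [NeZero M] in
theorem single_zero_mem_genL (c : Qb) (ζ : Qbˣ) :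
    (HahnSeries.single 0 c : LaurentSeries Qb) ∈ genL Qb M ζ := by
  rw [← algebraMap_laurentSeries_eq_single]
  exact (genL Qb M ζ).algebraMap_mem c

theorem tauqL_uOf_mem (σ : KZ M →ₐ[ℚ] Qb) {b : ℤ} (hb : ¬ (M : ℤ) ∣ b) :
    tauqL Qb M (uOf M σ) b ∈ genL Qb M (zbar M) := by
  obtain ⟨c, hc, hcb⟩ := exists_zpow_eq M σ
  rw [uOf, hc, tauqL_zpow]
  exact tauqL_mem_genL Qb M _ (hcb b hb)

/-- the rational generators lie in the rational model. -/
theorem trb_mem_F1 (i : ℕ) {b : ℤ} (hb : ¬ (M : ℤ) ∣ b) : trb M i b ∈ F1 M := by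
  rw [mem_F1_iff, coeffEmb_trb]
  exact sum_mem fun σ _ => mul_mem (single_zero_mem_genL M _ _) (tauqL_uOf_mem M σ hb)

open Classical in
theorem geom_sum_unit (u : Qbˣ) (hu : u ^ M = 1) :
    ∑ i ∈ Finset.range M, (((zbar M)⁻¹ ^ i : Qbˣ) : Qb) * ((u ^ i : Qbˣ) : Qb) =
      if u = zbar M then (M : Qb) else 0 := by
  split_ifs with h
  · subst h
    have : ∀ i ∈ Finset.range M,
        (((zbar M)⁻¹ ^ i : Qbˣ) : Qb) * ((zbar M ^ i : Qbˣ) : Qb) = 1 := by
      intro i _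
      rw [← Units.val_mul, ← mul_pow, inv_mul_cancel, one_pow, Units.val_one]
    rw [Finset.sum_congr rfl this]
    simp
  · set x : Qb := (((zbar M)⁻¹ * u : Qbˣ) : Qb) with hx
    have hx1 : x ≠ 1 := by
      intro h1
      apply h
      have : (zbar M)⁻¹ * u = 1 := Units.ext (by simpa [hx] using h1)
      rw [inv_mul_eq_one] at this
      exact this.symm
    have hxM : x ^ M = 1 := by
      rw [hx, ← Units.val_pow_eq_pow_val, mul_pow, hu, inv_pow, (zbar_spec M).pow_eq_one]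
      simp
    have hsum : ∑ i ∈ Finset.range M, (((zbar M)⁻¹ ^ i : Qbˣ) : Qb) * ((u ^ i : Qbˣ) : Qb)
        = ∑ i ∈ Finset.range M, x ^ i := by
      refine Finset.sum_congr rfl fun i _ => ?_
      rw [hx, ← Units.val_mul, ← mul_pow, Units.val_pow_eq_pow_val]
    rw [hsum]
    have h2 := geom_sum_mul x M
    rw [hxM, sub_self] at h2
    exact (mul_eq_zero.mp h2).resolve_right (sub_ne_zero.mpr hx1)

/-- **the generators `τ_(0,b)` over `ℚ̄` lie in the base change of the rational model.** -/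
theorem tauqL_mem_FBar1 {b : ℤ} (hb : ¬ (M : ℤ) ∣ b) :
    tauqL Qb M (zbar M) b ∈ FBar1 M := by
  classical
  set S : LaurentSeries Qb := ∑ i ∈ Finset.range M,
    HahnSeries.single 0 (((zbar M)⁻¹ ^ i : Qbˣ) : Qb) * coeffEmb Qb (trb M i b) with hS
  have hSmem : S ∈ FBar1 M := by
    refine sum_mem fun i _ => mul_mem ?_ (coeffEmb_mem_laurentBaseChange Qb (trb_mem_F1 M i hb))
    rw [← algebraMap_laurentSeries_eq_single]
    exact (FBar1 M).algebraMap_mem _
  set n₀ : ℕ := (Finset.univ.filter fun σ : KZ M →ₐ[ℚ] Qb => uOf M σ = zbar M).card with hn₀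
  have hn₀pos : 0 < n₀ := by
    rw [hn₀, Finset.card_pos]
    exact ⟨(KZ M).val, Finset.mem_filter.mpr ⟨Finset.mem_univ _, uOf_val M⟩⟩
  have hSeq : S = HahnSeries.single 0 ((n₀ : Qb) * (M : Qb)) * tauqL Qb M (zbar M) b := by
    rw [hS]
    simp_rw [coeffEmb_trb, Finset.mul_sum]
    rw [Finset.sum_comm]
    have hσ : ∀ σ : KZ M →ₐ[ℚ] Qb,
        ∑ i ∈ Finset.range M, HahnSeries.single 0 (((zbar M)⁻¹ ^ i : Qbˣ) : Qb) *
          (HahnSeries.single 0 (((uOf M σ) ^ i : Qbˣ) : Qb) * tauqL Qb M (uOf M σ) b) =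
        if uOf M σ = zbar M then
          HahnSeries.single 0 (M : Qb) * tauqL Qb M (zbar M) b else 0 := by
      intro σ
      have h1 : ∀ i ∈ Finset.range M,
          HahnSeries.single 0 (((zbar M)⁻¹ ^ i : Qbˣ) : Qb) *
            (HahnSeries.single 0 (((uOf M σ) ^ i : Qbˣ) : Qb) * tauqL Qb M (uOf M σ) b) =
          HahnSeries.single (0 : ℤ) ((((zbar M)⁻¹ ^ i : Qbˣ) : Qb) *
            (((uOf M σ) ^ i : Qbˣ) : Qb)) * tauqL Qb M (uOf M σ) b := by
        intro i _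
        rw [← mul_assoc, HahnSeries.single_mul_single, add_zero]
      rw [Finset.sum_congr rfl h1, ← Finset.sum_mul]
      have h2 : ∑ i ∈ Finset.range M, HahnSeries.single (0 : ℤ)
          ((((zbar M)⁻¹ ^ i : Qbˣ) : Qb) * (((uOf M σ) ^ i : Qbˣ) : Qb)) =
          HahnSeries.single (0 : ℤ) (∑ i ∈ Finset.range M,
            (((zbar M)⁻¹ ^ i : Qbˣ) : Qb) * (((uOf M σ) ^ i : Qbˣ) : Qb)) := by
        rw [← HahnSeries.C_apply, map_sum]
        rfl
      rw [h2, geom_sum_unit M _ (uOf_pow M σ)]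
      split_ifs with h
      · rw [h]
      · rw [HahnSeries.single_eq_zero, zero_mul]
    rw [Finset.sum_congr rfl fun σ _ => hσ σ, Finset.sum_ite, Finset.sum_const_zero, add_zero,
      Finset.sum_const, ← hn₀, nsmul_eq_mul, ← mul_assoc]
    congr 1
    have hn : ((n₀ : ℕ) : LaurentSeries Qb) = HahnSeries.single (0 : ℤ) (n₀ : Qb) := by
      rw [← HahnSeries.C_apply, map_natCast]
    rw [hn, HahnSeries.single_mul_single, add_zero]
  have hne : ((n₀ : Qb) * (M : Qb)) ≠ 0 := by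
    refine mul_ne_zero ?_ ?_
    · exact_mod_cast hn₀pos.ne'
    · exact_mod_cast NeZero.ne M
  have : tauqL Qb M (zbar M) b = HahnSeries.single 0 ((n₀ : Qb) * (M : Qb))⁻¹ * S := by
    rw [hSeq, ← mul_assoc, HahnSeries.single_mul_single, add_zero, inv_mul_cancel₀ hne]
    exact (one_mul _).symm
  rw [this]
  refine mul_mem ?_ hSmem
  rw [← algebraMap_laurentSeries_eq_single]
  exact (FBar1 M).algebraMap_mem _

/-- **the model theorem**: `FBar1 M = ℚ̄(j, τ_(0,b) : b ≢ 0)`. -/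
theorem FBar1_eq_genL : FBar1 M = genL Qb M (zbar M) := by
  refine le_antisymm (FBar1_le_genL M) ?_
  rw [genL, IntermediateField.adjoin_le_iff]
  rintro x (rfl | ⟨b, hb, rfl⟩)
  · have := coeffEmb_mem_laurentBaseChange Qb (jq_mem_F1 M)
    rw [coeffEmb, ← jqModC_rat, coeffMap_jqModC] at this
    exact this
  · exact tauqL_mem_FBar1 M hb

end Descent2

end Fermat.Agent.S48lib.X1
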