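/-
S48lib / X1 / Field / Degree  (helper3)

**The degree theorem for `X₁(M)`** (K2 milestone):
* `isAnModel_F1`  : `F₁(M)` is an analytic `q`-model of `±Γ₁(M)`;
* `finiteDimensional_FBar1`, `finrank_FBar1` :
  `[FBar₁(M) : ℚ̄(j)] = [SL₂(ℤ) : ±Γ₁(M)]`;
* `adjoin_tau_eq_top` : `FBar₁(M) = ℚ̄(j)(τ_(0,1))`.
-/
import Fermat.Agent.S48lib.X1.Field.AnSep
import Fermat.Agent.S48lib.X1.Field.Descent
import Fermat.Agent.S48lib.X1.Field.DegreeGen

set_option autoImplicit false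
set_option linter.unusedSectionVars false

noncomputable section

namespace Fermat.Agent.S48lib.X1

open Polynomial IntermediateField Module
open scoped MatrixGroups
open ModularCurve Fermat.Agent.ProgramR Fermat.Agent.ProgramR.QExp Fermat.Agent.ProgramR.BarField
open HeckeJ Wp

local notation "Qb" => AlgebraicClosure ℚ

variable (M : ℕ) [NeZero M]

/-- the image of `ζ̄_M` in `ℂ` -/
def zEmb : ℂˣ := Units.map ((qbarEmb : Qb →+* ℂ) : Qb →* ℂ) (zbar M)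

theorem zEmb_isPrimitiveRoot : IsPrimitiveRoot (zEmb M) M := by
  have h1 : IsPrimitiveRoot (qbarEmb ((zbar M : Qbˣ) : Qb)) M :=
    (IsPrimitiveRoot.coe_units_iff.mpr (zbar_spec M)).map_of_injective qbarEmb.injective
  exact IsPrimitiveRoot.coe_units_iff.mp (by simpa [zEmb] using h1)

/-- the exponent `c` with `e(ζ̄) = e(1/M)^c` -/
theorem exists_zEmb_eq :
    ∃ c : ℤ, zEmb M = zC M ^ c ∧ IsCoprime c (M : ℤ) := by
  have hz : IsPrimitiveRoot ((zC M : ℂˣ) : ℂ) M :=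
    IsPrimitiveRoot.coe_units_iff.mpr zC_isPrimitiveRoot
  have hu1 : ((zEmb M : ℂˣ) : ℂ) ^ M = 1 := by
    rw [← Units.val_pow_eq_pow_val, (zEmb_isPrimitiveRoot M).pow_eq_one]; rfl
  obtain ⟨i, -, hi'⟩ := hz.eq_pow_of_pow_eq_one hu1
  have hi : zC M ^ i = zEmb M := by
    apply Units.ext
    rw [Units.val_pow_eq_pow_val]
    exact hi'
  refine ⟨(i : ℤ), by rw [zpow_natCast, hi], ?_⟩
  have hp := zEmb_isPrimitiveRoot M
  rw [← hi] at hp
  have hcop : i.Coprime M := (zC_isPrimitiveRoot.pow_iff_coprime (NeZero.pos M) i).mp hp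
  rw [Int.isCoprime_iff_gcd_eq_one, Int.gcd_natCast_natCast]
  exact hcop

variable {M}

theorem not_dvd_mul_of_isCoprime {c : ℤ} (hc : IsCoprime c (M : ℤ)) {b : ℤ}
    (hb : ¬ (M : ℤ) ∣ b) : ¬ (M : ℤ) ∣ c * b := fun h =>
  hb (hc.symm.dvd_of_dvd_mul_left h)

/-- the expansion of `τ_(0,b)` over `ℂ` with respect to any primitive root `zC ^ c` -/
theorem tauqL_zC_zpow_mem {c : ℤ} (hc : IsCoprime c (M : ℤ)) {b : ℤ} (hb : ¬ (M : ℤ) ∣ b) :
    tauqL ℂ M (zC M ^ c) b =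
      qExpW (pmGamma1 M) 1 T_mem_pmGamma1 (tauWH0 (not_dvd_mul_of_isCoprime hc hb)) := by
  rw [tauqL_zpow, qExpW_apply, Nat.cast_one]
  exact (laurentExp_one_tauAn_e0 (not_dvd_mul_of_isCoprime hc hb)).symm

/-- **`F₁(M)` is an analytic `q`-model of `±Γ₁(M)`** -/
theorem isAnModel_F1 : IsAnModel (pmGamma1 M) T_mem_pmGamma1 (F1 M) := by
  obtain ⟨c, hc, hcop⟩ := exists_zEmb_eq M
  intro y hy
  rw [mem_F1_iff] at hy
  have h1 := coeffMap_mem_genL (qbarEmb : Qb →+* ℂ) M (zbar M) hy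
  rw [BarField.coeffMap_coeffEmb] at h1
  have h2 : (genL ℂ M (zEmb M)).toSubfield ≤
      (qExpFFW (pmGamma1 M) 1 T_mem_pmGamma1).fieldRange := by
    rw [genL, IntermediateField.adjoin, Subfield.closure_le]
    rintro x (⟨a, rfl⟩ | hx)
    · rw [SetLike.mem_coe, RingHom.mem_fieldRange]
      refine ⟨algebraMap _ _ (algebraMap ℂ (WH0 (pmGamma1 M)) a), ?_⟩
      rw [qExpFFW_const, algebraMap_laurentSeries_eq_single]
      rfl
    · rcases hx with rfl | ⟨b, hb, rfl⟩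
      · rw [SetLike.mem_coe, RingHom.mem_fieldRange]
        exact ⟨_, qExpFFW_j (pmGamma1 M) T_mem_pmGamma1⟩
      · rw [SetLike.mem_coe, RingHom.mem_fieldRange, hc, tauqL_zC_zpow_mem hcop hb]
        exact ⟨algebraMap _ _ (tauWH0 (not_dvd_mul_of_isCoprime hcop hb)),
          qExpFFW_algebraMap _ _ _ _⟩
  exact h2 h1

/-! ### the degree -/

/-- `τ_(0,1)` as an element of `FBar₁(M)` -/
def tauBar (hM : 1 < M) : ↥(laurentBaseChange Qb (F1 M)) :=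
  ⟨tauqL Qb M (zbar M) 1, tauqL_mem_FBar1 M (not_dvd_one hM)⟩

theorem coe_tauBar (hM : 1 < M) :
    ((tauBar hM : ↥(laurentBaseChange Qb (F1 M))) : LaurentSeries Qb) = tauqL Qb M (zbar M) 1 :=
  rfl

/-- `FBar₁(M)` is finite over `ℚ̄(j)` -/
theorem finiteDimensional_FBar1 :
    FiniteDimensional Qb⟮jB Qb (jq_mem_F1 M)⟯ ↥(laurentBaseChange Qb (F1 M)) :=
  finiteDimensional_adjoin_jB qbarEmb (jq_mem_F1 M) isAnModel_F1

/-- **the degree theorem**: `[FBar₁(M) : ℚ̄(j)] = [SL₂(ℤ) : ±Γ₁(M)]` -/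
theorem finrank_FBar1 (hM : 1 < M) :
    finrank Qb⟮jB Qb (jq_mem_F1 M)⟯ ↥(laurentBaseChange Qb (F1 M)) =
      Fintype.card (SL(2, ℤ) ⧸ pmGamma1 M) := by
  obtain ⟨c, hc, hcop⟩ := exists_zEmb_eq M
  have hb : ¬ (M : ℤ) ∣ c * 1 := not_dvd_mul_of_isCoprime hcop (not_dvd_one hM)
  have hcop' : IsCoprime (c * 1) (M : ℤ) := by rwa [mul_one]
  refine finrank_adjoin_jB_eq qbarEmb (jq_mem_F1 M) isAnModel_F1 (tauBar hM)
    (separates_tauWH0_of_isCoprime hM hcop' hb) ?_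
  rw [coe_tauBar, coeffMap_tauqL]
  have : Units.map ((qbarEmb : Qb →+* ℂ) : Qb →* ℂ) (zbar M) = zC M ^ c := hc
  rw [this, tauqL_zC_zpow_mem hcop (not_dvd_one hM)]

end Fermat.Agent.S48lib.X1
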