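/-
S48lib / X1 / Field / QModelInst  (helper3)

`F₁(M)` is a `q`-model in the sense of `HeckeJ.IsQModel` (helper6's Hecke correspondences apply).
-/
import Fermat.Agent.S48lib.X1.Field.Degree
import Fermat.Agent.S48lib.X1.HeckeJ.QModel

set_option autoImplicit false

noncomputable section

namespace Fermat.Agent.S48lib.X1

open ModularCurve HeckeJ

variable {M : ℕ} [NeZero M]

/-- **`F₁(M)` is a `q`-model** -/
theorem isQModel_F1 : IsQModel (F1 M) where
  jq_mem := jq_mem_F1 M
  finite := finiteDimensional_FBar1

end Fermat.Agent.S48lib.X1
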