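/-
S48lib / X1 / Field / Transport  (helper3)

**Transport of analytic automorphisms to formal function fields.**
`A` a field with an expansion map `Ψ : A →+* ℂ((Q))` (`ℂ`-linear), `E = L(S) ⊆ L((Q))` a formal
field whose generators are expansions (`coeffMap e s ∈ range Ψ`, `e : L → ℂ`).
* `cmpMap : E →+* A`, the comparison map (`Ψ (cmpMap x) = coeffMap e x`);
* for `α : A →ₐ[ℂ] A` carrying (the functions of) generators to functions of elements of `E`:
  `transport α : E →ₐ[L] E` with `coeffMap e (transport α x) = Ψ (α (cmpMap x))`;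
* uniqueness, composition, identity.
-/
import Mathlib
import Fermat.Prelude.Def_ModularCurve_X0ModL
import Fermat.Agent.ProgramR.BarField.LinDisjoint

set_option autoImplicit false
set_option linter.unusedSectionVars false

noncomputable section

namespace Fermat.Agent.S48lib.X1

open ModularCurve Fermat.Agent.ProgramR.BarField

/-! ### lifting a ring homomorphism through an injective one -/

section Lift

variable {A B C : Type*} [Field A] [CommRing B] [Nontrivial B] [CommRing C]

/-- `A ≃ range Ψ` for a ring homomorphism from a field -/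
def rangeEquiv (Ψ : A →+* B) : A ≃+* Ψ.range :=
  RingEquiv.ofBijective Ψ.rangeRestrict
    ⟨fun a b h => Ψ.injective (congrArg Subtype.val h), Ψ.rangeRestrict_surjective⟩

/-- lift `g : C →+* B` through `Ψ : A →+* B` when `range g ⊆ range Ψ` -/
def liftRange (Ψ : A →+* B) (g : C →+* B) (h : ∀ x, g x ∈ Ψ.range) : C →+* A :=
  ((rangeEquiv Ψ).symm : Ψ.range →+* A).comp (g.codRestrict Ψ.range h)

theorem liftRange_spec (Ψ : A →+* B) (g : C →+* B) (h : ∀ x, g x ∈ Ψ.range) (x : C) :
    Ψ (liftRange Ψ g h x) = g x := by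
  have h1 : ((rangeEquiv Ψ (liftRange Ψ g h x) : Ψ.range) : B) = Ψ (liftRange Ψ g h x) := rfl
  rw [← h1]
  simp only [liftRange, RingHom.coe_comp, Function.comp_apply, RingHom.coe_coe,
    RingEquiv.apply_symm_apply]
  rfl

theorem liftRange_eq_iff (Ψ : A →+* B) (g : C →+* B) (h : ∀ x, g x ∈ Ψ.range) (x : C) (a : A) :
    liftRange Ψ g h x = a ↔ g x = Ψ a := by
  rw [← liftRange_spec Ψ g h]
  exact ⟨fun h => by rw [h], fun h => Ψ.injective h⟩

end Lift

/-! ### the comparison map and the transport -/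

section Transport

theorem coeffMap_algebraMap_C {L : Type*} [Field L] (e : L →+* ℂ) (a : L) :
    coeffMap e (algebraMap L (LaurentSeries L) a) = HahnSeries.C (e a) := by
  rw [algebraMap_laurentSeries_eq_single, coeffMap_single]
  rfl

variable {A : Type*} [Field A] [Algebra ℂ A] (Ψ : A →+* LaurentSeries ℂ)
  (hΨ : ∀ c : ℂ, Ψ (algebraMap ℂ A c) = HahnSeries.C c)
  {L : Type*} [Field L] (e : L →+* ℂ) (S : Set (LaurentSeries L))

/-- the injective map `L(S) → ℂ((Q))` -/
def embE : ↥(IntermediateField.adjoin L S) →+* LaurentSeries ℂ :=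
  (coeffMap e).comp (IntermediateField.adjoin L S).val.toRingHom

theorem embE_apply (x : ↥(IntermediateField.adjoin L S)) :
    embE e S x = coeffMap e (x : LaurentSeries L) := rfl

include hΨ

/-- the expansions of the elements of `L(S)` are in the range of `Ψ` when the generators are -/
theorem coeffMap_mem_range_of_gen (hS : ∀ s ∈ S, coeffMap e s ∈ Ψ.range)
    {x : LaurentSeries L} (hx : x ∈ IntermediateField.adjoin L S) : coeffMap e x ∈ Ψ.range := by
  have hr : ∀ y, y ∈ Ψ.range ↔ y ∈ Ψ.fieldRange := fun y => Iff.rfl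
  let T : Subfield (LaurentSeries L) := Ψ.fieldRange.comap (coeffMap e)
  suffices h : (IntermediateField.adjoin L S).toSubfield ≤ T from (hr _).2 (h hx)
  rw [IntermediateField.adjoin, Subfield.closure_le]
  rintro y (⟨a, rfl⟩ | hy)
  · show coeffMap e (algebraMap L (LaurentSeries L) a) ∈ Ψ.fieldRange
    rw [coeffMap_algebraMap_C, RingHom.mem_fieldRange]
    exact ⟨algebraMap ℂ A (e a), hΨ _⟩
  · exact (hr _).1 (hS y hy)

variable (hS : ∀ s ∈ S, coeffMap e s ∈ Ψ.range)

/-- **the comparison map** `L(S) → A` -/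
def cmpMap : ↥(IntermediateField.adjoin L S) →+* A :=
  liftRange Ψ ((coeffMap e).comp (IntermediateField.adjoin L S).val.toRingHom)
    (fun x => coeffMap_mem_range_of_gen Ψ hΨ e S hS x.2)

theorem cmpMap_spec (x : ↥(IntermediateField.adjoin L S)) :
    Ψ (cmpMap Ψ hΨ e S hS x) = coeffMap e (x : LaurentSeries L) :=
  liftRange_spec Ψ _ _ x

theorem cmpMap_eq_iff (x : ↥(IntermediateField.adjoin L S)) (a : A) :
    cmpMap Ψ hΨ e S hS x = a ↔ coeffMap e (x : LaurentSeries L) = Ψ a :=
  liftRange_eq_iff Ψ _ _ x a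

theorem cmpMap_algebraMap (c : L) :
    cmpMap Ψ hΨ e S hS (algebraMap L _ c) = algebraMap ℂ A (e c) := by
  rw [cmpMap_eq_iff, hΨ]
  exact coeffMap_algebraMap_C e c

/-- the hypothesis on `α`: it carries generators to elements of `L(S)` -/
def MapsGen (α : A →+* A) : Prop :=
  ∀ s ∈ S, ∀ a : A, Ψ a = coeffMap e s → ∃ s' ∈ IntermediateField.adjoin L S,
    Ψ (α a) = coeffMap e s'

variable {Ψ e S}

theorem MapsGen.mem_range {α : A →ₐ[ℂ] A} (hα : MapsGen Ψ e S (α : A →+* A))
    (x : ↥(IntermediateField.adjoin L S)) :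
    Ψ (α (cmpMap Ψ hΨ e S hS x)) ∈ (embE e S).range := by
  have hr : ∀ y, y ∈ (embE e S).range ↔ y ∈ (embE e S).fieldRange := fun y => Iff.rfl
  rw [hr]
  let φ : ↥(IntermediateField.adjoin L S) →+* LaurentSeries ℂ :=
    Ψ.comp ((α : A →+* A).comp (cmpMap Ψ hΨ e S hS))
  show φ x ∈ (embE e S).fieldRange
  obtain ⟨x, hx⟩ := x
  induction hx using IntermediateField.adjoin_induction with
  | mem s hs =>
    obtain ⟨s', hs', h1⟩ := hα s hs (cmpMap Ψ hΨ e S hS ⟨s, IntermediateField.subset_adjoin L S hs⟩)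
      (cmpMap_spec Ψ hΨ e S hS _)
    rw [RingHom.mem_fieldRange]
    exact ⟨⟨s', hs'⟩, h1.symm⟩
  | algebraMap c =>
    rw [RingHom.mem_fieldRange]
    refine ⟨algebraMap L _ c, ?_⟩
    show _ = Ψ (α (cmpMap Ψ hΨ e S hS (algebraMap L _ c)))
    have hc1 : α (algebraMap ℂ A (e c)) = algebraMap ℂ A (e c) := α.commutes (e c)
    rw [cmpMap_algebraMap Ψ hΨ e S hS c, hc1, hΨ (e c), embE_apply]
    exact coeffMap_algebraMap_C e c
  | add x y hx hy ihx ihy =>
    have : (⟨x + y, add_mem hx hy⟩ : ↥(IntermediateField.adjoin L S)) = ⟨x, hx⟩ + ⟨y, hy⟩ := rfl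
    rw [this, map_add]
    exact add_mem ihx ihy
  | inv x hx ihx =>
    have : (⟨x⁻¹, inv_mem hx⟩ : ↥(IntermediateField.adjoin L S)) = (⟨x, hx⟩)⁻¹ := rfl
    rw [this, map_inv₀]
    exact inv_mem ihx
  | mul x y hx hy ihx ihy =>
    have : (⟨x * y, mul_mem hx hy⟩ : ↥(IntermediateField.adjoin L S)) = ⟨x, hx⟩ * ⟨y, hy⟩ := rfl
    rw [this, map_mul]
    exact mul_mem ihx ihy

/-- **the transported endomorphism** of `L(S)` -/
def transport (α : A →ₐ[ℂ] A) (hα : MapsGen Ψ e S (α : A →+* A)) :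
    ↥(IntermediateField.adjoin L S) →ₐ[L] ↥(IntermediateField.adjoin L S) where
  __ := liftRange (embE e S) (Ψ.comp ((α : A →+* A).comp (cmpMap Ψ hΨ e S hS)))
    (fun x => MapsGen.mem_range hΨ hS hα x)
  commutes' c := by
    refine (liftRange_eq_iff (embE e S) _ _ _ _).2 ?_
    show Ψ (α (cmpMap Ψ hΨ e S hS (algebraMap L _ c))) = _
    have hc1 : α (algebraMap ℂ A (e c)) = algebraMap ℂ A (e c) := α.commutes (e c)
    rw [cmpMap_algebraMap Ψ hΨ e S hS c, hc1, hΨ (e c), embE_apply]
    exact (coeffMap_algebraMap_C e c).symm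

theorem transport_spec (α : A →ₐ[ℂ] A) (hα : MapsGen Ψ e S (α : A →+* A))
    (x : ↥(IntermediateField.adjoin L S)) :
    coeffMap e ((transport hΨ hS α hα x : ↥(IntermediateField.adjoin L S)) : LaurentSeries L) =
      Ψ (α (cmpMap Ψ hΨ e S hS x)) :=
  liftRange_spec (embE e S) _ _ x

/-- the comparison map intertwines `transport α` and `α` -/
theorem cmpMap_transport (α : A →ₐ[ℂ] A) (hα : MapsGen Ψ e S (α : A →+* A))
    (x : ↥(IntermediateField.adjoin L S)) :
    cmpMap Ψ hΨ e S hS (transport hΨ hS α hα x) = α (cmpMap Ψ hΨ e S hS x) := by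
  rw [cmpMap_eq_iff, transport_spec]

theorem transport_eq_iff (α : A →ₐ[ℂ] A) (hα : MapsGen Ψ e S (α : A →+* A))
    (x y : ↥(IntermediateField.adjoin L S)) :
    transport hΨ hS α hα x = y ↔
      Ψ (α (cmpMap Ψ hΨ e S hS x)) = coeffMap e (y : LaurentSeries L) := by
  rw [← transport_spec hΨ hS α hα]
  constructor
  · intro h; rw [h]
  · intro h
    apply Subtype.ext
    have hinj : Function.Injective (coeffMap e) := (coeffMap e).injective
    exact hinj h

omit hΨ in
theorem mapsGen_id : MapsGen Ψ e S ((AlgHom.id ℂ A : A →ₐ[ℂ] A) : A →+* A) := by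
  intro s hs a ha
  exact ⟨s, IntermediateField.subset_adjoin L S hs, ha⟩

theorem transport_id (x : ↥(IntermediateField.adjoin L S)) :
    transport hΨ hS (AlgHom.id ℂ A) mapsGen_id x = x := by
  rw [transport_eq_iff]
  exact cmpMap_spec Ψ hΨ e S hS x

theorem transport_comp (α β : A →ₐ[ℂ] A) (hα : MapsGen Ψ e S (α : A →+* A))
    (hβ : MapsGen Ψ e S (β : A →+* A)) (hαβ : MapsGen Ψ e S ((α.comp β : A →ₐ[ℂ] A) : A →+* A))
    (x : ↥(IntermediateField.adjoin L S)) :
    transport hΨ hS (α.comp β) hαβ x = transport hΨ hS α hα (transport hΨ hS β hβ x) := by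
  rw [transport_eq_iff, transport_spec, cmpMap_transport]
  rfl

end Transport

end Fermat.Agent.S48lib.X1
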