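/-
S48lib / X1 / Field / DescentGen  (helper3)

**Descent of membership along an extension of the coefficient field** (linear disjointness of
`ℂ` and `L((Q))` over `L`): for a subfield `E ⊆ L((Q))` containing `L` and `x ∈ L((Q))`,
`coeffMap e x ∈ ℂ(coeffMap e '' E)` implies `x ∈ E`.
-/
import Mathlib
import Fermat.Prelude.Def_ModularCurve_X0ModL
import Fermat.Agent.S48lib.X1.Field.Transport

set_option autoImplicit false
set_option linter.unusedSectionVars false

noncomputable section

namespace Fermat.Agent.S48lib.X1

open ModularCurve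

section

variable {L : Type*} [Field L] (e : L →+* ℂ)

/-- apply an additive map coefficientwise -/
def applyFun (φ : ℂ →+ L) (y : LaurentSeries ℂ) : LaurentSeries L := y.map φ

theorem applyFun_coeff (φ : ℂ →+ L) (y : LaurentSeries ℂ) (n : ℤ) :
    (applyFun φ y).coeff n = φ (y.coeff n) := rfl

theorem applyFun_add (φ : ℂ →+ L) (y y' : LaurentSeries ℂ) :
    applyFun φ (y + y') = applyFun φ y + applyFun φ y' := by
  ext n
  simp [applyFun_coeff]

theorem applyFun_zero (φ : ℂ →+ L) : applyFun φ 0 = 0 := by
  ext n
  simp [applyFun_coeff]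

theorem support_applyFun_subset (φ : ℂ →+ L) (y : LaurentSeries ℂ) :
    (applyFun φ y).support ⊆ y.support := by
  intro n hn
  rw [HahnSeries.mem_support] at hn ⊢
  intro h
  apply hn
  rw [applyFun_coeff, h, map_zero]

theorem support_coeffMap_subset (z : LaurentSeries L) : (coeffMap e z).support ⊆ z.support := by
  intro n hn
  rw [HahnSeries.mem_support] at hn ⊢
  intro h
  apply hn
  rw [coeffMap_coeff, h, map_zero]

/-- **`L((Q))`-linearity of a coefficientwise `L`-linear functional** -/
theorem applyFun_mul (φ : ℂ →+ L) (hφ : ∀ (a : L) (c : ℂ), φ (e a * c) = a * φ c)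
    (z : LaurentSeries L) (y : LaurentSeries ℂ) :
    applyFun φ (coeffMap e z * y) = z * applyFun φ y := by
  ext n
  rw [applyFun_coeff,
    HahnSeries.coeff_mul_left' (x := coeffMap e z) (y := y) z.isPWO_support
      (support_coeffMap_subset e z),
    HahnSeries.coeff_mul_right' (x := z) (y := applyFun φ y) y.isPWO_support
      (support_applyFun_subset φ y), map_sum]
  refine Finset.sum_congr rfl fun ij _ => ?_
  rw [coeffMap_coeff, hφ, applyFun_coeff]

theorem applyFun_C_mul_coeffMap (φ : ℂ →+ L) (hφ : ∀ (a : L) (c : ℂ), φ (e a * c) = a * φ c)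
    (c : ℂ) (z : LaurentSeries L) :
    applyFun φ (HahnSeries.C c * coeffMap e z) = z * HahnSeries.C (φ c) := by
  rw [mul_comm, applyFun_mul e φ hφ]
  congr 1
  ext n
  rw [applyFun_coeff, HahnSeries.C_apply, HahnSeries.C_apply, HahnSeries.coeff_single,
    HahnSeries.coeff_single]
  split_ifs
  · rfl
  · exact map_zero φ

end

section Main

attribute [-instance] HahnSeries.instModule

variable {L : Type*} [Field L] (e : L →+* ℂ)

/-- the `ℂ`-span of `coeffMap e '' E` as a subalgebra -/
def spanAlg (E : IntermediateField L (LaurentSeries L)) : Subalgebra ℂ (LaurentSeries ℂ) :=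
  Algebra.adjoin ℂ (coeffMap e '' (E : Set (LaurentSeries L)))

theorem spanAlg_toSubmodule (E : IntermediateField L (LaurentSeries L)) :
    Subalgebra.toSubmodule (spanAlg e E) =
      Submodule.span ℂ (coeffMap e '' (E : Set (LaurentSeries L))) := by
  rw [spanAlg, Algebra.adjoin_eq_span]
  congr 1
  have h : coeffMap e '' (E : Set (LaurentSeries L)) =
      ((E.toSubfield.toSubring.toSubmonoid.map
        ((coeffMap e : LaurentSeries L →+* LaurentSeries ℂ) : LaurentSeries L →* LaurentSeries ℂ) :
          Submonoid (LaurentSeries ℂ)) : Set (LaurentSeries ℂ)) := by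
    ext w
    simp
  rw [h, Submonoid.closure_eq]

/-- every element `y` of the span has all its `L`-linear coefficient images in `E` -/
theorem applyFun_mem_of_mem_spanAlg (E : IntermediateField L (LaurentSeries L))
    (φ : ℂ →+ L) (hφ : ∀ (a : L) (c : ℂ), φ (e a * c) = a * φ c)
    {y : LaurentSeries ℂ} (hy : y ∈ spanAlg e E) : applyFun φ y ∈ E := by
  have hy' : y ∈ Submodule.span ℂ (coeffMap e '' (E : Set (LaurentSeries L))) := by
    rw [← spanAlg_toSubmodule]
    exact hy
  suffices h : ∀ c : ℂ, applyFun φ (HahnSeries.C c * y) ∈ E by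
    have := h 1
    rwa [map_one, one_mul] at this
  clear hy
  induction hy' using Submodule.span_induction with
  | mem w hw =>
    obtain ⟨z, hz, rfl⟩ := hw
    intro c
    rw [applyFun_C_mul_coeffMap e φ hφ]
    refine E.mul_mem hz ?_
    have : (HahnSeries.C (φ c) : LaurentSeries L) = algebraMap L (LaurentSeries L) (φ c) := by
      rw [algebraMap_laurentSeries_eq_single]
      rfl
    rw [this]
    exact E.algebraMap_mem _
  | zero =>
    intro c
    rw [mul_zero, applyFun_zero]
    exact E.zero_mem
  | add y y' _ _ ihy ihy' =>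
    intro c
    rw [mul_add, applyFun_add]
    exact E.add_mem (ihy c) (ihy' c)
  | smul a y _ ihy =>
    intro c
    rw [Algebra.smul_def, ← mul_assoc]
    have h1 : HahnSeries.C c * algebraMap ℂ (LaurentSeries ℂ) a = HahnSeries.C (c * a) := by
      rw [map_mul, algebraMap_laurentSeries_eq_single]
      rfl
    rw [h1]
    exact ihy (c * a)

/-- **Descent.** -/
theorem mem_of_coeffMap_mem_adjoin (E : IntermediateField L (LaurentSeries L))
    {x : LaurentSeries L}
    (hx : coeffMap e x ∈
      IntermediateField.adjoin ℂ (coeffMap e '' (E : Set (LaurentSeries L)))) : x ∈ E := by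
  classical
  -- write `coeffMap e x = N / D` with `N, D` in the span
  have hx' : coeffMap e x ∈ Subfield.closure
      (Set.range (algebraMap ℂ (LaurentSeries ℂ)) ∪ coeffMap e '' (E : Set (LaurentSeries L))) := hx
  rw [Subfield.mem_closure_iff] at hx'
  obtain ⟨N, hN, D, hD, hND⟩ := hx'
  have hle : Subring.closure
      (Set.range (algebraMap ℂ (LaurentSeries ℂ)) ∪ coeffMap e '' (E : Set (LaurentSeries L))) ≤
        (spanAlg e E).toSubring := by
    rw [Subring.closure_le]
    rintro w (⟨c, rfl⟩ | hw)
    · exact (spanAlg e E).algebraMap_mem c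
    · exact Algebra.subset_adjoin hw
  have hN' : N ∈ spanAlg e E := hle hN
  have hD' : D ∈ spanAlg e E := hle hD
  by_cases hD0 : D = 0
  · rw [hD0, div_zero] at hND
    have : x = 0 := by
      have hinj : Function.Injective (coeffMap e) := (coeffMap e).injective
      exact hinj (by rw [← hND, map_zero])
    rw [this]
    exact E.zero_mem
  · have hrel : coeffMap e x * D = N := by
      rw [← hND, div_mul_cancel₀ _ hD0]
    -- choose a coefficient functional not vanishing on `D`
    obtain ⟨n, hn⟩ : ∃ n, D.coeff n ≠ 0 := by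
      by_contra hcon
      apply hD0
      ext n
      by_contra h
      exact hcon ⟨n, h⟩
    obtain ⟨φ, hφ, hψ⟩ : ∃ φ : ℂ →+ L, (∀ (a : L) (c : ℂ), φ (e a * c) = a * φ c) ∧
        φ (D.coeff n) ≠ 0 := by
      letI : Algebra L ℂ := e.toAlgebra
      obtain ⟨ψ, hψ⟩ : ∃ ψ : Module.Dual L ℂ, ψ (D.coeff n) ≠ 0 := by
        by_contra hcon
        apply hn
        rw [← Module.forall_dual_apply_eq_zero_iff L (D.coeff n)]
        intro ψ
        by_contra h
        exact hcon ⟨ψ, h⟩
      refine ⟨ψ.toAddMonoidHom, ?_, hψ⟩
      intro a c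
      have h1 : e a * c = a • c := by
        rw [Algebra.smul_def]
        rfl
      show ψ (e a * c) = a * ψ c
      rw [h1, map_smul, smul_eq_mul]
    have h1 := applyFun_mul e φ hφ x D
    rw [hrel] at h1
    have hDE := applyFun_mem_of_mem_spanAlg e E φ hφ hD'
    have hNE := applyFun_mem_of_mem_spanAlg e E φ hφ hN'
    have hD1 : applyFun φ D ≠ 0 := by
      intro h
      apply hψ
      have := congrArg (fun y : LaurentSeries L => y.coeff n) h
      simpa [applyFun_coeff] using this
    have hxeq : x = applyFun φ N / applyFun φ D := by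
      rw [eq_div_iff hD1, h1]
    rw [hxeq]
    exact E.div_mem hNE hDE

end Main

end Fermat.Agent.S48lib.X1
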