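/-
S48lib / X1 / Field / Generates  (helper3)

**Generation** (`HeckeJ.Generates`): if an analytic `q`-model `F₀` of `Γ` contains the expansion of
a separating function `h ∈ WH0 Γ`, every analytic function is a quotient of a `ℂ`-polynomial
expression in formal functions by a polynomial in `j`.  Instance: `F₁(M)`, `Γ = ±Γ₁(M)`.
-/
import Fermat.Agent.S48lib.X1.Field.Degree
import Fermat.Agent.S48lib.X1.HeckeJ.LinDisjGen

set_option autoImplicit false
set_option linter.unusedSectionVars false

noncomputable section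

namespace Fermat.Agent.S48lib.X1

open Polynomial IntermediateField Module
open scoped MatrixGroups
open ModularCurve Fermat.Agent.ProgramR Fermat.Agent.ProgramR.QExp Fermat.Agent.ProgramR.BarField
open HeckeJ Wp

attribute [local instance] FractionRing.liftAlgebra

section Gen

variable {Γ : Subgroup SL(2, ℤ)} {hT : ModularGroup.T ^ ((1 : ℕ) : ℤ) ∈ Γ}
  [Fintype (SL(2, ℤ) ⧸ Γ)] {F₀ : IntermediateField ℚ (LaurentSeries ℚ)}
  {L : Type*} [Field L] [Algebra ℚ L] (e : L →+* ℂ)

set_option synthInstance.maxHeartbeats 400000 in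
/-- a separating function is a primitive element of the analytic function field over `ℂ(j)` -/
theorem adjoin_eq_top_of_separates {h : WH0 Γ} (hsep : Separates Γ h) :
    RatC⟮algebraMap (WH0 Γ) (WH0.FunField Γ) h⟯ = ⊤ := by
  rw [Field.primitive_element_iff_minpoly_natDegree_eq RatC]
  have hint : IsIntegral ℂ[X] h := Algebra.IsIntegral.isIntegral h
  apply le_antisymm (minpoly.natDegree_le _)
  rw [minpoly.isIntegrallyClosed_eq_field_fractions RatC (WH0.FunField Γ) hint,
    (minpoly.monic hint).natDegree_map]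
  exact (WH0.finrank_funField_le Γ).trans
    (card_le_natDegree_of_separates hsep (minpoly.ne_zero hint) (minpoly.aeval _ _))

theorem jPoly_eq_algebraMap (q : ℂ[X]) :
    jPoly Γ q = algebraMap ℂ[X] (WH0.FunField Γ) q := by
  rw [jPoly, ← WH0.algebraMap_poly, ← IsScalarTower.algebraMap_apply]

/-- **generation from a separating function** -/
theorem generates_of_separates (hM : IsAnModel Γ hT F₀) (hj : jq ∈ F₀)
    (θ : ↥(laurentBaseChange L F₀)) {h : WH0 Γ} (hsep : Separates Γ h)
    (hθ : coeffMap e (θ : LaurentSeries L) = qExpW Γ 1 hT h) : Generates hM e := by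
  classical
  intro c
  set hF : WH0.FunField Γ := algebraMap (WH0 Γ) (WH0.FunField Γ) h with hFdef
  have hΦ : hM.toFunField e θ = hF := by
    rw [hM.toFunField_eq_iff, hθ, hFdef, qExpFFW_algebraMap]
    rfl
  have hint : IsIntegral RatC hF := Algebra.IsIntegral.isIntegral hF
  have hc : c ∈ RatC⟮hF⟯ := by rw [adjoin_eq_top_of_separates hsep]; trivial
  have hc' : c ∈ (RatC⟮hF⟯).toSubalgebra := hc
  rw [IntermediateField.adjoin_simple_toSubalgebra_of_isAlgebraic hint.isAlgebraic,
    Algebra.adjoin_singleton_eq_range_aeval] at hc'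
  obtain ⟨P, hP⟩ := hc'
  have hP' : Polynomial.aeval hF P = c := hP
  obtain ⟨b, hb⟩ := IsLocalization.integerNormalization_map_to_map (nonZeroDivisors ℂ[X]) P
  refine ⟨(b : ℂ[X]), nonZeroDivisors.coe_ne_zero b, ?_⟩
  have h1 : jPoly Γ (b : ℂ[X]) * Polynomial.aeval hF P =
      Polynomial.aeval hF ((IsLocalization.integerNormalization (nonZeroDivisors ℂ[X]) P).map
        (algebraMap ℂ[X] RatC)) := by
    rw [hb, jPoly_eq_algebraMap, Algebra.smul_def, Polynomial.algebraMap_apply, map_mul,
      Polynomial.aeval_C, ← IsScalarTower.algebraMap_apply]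
  rw [← hP', h1, Polynomial.aeval_map_algebraMap, Polynomial.aeval_eq_sum_range]
  refine Subalgebra.sum_mem _ fun k _ => ?_
  rw [Algebra.smul_def, ← jPoly_eq_algebraMap]
  refine Subalgebra.mul_mem _ (jPoly_mem_algΦG hM e hj _) (Subalgebra.pow_mem _ ?_ _)
  rw [← hΦ]
  exact toFunField_mem_algΦG hM e θ

end Gen

/-! ### the instance `F₁(M)` -/

section Inst

local notation "Qb" => AlgebraicClosure ℚ

variable {M : ℕ} [NeZero M]

/-- **`F₁(M)` generates the analytic function field of `±Γ₁(M)`** -/
theorem generates_F1 (hM : 1 < M) :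
    Generates (isAnModel_F1 (M := M)) (qbarEmb : Qb →+* ℂ) := by
  obtain ⟨c, hc, hcop⟩ := exists_zEmb_eq M
  have hb : ¬ (M : ℤ) ∣ c * 1 := not_dvd_mul_of_isCoprime hcop (not_dvd_one hM)
  have hcop' : IsCoprime (c * 1) (M : ℤ) := by rwa [mul_one]
  refine generates_of_separates qbarEmb isAnModel_F1 (jq_mem_F1 M) (tauBar hM)
    (separates_tauWH0_of_isCoprime hM hcop' hb) ?_
  rw [coe_tauBar, coeffMap_tauqL]
  have : Units.map ((qbarEmb : Qb →+* ℂ) : Qb →* ℂ) (zbar M) = zC M ^ c := hc
  rw [this, tauqL_zC_zpow_mem hcop (not_dvd_one hM)]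

end Inst

end Fermat.Agent.S48lib.X1
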