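/-
S48lib / X1 / Field / AutAn  (helper3)

**The action of `SL(2,ℤ)` on the analytic function field of a normal subgroup `Γ`**
(`h ↦ h ∘ g⁻¹`, a left action by `ℂ`-algebra automorphisms), its fixed elements, and the effect
on `Q`-expansions of the translation `T`.
-/
import Fermat.Agent.S48lib.X1.HeckeJ.QExpGen
import Fermat.Agent.ProgramR.CuspLocal.Translate
import Fermat.Agent.ProgramR.Analytic.Division

set_option autoImplicit false
set_option linter.unusedSectionVars false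

noncomputable section

namespace Fermat.Agent.S48lib.X1

open UpperHalfPlane hiding I
open scoped MatrixGroups
open ModularCurve Fermat.Agent.ProgramR Fermat.Agent.ProgramR.QExp
open Fermat.Agent.ProgramR.CuspLocal Fermat.Agent.S29lib.H HeckeJ

attribute [local instance] FractionRing.liftAlgebra

section Normal

variable (Γ : Subgroup SL(2, ℤ)) [hn : Γ.Normal]

theorem isWH0_slTranslate (g : SL(2, ℤ)) {h : ℍ → ℂ} (H : IsWH0 Γ h) :
    IsWH0 Γ (slTranslate g h) where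
  mdiff := mdifferentiable_slTranslate g H.mdiff
  smul_eq := by
    intro γ hγ z
    rw [slTranslate_apply, slTranslate_apply]
    have h1 : g⁻¹ • γ • z = (g⁻¹ * γ * g) • (g⁻¹ • z) := by
      rw [mul_smul, mul_smul, smul_inv_smul]
    have h2 : g⁻¹ * γ * g ∈ Γ := by
      have := hn.conj_mem γ hγ g⁻¹
      rwa [inv_inv] at this
    rw [h1]
    exact H.smul_eq _ h2 _
  exists_bdd := by
    obtain ⟨m, hm⟩ := H.exists_bdd
    refine ⟨m, fun g' => ?_⟩
    have := hm (g⁻¹ * g')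
    simpa [slTranslate_apply, mul_smul] using this

/-- `h ↦ h ∘ g⁻¹` on `WH0 Γ`, `Γ` normal -/
def slAutWH0 (g : SL(2, ℤ)) : WH0 Γ →ₐ[ℂ] WH0 Γ where
  toFun h := ⟨slTranslate g h.1, isWH0_slTranslate Γ g h.2⟩
  map_one' := rfl
  map_mul' _ _ := rfl
  map_zero' := rfl
  map_add' _ _ := rfl
  commutes' _ := rfl

@[simp] theorem slAutWH0_apply (g : SL(2, ℤ)) (h : WH0 Γ) (z : ℍ) :
    (slAutWH0 Γ g h).1 z = h.1 (g⁻¹ • z) := rfl

theorem slAutWH0_one (h : WH0 Γ) : slAutWH0 Γ 1 h = h := by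
  apply Subtype.ext
  funext z
  simp

theorem slAutWH0_mul (g g' : SL(2, ℤ)) (h : WH0 Γ) :
    slAutWH0 Γ (g * g') h = slAutWH0 Γ g (slAutWH0 Γ g' h) := by
  apply Subtype.ext
  funext z
  simp [mul_smul]

theorem slAutWH0_of_mem {g : SL(2, ℤ)} (hg : g ∈ Γ) (h : WH0 Γ) : slAutWH0 Γ g h = h := by
  apply Subtype.ext
  funext z
  rw [slAutWH0_apply]
  exact h.2.smul_eq _ (Γ.inv_mem hg) z

theorem slAutWH0_j (g : SL(2, ℤ)) : slAutWH0 Γ g (WH0.j Γ) = WH0.j Γ := by
  apply Subtype.ext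
  funext z
  rw [slAutWH0_apply, WH0.j_apply, WH0.j_apply, LevelOne.jInv_smul]

theorem slAutWH0_injective (g : SL(2, ℤ)) : Function.Injective (slAutWH0 Γ g) := by
  intro a b hab
  have := congrArg (slAutWH0 Γ g⁻¹) hab
  rwa [← slAutWH0_mul, ← slAutWH0_mul, inv_mul_cancel, slAutWH0_one, slAutWH0_one] at this

theorem slAutFF_aux_injective (g : SL(2, ℤ)) :
    Function.Injective
      ((IsScalarTower.toAlgHom ℂ (WH0 Γ) (WH0.FunField Γ)).comp (slAutWH0 Γ g)) :=
  (IsFractionRing.injective (WH0 Γ) (WH0.FunField Γ)).comp (slAutWH0_injective Γ g)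

/-- `h ↦ h ∘ g⁻¹` on the function field `Frac (WH0 Γ)` -/
def slAutFF (g : SL(2, ℤ)) : WH0.FunField Γ →ₐ[ℂ] WH0.FunField Γ :=
  IsFractionRing.liftAlgHom (slAutFF_aux_injective Γ g)

theorem slAutFF_algebraMap (g : SL(2, ℤ)) (h : WH0 Γ) :
    slAutFF Γ g (algebraMap (WH0 Γ) (WH0.FunField Γ) h) =
      algebraMap (WH0 Γ) (WH0.FunField Γ) (slAutWH0 Γ g h) :=
  (IsFractionRing.liftAlgHom_apply (slAutFF_aux_injective Γ g) _).trans
    (IsFractionRing.lift_algebraMap _ h)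

theorem slAutFF_one (x : WH0.FunField Γ) : slAutFF Γ 1 x = x := by
  have : ((slAutFF Γ 1 : WH0.FunField Γ →ₐ[ℂ] WH0.FunField Γ) : WH0.FunField Γ →+* WH0.FunField Γ) =
      RingHom.id _ := by
    apply funField_ringHom_ext
    intro a
    rw [RingHom.coe_coe, slAutFF_algebraMap, slAutWH0_one]
    rfl
  exact congrArg (fun φ : WH0.FunField Γ →+* WH0.FunField Γ => φ x) this

theorem slAutFF_mul (g g' : SL(2, ℤ)) (x : WH0.FunField Γ) :
    slAutFF Γ (g * g') x = slAutFF Γ g (slAutFF Γ g' x) := by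
  have : ((slAutFF Γ (g * g') : WH0.FunField Γ →ₐ[ℂ] WH0.FunField Γ) :
        WH0.FunField Γ →+* WH0.FunField Γ) =
      ((slAutFF Γ g : WH0.FunField Γ →ₐ[ℂ] WH0.FunField Γ) :
        WH0.FunField Γ →+* WH0.FunField Γ).comp
      ((slAutFF Γ g' : WH0.FunField Γ →ₐ[ℂ] WH0.FunField Γ) :
        WH0.FunField Γ →+* WH0.FunField Γ) := by
    apply funField_ringHom_ext
    intro a
    rw [RingHom.comp_apply, RingHom.coe_coe, RingHom.coe_coe, RingHom.coe_coe, slAutFF_algebraMap,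
      slAutFF_algebraMap, slAutFF_algebraMap, slAutWH0_mul]
  exact congrArg (fun φ : WH0.FunField Γ →+* WH0.FunField Γ => φ x) this

theorem slAutFF_of_mem {g : SL(2, ℤ)} (hg : g ∈ Γ) (x : WH0.FunField Γ) : slAutFF Γ g x = x := by
  have : ((slAutFF Γ g : WH0.FunField Γ →ₐ[ℂ] WH0.FunField Γ) : WH0.FunField Γ →+* WH0.FunField Γ) =
      RingHom.id _ := by
    apply funField_ringHom_ext
    intro a
    rw [RingHom.coe_coe, slAutFF_algebraMap, slAutWH0_of_mem Γ hg]
    rfl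
  exact congrArg (fun φ : WH0.FunField Γ →+* WH0.FunField Γ => φ x) this

theorem slAutFF_comp (g g' : SL(2, ℤ)) :
    (slAutFF Γ g).comp (slAutFF Γ g') = slAutFF Γ (g * g') :=
  AlgHom.ext fun x => (slAutFF_mul Γ g g' x).symm

theorem slAutFF_algebraMap_poly (g : SL(2, ℤ)) (p : Polynomial ℂ) :
    slAutFF Γ g (algebraMap (Polynomial ℂ) (WH0.FunField Γ) p) =
      algebraMap (Polynomial ℂ) (WH0.FunField Γ) p := by
  rw [IsScalarTower.algebraMap_apply (Polynomial ℂ) (WH0 Γ) (WH0.FunField Γ), slAutFF_algebraMap]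
  congr 1
  rw [WH0.algebraMap_poly, ← Polynomial.aeval_algHom_apply, slAutWH0_j]

/-! ### fixed elements -/

variable [Fintype (SL(2, ℤ) ⧸ Γ)]

set_option synthInstance.maxHeartbeats 400000 in
/-- **an element of `Frac (WH0 Γ)` fixed by `Γ' ⊇ Γ` is a quotient of an element of `WH0 Γ'` by
a polynomial in `j`** -/
theorem exists_of_slAutFF_fixed {Γ' : Subgroup SL(2, ℤ)} (hle : Γ ≤ Γ') (x : WH0.FunField Γ)
    (hx : ∀ g ∈ Γ', slAutFF Γ g x = x) :
    ∃ (a : WH0 Γ') (p : Polynomial ℂ), p ≠ 0 ∧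
      algebraMap (Polynomial ℂ) (WH0.FunField Γ) p * x =
        algebraMap (WH0 Γ) (WH0.FunField Γ) (inclWH0 hle a) := by
  have hinj : Function.Injective (algebraMap (Polynomial ℂ) (WH0.FunField Γ)) := by
    rw [IsScalarTower.algebraMap_eq (Polynomial ℂ) (WH0 Γ) (WH0.FunField Γ)]
    exact (IsFractionRing.injective (WH0 Γ) (WH0.FunField Γ)).comp
      (WH0.algebraMap_poly_injective Γ)
  have halg : IsAlgebraic (Polynomial ℂ) x := by
    have h1 : IsAlgebraic RatC x := Algebra.IsAlgebraic.isAlgebraic x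
    exact (IsFractionRing.isAlgebraic_iff (Polynomial ℂ) RatC (WH0.FunField Γ)).mpr h1
  obtain ⟨p, hp0, hpy⟩ := halg.exists_integral_multiple
  obtain ⟨b, hb⟩ := IsIntegralClosure.isIntegral_iff (A := WH0 Γ) (R := Polynomial ℂ)
    (B := WH0.FunField Γ) |>.mp hpy
  have hb' : algebraMap (Polynomial ℂ) (WH0.FunField Γ) p * x =
      algebraMap (WH0 Γ) (WH0.FunField Γ) b := by rw [hb, Algebra.smul_def]
  -- `b` is invariant under `Γ'`
  have hbfix : ∀ g ∈ Γ', slAutWH0 Γ g b = b := by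
    intro g hg
    apply IsFractionRing.injective (WH0 Γ) (WH0.FunField Γ)
    rw [← slAutFF_algebraMap, ← hb', map_mul, slAutFF_algebraMap_poly, hx g hg]
  have hbW : IsWH0 Γ' b.1 :=
    { mdiff := b.2.mdiff
      smul_eq := by
        intro γ hγ z
        have h1 := congrArg (fun f : WH0 Γ => f.1 z) (hbfix γ⁻¹ (Γ'.inv_mem hγ))
        simp only [slAutWH0_apply, inv_inv] at h1
        exact h1
      exists_bdd := b.2.exists_bdd }
  refine ⟨⟨b.1, hbW⟩, p, hp0, ?_⟩
  rw [hb']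
  rfl

end Normal

end Fermat.Agent.S48lib.X1
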