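/-
S48lib / X1 / Field / Omega  (helper3)

**The big field** `Ω₀(M) = ℚ̄(j(Q^M), τ_v : v ≠ 0) ⊆ ℚ̄((Q))` and the action of `SL(2,ℤ)` on it:
`ρ γ (τ_v) = τ_{v γ⁻¹}`, trivial on `Γ(M)`, fixing `ℚ̄` and `j`.
-/
import Fermat.Agent.S48lib.X1.Field.Degree
import Fermat.Agent.S48lib.X1.Field.Transport
import Fermat.Agent.S48lib.X1.Field.AutAn

set_option autoImplicit false
set_option linter.unusedSectionVars false

noncomputable section

namespace Fermat.Agent.S48lib.X1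

open UpperHalfPlane hiding I
open scoped MatrixGroups
open ModularCurve Fermat.Agent.ProgramR Fermat.Agent.ProgramR.QExp Fermat.Agent.ProgramR.BarField
open Fermat.Agent.ProgramR.CuspLocal HeckeJ Wp CongruenceSubgroup

attribute [local instance] FractionRing.liftAlgebra

local notation "Qb" => AlgebraicClosure ℚ

variable (M : ℕ) [NeZero M]

/-! ### the root of unity of `ℚ̄` over `e(1/M)` -/

theorem exists_zq : ∃ ζ : Qbˣ, Units.map ((qbarEmb : Qb →+* ℂ) : Qb →* ℂ) ζ = zC M := by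
  obtain ⟨c, hc, hcop⟩ := exists_zEmb_eq M
  obtain ⟨u, v, huv⟩ := hcop
  refine ⟨zbar M ^ u, ?_⟩
  rw [map_zpow]
  have h1 : Units.map ((qbarEmb : Qb →+* ℂ) : Qb →* ℂ) (zbar M) = zC M ^ c := hc
  rw [h1, ← zpow_mul]
  have h2 : c * u = 1 - (M : ℤ) * v := by linarith
  rw [h2, zpow_sub, zpow_one, zpow_mul, zpow_natCast, zC_pow, one_zpow, inv_one, mul_one]

/-- the primitive `M`-th root of unity of `ℚ̄` with image `e(1/M)` in `ℂ` -/
def zq : Qbˣ := (exists_zq M).choose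

theorem map_zq : Units.map ((qbarEmb : Qb →+* ℂ) : Qb →* ℂ) (zq M) = zC M :=
  (exists_zq M).choose_spec

theorem zq_isPrimitiveRoot : IsPrimitiveRoot (zq M) M := by
  rw [← IsPrimitiveRoot.coe_units_iff]
  have h1 : IsPrimitiveRoot ((zC M : ℂˣ) : ℂ) M :=
    IsPrimitiveRoot.coe_units_iff.mpr zC_isPrimitiveRoot
  have h2 : qbarEmb ((zq M : Qbˣ) : Qb) = ((zC M : ℂˣ) : ℂ) := by
    rw [← map_zq M]
    rfl
  rw [← h2] at h1
  exact IsPrimitiveRoot.of_map_of_injective h1 qbarEmb.injective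

theorem zq_pow : zq M ^ M = 1 := (zq_isPrimitiveRoot M).pow_eq_one

variable {M}

theorem coeffMap_tauK_zq (a b : ℤ) :
    coeffMap (qbarEmb : Qb →+* ℂ) (tauK M (zq M) a b) = tauK M (zC M) a b := by
  rw [tauK, coeffMap_tau, map_kap, map_zq, tauK]
  congr 2
  rw [← map_zq M, ← map_zpow, Units.coe_map]
  rfl

/-! ### the field -/

variable (M)

/-- `j` as a series in `Q`, `q = Q^M` -/
def jQ : LaurentSeries Qb := jqNModC Qb M

/-- the generators of `Ω₀(M)` -/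
def omegaGen : Set (LaurentSeries Qb) :=
  {jQ M} ∪ {x | ∃ a b : ℤ, ¬ ((M : ℤ) ∣ a ∧ (M : ℤ) ∣ b) ∧ x = tauK M (zq M) a b}

/-- **the big field** `Ω₀(M)` -/
abbrev Omega0 : IntermediateField Qb (LaurentSeries Qb) := IntermediateField.adjoin Qb (omegaGen M)

theorem jQ_mem_Omega0 : jQ M ∈ Omega0 M := IntermediateField.subset_adjoin Qb _ (Or.inl rfl)

variable {M}

theorem tauK_mem_Omega0 {a b : ℤ} (hv : ¬ ((M : ℤ) ∣ a ∧ (M : ℤ) ∣ b)) :
    tauK M (zq M) a b ∈ Omega0 M :=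
  IntermediateField.subset_adjoin Qb _ (Or.inr ⟨a, b, hv, rfl⟩)

/-- the vector `(a, b)` -/
def vec (a b : ℤ) : Fin 2 → ℤ := ![a, b]

@[simp] theorem vec_zero (a b : ℤ) : vec a b 0 = a := rfl
@[simp] theorem vec_one (a b : ℤ) : vec a b 1 = b := rfl

theorem nz_vec {a b : ℤ} (hv : ¬ ((M : ℤ) ∣ a ∧ (M : ℤ) ∣ b)) : NZ M (vec a b) := hv

/-- `τ_v` as an element of `WH0 (Γ(M))` -/
def tauG {v : Fin 2 → ℤ} (hv : NZ M v) : WH0 (Gamma M) := ⟨tauAn M v, isWH0_tauAn hv⟩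

variable (M) in
/-- the `Q`-expansion map of `Frac (WH0 (Γ(M)))` -/
def PsiM : WH0.FunField (Gamma M) →+* LaurentSeries ℂ := qExpFFW (Gamma M) M T_pow_mem_Gamma

theorem PsiM_const (c : ℂ) : PsiM M (algebraMap ℂ (WH0.FunField (Gamma M)) c) = HahnSeries.C c :=
  qExpFFW_const' _ _ _ c

theorem PsiM_tauG {v : Fin 2 → ℤ} (hv : NZ M v) :
    PsiM M (algebraMap (WH0 (Gamma M)) (WH0.FunField (Gamma M)) (tauG hv)) = tauK M (zC M) (v 0) (v 1) := by
  rw [PsiM, qExpFFW_algebraMap]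
  exact laurentExp_tauAn' hv

theorem T_one_mem_top : ModularGroup.T ^ ((1 : ℕ) : ℤ) ∈ (⊤ : Subgroup SL(2, ℤ)) := trivial

theorem PsiM_j : PsiM M (algebraMap (WH0 (Gamma M)) (WH0.FunField (Gamma M)) (WH0.j (Gamma M))) = jqNModC ℂ M := by
  rw [PsiM, qExpFFW_algebraMap]
  have h := laurentExp_period_mul (n := M) one_pos isMeroAtInfty_jInv
  rw [mul_one] at h
  show laurentExp (M : ℝ) LevelOne.jInv = _
  rw [h, laurentExp_jInv, jqNModC]

theorem omegaGen_mem_range :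
    ∀ s ∈ omegaGen M, coeffMap (qbarEmb : Qb →+* ℂ) s ∈ (PsiM M).range := by
  rintro s (rfl | ⟨a, b, hv, rfl⟩)
  · rw [jQ, coeffMap_jqNModC, ← PsiM_j]
    exact ⟨_, rfl⟩
  · rw [coeffMap_tauK_zq]
    exact ⟨_, PsiM_tauG (nz_vec hv)⟩

/-- the comparison map `Ω₀(M) → Frac (WH0 (Γ(M)))` -/
def kappa : ↥(Omega0 M) →+* WH0.FunField (Gamma M) :=
  cmpMap (PsiM M) (PsiM_const (M := M)) qbarEmb (omegaGen M) (omegaGen_mem_range (M := M))

theorem PsiM_kappa (x : ↥(Omega0 M)) :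
    PsiM M (kappa x) = coeffMap (qbarEmb : Qb →+* ℂ) (x : LaurentSeries Qb) :=
  cmpMap_spec _ _ _ _ _ x

/-! ### the action -/

instance : (Gamma M).Normal := Gamma_normal M

theorem slAutFF_tauG (γ : SL(2, ℤ)) {v : Fin 2 → ℤ} (hv : NZ M v) :
    slAutFF (Gamma M) γ (algebraMap (WH0 (Gamma M)) (WH0.FunField (Gamma M)) (tauG hv)) =
      algebraMap (WH0 (Gamma M)) (WH0.FunField (Gamma M)) (tauG ((nz_rowMul γ⁻¹).2 hv)) := by
  rw [slAutFF_algebraMap]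
  refine congrArg _ ?_
  apply Subtype.ext
  funext z
  show tauAn M v (γ⁻¹ • z) = tauAn M (rowMul v γ⁻¹) z
  rw [tauAn_smul]

theorem slAutFF_j (γ : SL(2, ℤ)) :
    slAutFF (Gamma M) γ (algebraMap (WH0 (Gamma M)) (WH0.FunField (Gamma M)) (WH0.j (Gamma M))) = algebraMap (WH0 (Gamma M)) (WH0.FunField (Gamma M)) (WH0.j (Gamma M)) := by
  rw [slAutFF_algebraMap, slAutWH0_j]

theorem mapsGen_slAutFF (γ : SL(2, ℤ)) :
    MapsGen (PsiM M) (qbarEmb : Qb →+* ℂ) (omegaGen M)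
      ((slAutFF (Gamma M) γ : WH0.FunField (Gamma M) →ₐ[ℂ] WH0.FunField (Gamma M)) :
        WH0.FunField (Gamma M) →+* WH0.FunField (Gamma M)) := by
  rintro s (rfl | ⟨a, b, hv, rfl⟩) x hx
  · refine ⟨jQ M, jQ_mem_Omega0 M, ?_⟩
    have hx' : x = algebraMap (WH0 (Gamma M)) (WH0.FunField (Gamma M)) (WH0.j (Gamma M)) := by
      apply (PsiM M).injective
      rw [hx, PsiM_j, jQ, coeffMap_jqNModC]
    rw [hx', RingHom.coe_coe, slAutFF_j, PsiM_j, jQ, coeffMap_jqNModC]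
  · have hx' : x = algebraMap (WH0 (Gamma M)) (WH0.FunField (Gamma M)) (tauG (nz_vec hv)) := by
      apply (PsiM M).injective
      rw [hx, PsiM_tauG, coeffMap_tauK_zq]
      rfl
    have hv' : NZ M (rowMul (vec a b) γ⁻¹) := (nz_rowMul γ⁻¹).2 (nz_vec hv)
    refine ⟨tauK M (zq M) (rowMul (vec a b) γ⁻¹ 0) (rowMul (vec a b) γ⁻¹ 1),
      tauK_mem_Omega0 hv', ?_⟩
    rw [hx', RingHom.coe_coe, slAutFF_tauG, PsiM_tauG, coeffMap_tauK_zq]

/-- **the action of `γ ∈ SL(2,ℤ)` on `Ω₀(M)`**, as an algebra endomorphism -/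
def rho0 (γ : SL(2, ℤ)) : ↥(Omega0 M) →ₐ[Qb] ↥(Omega0 M) :=
  transport (Ψ := PsiM M) (e := qbarEmb) (S := omegaGen M) (PsiM_const (M := M))
    (omegaGen_mem_range (M := M)) (slAutFF (Gamma M) γ) (mapsGen_slAutFF γ)

theorem kappa_rho0 (γ : SL(2, ℤ)) (x : ↥(Omega0 M)) :
    kappa (rho0 γ x) = slAutFF (Gamma M) γ (kappa x) :=
  cmpMap_transport _ _ _ _ x

theorem kappa_injective : Function.Injective (kappa (M := M)) := (kappa (M := M)).injective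

theorem rho0_one (x : ↥(Omega0 M)) : rho0 (1 : SL(2, ℤ)) x = x := by
  apply kappa_injective
  rw [kappa_rho0, slAutFF_one]

theorem rho0_mul (γ γ' : SL(2, ℤ)) (x : ↥(Omega0 M)) :
    rho0 (γ * γ') x = rho0 γ (rho0 γ' x) := by
  apply kappa_injective
  rw [kappa_rho0, kappa_rho0, kappa_rho0, slAutFF_mul]

theorem rho0_of_mem {γ : SL(2, ℤ)} (hγ : γ ∈ Gamma M) (x : ↥(Omega0 M)) : rho0 γ x = x := by
  apply kappa_injective
  rw [kappa_rho0, slAutFF_of_mem _ hγ]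

/-- **the representation** `ρ : SL(2,ℤ) → Aut(Ω₀(M)/ℚ̄)` -/
def rho : SL(2, ℤ) →* (↥(Omega0 M) ≃ₐ[Qb] ↥(Omega0 M)) where
  toFun γ := AlgEquiv.ofAlgHom (rho0 γ) (rho0 γ⁻¹)
    (AlgHom.ext fun x => by
      rw [AlgHom.comp_apply, ← rho0_mul, mul_inv_cancel, rho0_one]; rfl)
    (AlgHom.ext fun x => by
      rw [AlgHom.comp_apply, ← rho0_mul, inv_mul_cancel, rho0_one]; rfl)
  map_one' := AlgEquiv.ext fun x => rho0_one x
  map_mul' γ γ' := AlgEquiv.ext fun x => rho0_mul γ γ' x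

theorem rho_apply (γ : SL(2, ℤ)) (x : ↥(Omega0 M)) : rho γ x = rho0 γ x := rfl

theorem kappa_rho (γ : SL(2, ℤ)) (x : ↥(Omega0 M)) :
    kappa (rho γ x) = slAutFF (Gamma M) γ (kappa x) := kappa_rho0 γ x

theorem rho_of_mem {γ : SL(2, ℤ)} (hγ : γ ∈ Gamma M) : rho (M := M) γ = 1 :=
  AlgEquiv.ext fun x => rho0_of_mem hγ x

end Fermat.Agent.S48lib.X1
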