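/-
S48lib / X1 / Field / FixedH  (helper7)

**Fixed elements of `Ω₀(M)` under a subgroup `Γ' ⊇ Γ(M)`.**  If `F₀` is an analytic `q`-model of
`Γ'` which generates (`HeckeJ.Generates`), every element of `Ω₀(M)` fixed by `ρ γ`, `γ ∈ Γ'`, is the
`q ↦ Q^M` expansion of an element of `ℚ̄ · F₀`.
Instance `(H₁)`: `Γ' = ±Γ₁(M)`, `F₀ = F₁(M)`.
-/
import Fermat.Agent.S48lib.X1.Field.Omega
import Fermat.Agent.S48lib.X1.Field.DescentGen
import Fermat.Agent.S48lib.X1.Field.Generates
import Fermat.Prelude.Thm_ModularCurve_coeffMap_qExpand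

set_option autoImplicit false
set_option linter.unusedSectionVars false
set_option linter.style.haveILetI false

noncomputable section

namespace Fermat.Agent.S48lib.X1

open UpperHalfPlane hiding I
open scoped MatrixGroups
open Polynomial ModularCurve Fermat.Agent.ProgramR Fermat.Agent.ProgramR.QExp
open Fermat.Agent.ProgramR.BarField Fermat.Agent.ProgramR.CuspLocal HeckeJ Wp CongruenceSubgroup

attribute [local instance] FractionRing.liftAlgebra

local notation "Qb" => AlgebraicClosure ℚ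

variable {M : ℕ} [NeZero M]

/-! ### the expanded field -/

/-- the image of `L · F₀` under `q ↦ Q^M` -/
def expandField (M : ℕ) [NeZero M] (F₀ : IntermediateField ℚ (LaurentSeries ℚ)) :
    IntermediateField Qb (LaurentSeries Qb) :=
  (laurentBaseChange Qb F₀).map (qExpandAlgHomC Qb M)

theorem mem_expandField {F₀ : IntermediateField ℚ (LaurentSeries ℚ)} {x : LaurentSeries Qb} :
    x ∈ expandField M F₀ ↔ ∃ y ∈ laurentBaseChange Qb F₀, qExpand Qb M y = x := by
  rw [expandField, IntermediateField.mem_map]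
  rfl

/-! ### width `M` expansions of functions of width one -/

section Width

variable {Γ' : Subgroup SL(2, ℤ)} (hT : ModularGroup.T ^ ((1 : ℕ) : ℤ) ∈ Γ')

include hT in
theorem laurentExp_width_eq (a : WH0 Γ') :
    laurentExp (M : ℝ) (a : ℍ → ℂ) = qExpand ℂ M (qExpW Γ' 1 hT a) := by
  obtain ⟨m, hm⟩ := mem_merRing_of_mem_WH0_width Γ' 1 hT a.2
  have h1 := laurentExp_period_mul (width_pos_real 1) (n := M) hm
  rw [qExpW_apply, ← h1]
  congr 1
  push_cast
  ring

/-- the ring homomorphism `k ↦ (expansion of k at width 1)(Q^M)` -/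
def expandFF (M : ℕ) [NeZero M] : WH0.FunField Γ' →+* LaurentSeries ℂ :=
  (qExpand ℂ M).comp (qExpFFW Γ' 1 hT)

theorem expandFF_algebraMap (a : WH0 Γ') :
    expandFF hT M (algebraMap (WH0 Γ') (WH0.FunField Γ') a) = laurentExp (M : ℝ) (a : ℍ → ℂ) := by
  rw [expandFF, RingHom.comp_apply, qExpFFW_algebraMap]
  exact (laurentExp_width_eq hT a).symm

theorem expandFF_const (c : ℂ) :
    expandFF hT M (algebraMap ℂ (WH0.FunField Γ') c) = HahnSeries.C c := by
  rw [expandFF, RingHom.comp_apply, qExpFFW_const', qExpand_C]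

variable {hT}
variable {F₀ : IntermediateField ℚ (LaurentSeries ℚ)}

theorem expandFF_toFunField (hM : IsAnModel Γ' hT F₀) (y : ↥(laurentBaseChange Qb F₀)) :
    expandFF hT M (hM.toFunField (qbarEmb : Qb →+* ℂ) y) =
      coeffMap (qbarEmb : Qb →+* ℂ) (qExpand Qb M (y : LaurentSeries Qb)) := by
  rw [expandFF, RingHom.comp_apply, hM.qExpFFW_toFunField, coeffMap_qExpand]

/-- the target field of the descent -/
def bigAdjoin (M : ℕ) [NeZero M] (F₀ : IntermediateField ℚ (LaurentSeries ℚ)) :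
    IntermediateField ℂ (LaurentSeries ℂ) :=
  IntermediateField.adjoin ℂ
    (coeffMap (qbarEmb : Qb →+* ℂ) '' (expandField M F₀ : Set (LaurentSeries Qb)))

theorem expandFF_mem_of_mem_algΦG (hM : IsAnModel Γ' hT F₀) {w : WH0.FunField Γ'}
    (hw : w ∈ algΦG hM (qbarEmb : Qb →+* ℂ)) : expandFF hT M w ∈ bigAdjoin M F₀ := by
  induction hw using Algebra.adjoin_induction with
  | mem x hx =>
    obtain ⟨y, rfl⟩ := hx
    rw [expandFF_toFunField]
    refine IntermediateField.subset_adjoin ℂ _ ⟨_, ?_, rfl⟩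
    exact mem_expandField.mpr ⟨y, y.2, rfl⟩
  | algebraMap c =>
    rw [expandFF_const]
    have : (HahnSeries.C c : LaurentSeries ℂ) = algebraMap ℂ (LaurentSeries ℂ) c := by
      rw [algebraMap_laurentSeries_eq_single]
      rfl
    rw [this]
    exact (bigAdjoin M F₀).algebraMap_mem c
  | add x y _ _ hx hy =>
    rw [map_add]
    exact (bigAdjoin M F₀).add_mem hx hy
  | mul x y _ _ hx hy =>
    rw [map_mul]
    exact (bigAdjoin M F₀).mul_mem hx hy

/-- all width-`M` expansions of functions for `Γ'` lie in the big field, if `F₀` generates -/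
theorem expandFF_mem (hM : IsAnModel Γ' hT F₀) (hj : jq ∈ F₀)
    (hgen : Generates hM (qbarEmb : Qb →+* ℂ)) (c : WH0.FunField Γ') :
    expandFF hT M c ∈ bigAdjoin M F₀ := by
  obtain ⟨q, hq, hqc⟩ := hgen c
  have h1 := expandFF_mem_of_mem_algΦG (M := M) hM hqc
  have h2 := expandFF_mem_of_mem_algΦG (M := M) hM (jPoly_mem_algΦG hM qbarEmb hj q)
  have hne : expandFF hT M (jPoly Γ' q) ≠ 0 :=
    (map_ne_zero (expandFF hT M)).mpr (jPoly_ne_zero hq)
  have h3 : expandFF hT M c = expandFF hT M (jPoly Γ' q * c) / expandFF hT M (jPoly Γ' q) := by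
    rw [map_mul, mul_div_cancel_left₀ _ hne]
  rw [h3]
  exact (bigAdjoin M F₀).div_mem h1 h2

end Width

/-! ### the fixed elements -/

section Fixed

variable {Γ' : Subgroup SL(2, ℤ)} {hT : ModularGroup.T ^ ((1 : ℕ) : ℤ) ∈ Γ'}
  {F₀ : IntermediateField ℚ (LaurentSeries ℚ)}

theorem PsiM_algebraMap_inclWH0 (hle : Gamma M ≤ Γ') (a : WH0 Γ') :
    PsiM M (algebraMap (WH0 (Gamma M)) (WH0.FunField (Gamma M)) (inclWH0 hle a)) =
      expandFF hT M (algebraMap (WH0 Γ') (WH0.FunField Γ') a) := by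
  rw [PsiM, qExpFFW_algebraMap, expandFF_algebraMap]
  rfl

theorem algebraMap_poly_eq_inclWH0 (hle : Gamma M ≤ Γ') (p : ℂ[X]) :
    algebraMap ℂ[X] (WH0 (Gamma M)) p = inclWH0 hle (algebraMap ℂ[X] (WH0 Γ') p) := by
  apply Subtype.ext
  funext z
  show (algebraMap ℂ[X] (WH0 (Gamma M)) p).1 z = (algebraMap ℂ[X] (WH0 Γ') p).1 z
  rw [WH0.algebraMap_poly_apply, WH0.algebraMap_poly_apply]

set_option synthInstance.maxHeartbeats 400000 in
/-- **fixed elements come from the model**: if `F₀` is a generating analytic `q`-model of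
`Γ' ⊇ Γ(M)`, every element of `Ω₀(M)` fixed by `Γ'` lies in the expanded field of `F₀`. -/
theorem mem_expandField_of_fixed (hle : Gamma M ≤ Γ')
    (hM : IsAnModel Γ' hT F₀) (hj : jq ∈ F₀) (hgen : Generates hM (qbarEmb : Qb →+* ℂ))
    (x : ↥(Omega0 M)) (hx : ∀ γ ∈ Γ', rho γ x = x) :
    (x : LaurentSeries Qb) ∈ expandField M F₀ := by
  haveI : Finite (SL(2, ℤ) ⧸ Gamma M) := Subgroup.finite_quotient_of_finiteIndex
  letI : Fintype (SL(2, ℤ) ⧸ Gamma M) := Fintype.ofFinite _
  apply mem_of_coeffMap_mem_adjoin (qbarEmb : Qb →+* ℂ)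
  show coeffMap (qbarEmb : Qb →+* ℂ) (x : LaurentSeries Qb) ∈ bigAdjoin M F₀
  rw [← PsiM_kappa]
  have hfix : ∀ g ∈ Γ', slAutFF (Gamma M) g (kappa x) = kappa x := by
    intro g hg
    rw [← kappa_rho, hx g hg]
  obtain ⟨a, p, hp, hpa⟩ := exists_of_slAutFF_fixed (Gamma M) hle (kappa x) hfix
  have hpne : PsiM M (algebraMap ℂ[X] (WH0.FunField (Gamma M)) p) ≠ 0 := by
    refine (map_ne_zero (PsiM M)).mpr ?_
    rw [IsScalarTower.algebraMap_apply ℂ[X] (WH0 (Gamma M)) (WH0.FunField (Gamma M)), Ne,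
      IsFractionRing.to_map_eq_zero_iff]
    intro h0
    exact hp (WH0.algebraMap_poly_injective (Gamma M) (h0.trans (map_zero _).symm))
  have h1 : PsiM M (kappa x) =
      PsiM M (algebraMap (WH0 (Gamma M)) (WH0.FunField (Gamma M)) (inclWH0 hle a)) /
        PsiM M (algebraMap ℂ[X] (WH0.FunField (Gamma M)) p) := by
    rw [← hpa, map_mul, mul_div_cancel_left₀ _ hpne]
  rw [h1, IsScalarTower.algebraMap_apply ℂ[X] (WH0 (Gamma M)) (WH0.FunField (Gamma M)),
    algebraMap_poly_eq_inclWH0 hle, PsiM_algebraMap_inclWH0 (hT := hT),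
    PsiM_algebraMap_inclWH0 (hT := hT)]
  exact (bigAdjoin M F₀).div_mem (expandFF_mem hM hj hgen _) (expandFF_mem hM hj hgen _)

end Fixed

end Fermat.Agent.S48lib.X1
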