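/-
S48lib / X1 / Field / FixedInst  (helper7)

Instances of `FixedH.mem_expandField_of_fixed`:
* `(H₁)` : elements of `Ω₀(M)` fixed by `±Γ₁(M)` are `q ↦ Q^M` expansions of elements of `FBar₁(M)`;
* `(J_M)`: elements of `Ω₀(M)` fixed by `Γ₀(M)` are `q ↦ Q^M` expansions of elements of `FBar(M)`
  (the function field of `X₀(M)`).
-/
import Fermat.Agent.S48lib.X1.Field.FixedH
import Fermat.Agent.ProgramR.BarField.InftyBar

set_option autoImplicit false
set_option linter.unusedSectionVars false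
set_option linter.style.haveILetI false

noncomputable section

namespace Fermat.Agent.S48lib.X1

open UpperHalfPlane hiding I
open scoped MatrixGroups
open Polynomial ModularCurve Fermat.Agent.ProgramR Fermat.Agent.ProgramR.QExp
open Fermat.Agent.ProgramR.BarField Fermat.Agent.ProgramR.CuspLocal HeckeJ Wp CongruenceSubgroup

attribute [local instance] FractionRing.liftAlgebra

local notation "Qb" => AlgebraicClosure ℚ

variable {M : ℕ} [NeZero M]

/-! ### `(H₁)` -/

/-- **`(H₁)`**: the elements of `Ω₀(M)` fixed by `±Γ₁(M)` come from `FBar₁(M)`. -/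
theorem mem_expandField_of_fixed_pmGamma1 (hM : 1 < M) (x : ↥(Omega0 M))
    (hx : ∀ γ ∈ pmGamma1 M, rho γ x = x) :
    (x : LaurentSeries Qb) ∈ expandField M (F1 M) :=
  mem_expandField_of_fixed (Gamma_le_pmGamma1 M) isAnModel_F1 (jq_mem_F1 M) (generates_F1 hM) x hx

/-! ### `(J_M)` -/

theorem Gamma_le_Gamma0' (N : ℕ) : CongruenceSubgroup.Gamma N ≤ Gamma0 N := by
  intro γ hγ
  rw [Gamma_mem] at hγ
  rw [Gamma0_mem]
  exact hγ.2.2.1

/-- the full level `N` field is an analytic `q`-model of `Γ₀(N)` -/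
theorem isAnModel_full (N : ℕ) [NeZero N] :
    IsAnModel (Gamma0 N) (T_pow_one_mem_Gamma0 N) (modularFunctionFieldFull N) := by
  intro y hy
  rw [qExpFFW_Gamma0]
  exact coeffMap_rat_mem_fieldRange_qExpFF N hy

/-- `j(N·)` separates the cosets of `Γ₀(N)` -/
theorem separates_jNWH0 (N : ℕ) [NeZero N] : Separates (Gamma0 N) (jNWH0 N) := by
  intro g g' h
  exact (slComp_inv_jN_eq_iff N g g').mp h

theorem jq_mem_full (N : ℕ) [NeZero N] : jq ∈ modularFunctionFieldFull N := by
  have h := jqd_mem_full N (one_dvd N)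
  rwa [qExpand_one_apply] at h

/-- **`FBar(N)` generates the analytic function field of `Γ₀(N)`** -/
theorem generates_full (N : ℕ) [NeZero N] :
    Generates (isAnModel_full N) (qbarEmb : Qb →+* ℂ) := by
  haveI : Finite (SL(2, ℤ) ⧸ Gamma0 N) := Subgroup.finite_quotient_of_finiteIndex
  letI : Fintype (SL(2, ℤ) ⧸ Gamma0 N) := Fintype.ofFinite _
  refine generates_of_separates qbarEmb (isAnModel_full N) (jq_mem_full N)
    (jdBar (L := Qb) N N dvd_rfl) (separates_jNWH0 N) ?_
  have h := toFunField_jdBar N (qbarEmb : Qb →+* ℂ) N dvd_rfl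
  rw [toFunField_eq_iff, qExpFF_algebraMap, jdWH0_self_eq] at h
  rw [h, qExpW_apply, Nat.cast_one]

/-- **`(J_M)`**: the elements of `Ω₀(M)` fixed by `Γ₀(M)` come from the function field of
`X₀(M)`. -/
theorem mem_expandField_of_fixed_Gamma0 (x : ↥(Omega0 M))
    (hx : ∀ γ ∈ Gamma0 M, rho γ x = x) :
    (x : LaurentSeries Qb) ∈ expandField M (modularFunctionFieldFull M) :=
  mem_expandField_of_fixed (Gamma_le_Gamma0' M) (isAnModel_full M) (jq_mem_full M)
    (generates_full M) x hx

end Fermat.Agent.S48lib.X1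

namespace Fermat.Agent.S48lib.X1

open scoped MatrixGroups
open ModularCurve CongruenceSubgroup

local notation "Qb" => AlgebraicClosure ℚ

variable {M : ℕ} [NeZero M]

/-- `(fix_Gamma0)` in the shape of `Igusa.GalData.fixed0` -/
theorem exists_FBar_of_fixed_Gamma0 (x : ↥(Omega0 M))
    (hx : ∀ γ ∈ Gamma0 M, rho γ x = x) :
    ∃ y : ↥(modularFunctionFieldBar M),
      qExpand Qb M (y : LaurentSeries Qb) = (x : LaurentSeries Qb) := by
  obtain ⟨y, hy, h⟩ := mem_expandField.mp (mem_expandField_of_fixed_Gamma0 x hx)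
  exact ⟨⟨y, hy⟩, h⟩

/-- `(fix_top)` in the shape of `Igusa.GalData.fixed`: the elements of `Ω₀(M)` fixed by all of
`SL(2,ℤ)` are the functions of level one. -/
theorem exists_FBar_one_of_fixed (x : ↥(Omega0 M)) (hx : ∀ γ : SL(2, ℤ), rho γ x = x) :
    ∃ y : ↥(modularFunctionFieldBar 1),
      qExpand Qb M (y : LaurentSeries Qb) = (x : LaurentSeries Qb) := by
  have hle : CongruenceSubgroup.Gamma M ≤ Gamma0 1 := by
    intro γ _
    rw [Gamma0_mem]
    exact Subsingleton.elim _ _
  obtain ⟨y, hy, h⟩ := mem_expandField.mp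
    (mem_expandField_of_fixed hle (isAnModel_full 1) (jq_mem_full 1) (generates_full 1) x
      (fun γ _ => hx γ))
  exact ⟨⟨y, hy⟩, h⟩

end Fermat.Agent.S48lib.X1
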