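/-
S48lib / X1 / Field / Res  (helper8)

**The residue model of `X₁(M)`**: for a valuation subring `A ⊆ ℚ̄` with residue field `k`,

  `FRes1 A M := k(j̄, τ̄_(0,b) : b ≢ 0 mod M) ⊆ k((q))`   (`= genL k M (zRes A M)`),

where `zRes A M : kˣ` is the reduction of the chosen primitive `M`-th root of unity `zbar M` of
`ℚ̄` (so the generators are the coefficientwise reductions of the generators
`tauqL ℚ̄ M (zbar M) b` of `FBar₁(M)`).

* `zRes`, `isPrimitiveRoot_zRes` (for `p ∤ M`), `FRes1`, `jRes1`, `tauRes1`;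
* `tauqA b : LaurentSeries A` with `toL_tauqA : toL (tauqA b) = tauqL ℚ̄ M (zbar M) b` and
  `toK_tauqA : toK (tauqA b) = tauqL k M (zRes A M) b`  (integrality + reduction of generators);
* `coeffMap_tauqL_zRes` : a ring automorphism `τ` of `k` with `τ ζ̄ = ζ̄^s` maps `τ̄_(0,b)` to
  `τ̄_(0,sb)`;  `coeffMap_mem_FRes1` : `FRes1 A M` is stable under coefficientwise automorphisms.
-/
import Mathlib
import Fermat.Agent.S48lib.X1.Igusa.TauInt
import Fermat.Agent.S48lib.X1.Field.Descent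

set_option autoImplicit false
set_option linter.unusedSectionVars false

noncomputable section

namespace Fermat.Agent.S48lib.X1

open ModularCurve HahnSeries
open Fermat.Agent.S18lib.V (toL toK)

local notation "Qb" => AlgebraicClosure ℚ

/-! ### changing the root of unity inside `genL` -/

section GenL

variable {L : Type*} [Field L]

/-- `L(j, τ_(0,b)(ζ^s))  ⊆ L(j, τ_(0,b)(ζ))` when multiplication by `s` preserves `b ≢ 0`. -/
theorem genL_zpow_le (M : ℕ) (ζ : Lˣ) (s : ℤ)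
    (hs : ∀ b : ℤ, ¬ (M : ℤ) ∣ b → ¬ (M : ℤ) ∣ s * b) :
    genL L M (ζ ^ s) ≤ genL L M ζ := by
  rw [genL, IntermediateField.adjoin_le_iff]
  rintro x (rfl | ⟨b, hb, rfl⟩)
  · exact jqModC_mem_genL L M ζ
  · rw [tauqL_zpow]
    exact tauqL_mem_genL L M ζ (hs b hb)

theorem not_dvd_zmul_of_isCoprime {M : ℕ} {s : ℤ} (hs : IsCoprime s (M : ℤ)) (b : ℤ)
    (hb : ¬ (M : ℤ) ∣ b) : ¬ (M : ℤ) ∣ s * b := fun h =>
  hb (hs.symm.dvd_of_dvd_mul_left h)

/-- a ring endomorphism of `L` maps a primitive `M`-th root of unity to a power of itself with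
exponent prime to `M`. -/
theorem exists_map_eq_zpow {M : ℕ} [NeZero M] {ζ : Lˣ} (hζ : IsPrimitiveRoot ζ M) (φ : L →+* L) :
    ∃ s : ℤ, IsCoprime s (M : ℤ) ∧ Units.map (φ : L →* L) ζ = ζ ^ s := by
  have h1 : IsPrimitiveRoot (Units.map (φ : L →* L) ζ) M :=
    hζ.map_of_injective (Units.map_injective (f := (φ : L →* L)) φ.injective)
  have hζ' : IsPrimitiveRoot ((ζ : Lˣ) : L) M := IsPrimitiveRoot.coe_units_iff.mpr hζ
  have h1' : (φ (ζ : L)) ^ M = 1 := by
    rw [← map_pow, ← Units.val_pow_eq_pow_val, hζ.pow_eq_one, Units.val_one, map_one]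
  obtain ⟨i, -, hi⟩ := hζ'.eq_pow_of_pow_eq_one h1'
  have hi' : Units.map (φ : L →* L) ζ = ζ ^ i := by
    apply Units.ext
    rw [Units.val_pow_eq_pow_val, hi]
    rfl
  refine ⟨(i : ℤ), ?_, by rw [zpow_natCast, hi']⟩
  have h2 : IsPrimitiveRoot (ζ ^ i) M := hi' ▸ h1
  have h3 : i.Coprime M := (hζ.pow_iff_coprime (NeZero.pos M) i).mp h2
  exact Nat.isCoprime_iff_coprime.mpr h3

/-- `genL L M ζ` is stable under the coefficientwise action of ring endomorphisms of `L`. -/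
theorem coeffMap_mem_genL_self {M : ℕ} [NeZero M] {ζ : Lˣ} (hζ : IsPrimitiveRoot ζ M)
    (φ : L →+* L) {x : LaurentSeries L} (hx : x ∈ genL L M ζ) :
    coeffMap φ x ∈ genL L M ζ := by
  obtain ⟨s, hs, hφ⟩ := exists_map_eq_zpow hζ φ
  have h := coeffMap_mem_genL φ M ζ hx
  rw [hφ] at h
  exact genL_zpow_le M ζ s (not_dvd_zmul_of_isCoprime hs) h

end GenL

/-! ### the residue model -/

section Res

variable (A : ValuationSubring Qb) (M : ℕ) [NeZero M]

local notation "kA" => IsLocalRing.ResidueField A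

/-- the reduction of the chosen primitive `M`-th root of unity `zbar M`. -/
def zRes : kAˣ := Igusa.unitK (Igusa.zA A (zbar_spec M))

/-- **the residue model of the function field of `X₁(M)`**: `k(j̄, τ̄_(0,b) : b ≢ 0) ⊆ k((q))`. -/
def FRes1 : IntermediateField kA (LaurentSeries kA) := genL kA M (zRes A M)

theorem jqModC_mem_FRes1 : jqModC kA ∈ FRes1 A M := jqModC_mem_genL kA M _

theorem tauqL_mem_FRes1 {b : ℤ} (hb : ¬ (M : ℤ) ∣ b) : tauqL kA M (zRes A M) b ∈ FRes1 A M :=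
  tauqL_mem_genL kA M _ hb

/-- `j̄ ∈ FRes1 A M`. -/
def jRes1 : ↥(FRes1 A M) := ⟨jqModC kA, jqModC_mem_FRes1 A M⟩

/-- `τ̄_(0,b) ∈ FRes1 A M` (`b ≢ 0`). -/
def tauRes1 (b : ℤ) (hb : ¬ (M : ℤ) ∣ b) : ↥(FRes1 A M) :=
  ⟨tauqL kA M (zRes A M) b, tauqL_mem_FRes1 A M hb⟩

@[simp] theorem coe_jRes1 : ((jRes1 A M : ↥(FRes1 A M)) : LaurentSeries kA) = jqModC kA := rfl

@[simp] theorem coe_tauRes1 (b : ℤ) (hb : ¬ (M : ℤ) ∣ b) :
    ((tauRes1 A M b hb : ↥(FRes1 A M)) : LaurentSeries kA) = tauqL kA M (zRes A M) b := rfl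

variable {A M} {p : ℕ} [Fact p.Prime]

theorem isPrimitiveRoot_zRes (hA : A.LiesOverPrime p) (hpM : ¬ p ∣ M) :
    IsPrimitiveRoot (zRes A M) M :=
  Igusa.isPrimitiveRoot_unitK hA hpM (zbar_spec M)

/-- the generator `τ_(0,b)(q)` as an `A`-integral Laurent series. -/
def tauqA (hA : A.LiesOverPrime p) (hpM : ¬ p ∣ M) (b : ℤ) : LaurentSeries A :=
  tauq M (Igusa.zA A (zbar_spec M)) (Igusa.kapA hA hpM (zbar_spec M) b) b

/-- **integrality** of the generators of `FBar₁(M)`. -/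
theorem toL_tauqA (hA : A.LiesOverPrime p) (hpM : ¬ p ∣ M) (b : ℤ) :
    toL A (tauqA hA hpM b) = tauqL Qb M (zbar M) b := by
  rw [tauqA, toL, coeffMap_tauq, tauqL]
  rfl

/-- **reduction** of the generators: `τ_(0,b)` reduces to `τ̄_(0,b)`. -/
theorem toK_tauqA (hA : A.LiesOverPrime p) (hpM : ¬ p ∣ M) (b : ℤ) :
    toK A (tauqA hA hpM b) = tauqL kA M (zRes A M) b := by
  rw [tauqA, toK, coeffMap_tauq, tauqL, Igusa.residue_kapA]
  rfl

/-- the coefficientwise action of an endomorphism of `k` on the generators. -/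
theorem coeffMap_tauqL_zRes (φ : kA →+* kA) {s : ℤ}
    (hs : Units.map (φ : kA →* kA) (zRes A M) = zRes A M ^ s) (b : ℤ) :
    coeffMap φ (tauqL kA M (zRes A M) b) = tauqL kA M (zRes A M) (s * b) := by
  rw [coeffMap_tauqL, hs, tauqL_zpow]

/-- **`FRes1 A M` is stable under coefficientwise automorphisms of `k`** (`p ∤ M`). -/
theorem coeffMap_mem_FRes1 (hA : A.LiesOverPrime p) (hpM : ¬ p ∣ M) (φ : kA →+* kA)
    {x : LaurentSeries kA} (hx : x ∈ FRes1 A M) : coeffMap φ x ∈ FRes1 A M :=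
  coeffMap_mem_genL_self (isPrimitiveRoot_zRes hA hpM) φ hx

end Res

end Fermat.Agent.S48lib.X1
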