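/-
S48lib / X1 / Field / Galois  (helper3)

The Galois structure of `Ω₀(M) = ℚ̄(j(Q^M), τ_v)` over `ℚ̄(j(Q^M))`:
* `rho γ τ_v = τ_{v γ⁻¹}`, `rho γ j = j`, `rho T⁻¹ = twist ζ`;
* (fix_top) the invariants of `SL(2,ℤ)` are `ℚ̄(j(Q^M))`;
* (J_M) `j(Q^{M²}) ∈ Ω₀(M)`;
* (fix_Gamma0) the invariants of `Γ₀(M)` are `ℚ̄(j(Q^M), j(Q^{M²}))`.
-/
import Fermat.Agent.S48lib.X1.Field.Omega
import Fermat.Agent.S48lib.X1.Field.DescentGen
import Fermat.Agent.S48lib.X1.Field.PmGamma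
import Fermat.Agent.S28lib.Twist
import Fermat.Agent.ProgramR.Descent.AutFF

set_option autoImplicit false
set_option linter.unusedSectionVars false

noncomputable section

namespace Fermat.Agent.S48lib.X1

open UpperHalfPlane hiding I
open scoped MatrixGroups
open ModularCurve Fermat.Agent.ProgramR Fermat.Agent.ProgramR.QExp Fermat.Agent.ProgramR.BarField
open Fermat.Agent.ProgramR.CuspLocal HeckeJ Wp CongruenceSubgroup
open Fermat.Agent.S28lib (twist)

attribute [local instance] FractionRing.liftAlgebra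

local notation "Qb" => AlgebraicClosure ℚ

variable {M : ℕ} [NeZero M]

/-! ### the generators as elements of `Ω₀(M)` -/

/-- `τ_(a,b)` as an element of `Ω₀(M)` -/
def tauO {a b : ℤ} (hv : ¬ ((M : ℤ) ∣ a ∧ (M : ℤ) ∣ b)) : ↥(Omega0 M) :=
  ⟨tauK M (zq M) a b, tauK_mem_Omega0 hv⟩

variable (M) in
/-- `j(Q^M)` as an element of `Ω₀(M)` -/
def jO : ↥(Omega0 M) := ⟨jQ M, jQ_mem_Omega0 M⟩

@[simp] theorem coe_tauO {a b : ℤ} (hv : ¬ ((M : ℤ) ∣ a ∧ (M : ℤ) ∣ b)) :
    ((tauO hv : ↥(Omega0 M)) : LaurentSeries Qb) = tauK M (zq M) a b := rfl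

@[simp] theorem coe_jO : ((jO M : ↥(Omega0 M)) : LaurentSeries Qb) = jqNModC Qb M := rfl

theorem nz_rowMul_inv (γ : SL(2, ℤ)) {a b : ℤ} (hv : ¬ ((M : ℤ) ∣ a ∧ (M : ℤ) ∣ b)) :
    ¬ ((M : ℤ) ∣ rowMul (vec a b) γ⁻¹ 0 ∧ (M : ℤ) ∣ rowMul (vec a b) γ⁻¹ 1) :=
  (nz_rowMul γ⁻¹).2 (nz_vec hv)

theorem kappa_tauO {a b : ℤ} (hv : ¬ ((M : ℤ) ∣ a ∧ (M : ℤ) ∣ b)) :
    kappa (tauO hv) =
      algebraMap (WH0 (Gamma M)) (WH0.FunField (Gamma M)) (tauG (nz_vec hv)) := by
  apply (PsiM M).injective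
  rw [PsiM_kappa, coe_tauO, coeffMap_tauK_zq, PsiM_tauG]
  rfl

theorem kappa_jO :
    kappa (jO M) = algebraMap (WH0 (Gamma M)) (WH0.FunField (Gamma M)) (WH0.j (Gamma M)) := by
  apply (PsiM M).injective
  rw [PsiM_kappa, coe_jO, coeffMap_jqNModC, PsiM_j]

/-- **`ρ(γ) τ_v = τ_{v γ⁻¹}`** -/
theorem rho_tauO (γ : SL(2, ℤ)) {a b : ℤ} (hv : ¬ ((M : ℤ) ∣ a ∧ (M : ℤ) ∣ b)) :
    rho γ (tauO hv) = tauO (nz_rowMul_inv γ hv) := by
  apply kappa_injective
  rw [kappa_rho, kappa_tauO, slAutFF_tauG, kappa_tauO]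
  rfl

/-- **`ρ(γ) j = j`** -/
theorem rho_jO (γ : SL(2, ℤ)) : rho γ (jO M) = jO M := by
  apply kappa_injective
  rw [kappa_rho, kappa_jO, slAutFF_j]

/-! ### `T` acts as a twist -/

theorem twistFactor_one_eq : CuspLocal.twistFactor (M : ℝ) 1 = ((zC M : ℂˣ) : ℂ) := by
  rw [CuspLocal.twistFactor, zC, Units.val_mk0, Wp.ee]
  congr 1
  push_cast
  ring

theorem PsiM_slAutFF_T_inv (k : WH0.FunField (Gamma M)) :
    PsiM M (slAutFF (Gamma M) ModularGroup.T⁻¹ k) = twist (zC M) (PsiM M k) := by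
  have h : (PsiM M).comp ((slAutFF (Gamma M) ModularGroup.T⁻¹ :
      WH0.FunField (Gamma M) →ₐ[ℂ] WH0.FunField (Gamma M)) :
        WH0.FunField (Gamma M) →+* WH0.FunField (Gamma M)) = (twist (zC M)).comp (PsiM M) := by
    apply Fermat.Agent.S29lib.H.funField_ringHom_ext
    intro a
    rw [RingHom.comp_apply, RingHom.comp_apply, RingHom.coe_coe, slAutFF_algebraMap, PsiM,
      qExpFFW_algebraMap, qExpFFW_algebraMap]
    ext n
    have h1 := qExpW_coeff_of_vadd (Gamma M) M T_pow_mem_Gamma a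
      (slAutWH0 (Gamma M) ModularGroup.T⁻¹ a) 1
      (fun τ => by rw [slAutWH0_apply, inv_inv, UpperHalfPlane.modular_T_smul]) n
    rw [qExpW_apply, qExpW_apply] at h1
    rw [h1, Fermat.Agent.S28lib.twist_coeff, twistFactor_one_eq, Units.val_zpow_eq_zpow_val]
  exact congrArg (fun φ : WH0.FunField (Gamma M) →+* LaurentSeries ℂ => φ k) h

theorem coeffMap_twist_zq (y : LaurentSeries Qb) :
    coeffMap (qbarEmb : Qb →+* ℂ) (twist (zq M) y) =
      twist (zC M) (coeffMap (qbarEmb : Qb →+* ℂ) y) := by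
  rw [Fermat.Agent.S28lib.coeffMap_twist, map_zq]

/-- **`ρ(T⁻¹)` is the twist `Q ↦ ζ Q`** -/
theorem coe_rho_T_inv (x : ↥(Omega0 M)) :
    ((rho (ModularGroup.T⁻¹) x : ↥(Omega0 M)) : LaurentSeries Qb) =
      twist (zq M) (x : LaurentSeries Qb) := by
  apply (coeffMap (qbarEmb : Qb →+* ℂ)).injective
  rw [← PsiM_kappa, kappa_rho, PsiM_slAutFF_T_inv, PsiM_kappa, coeffMap_twist_zq]

/-- **`ρ(T)` is the twist `Q ↦ ζ⁻¹ Q`** -/
theorem coe_rho_T (x : ↥(Omega0 M)) :
    ((rho ModularGroup.T x : ↥(Omega0 M)) : LaurentSeries Qb) =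
      twist (zq M)⁻¹ (x : LaurentSeries Qb) := by
  have h := coe_rho_T_inv (rho ModularGroup.T x)
  rw [← AlgEquiv.mul_apply, ← map_mul, inv_mul_cancel, map_one, AlgEquiv.one_apply] at h
  rw [h]
  ext n
  rw [Fermat.Agent.S28lib.twist_coeff, Fermat.Agent.S28lib.twist_coeff, ← mul_assoc,
    ← Units.val_mul, ← mul_zpow, inv_mul_cancel, one_zpow, Units.val_one, one_mul]

/-! ### the invariants of `SL(2,ℤ)` -/

instance fintypeQuotGamma : Fintype (SL(2, ℤ) ⧸ Gamma M) :=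
  Subgroup.fintypeQuotientOfFiniteIndex

set_option synthInstance.maxHeartbeats 400000 in
/-- the `Q`-expansion of a polynomial in `j` -/
theorem PsiM_algebraMap_poly (p : Polynomial ℂ) :
    PsiM M (algebraMap (Polynomial ℂ) (WH0.FunField (Gamma M)) p) =
      Polynomial.aeval (jqNModC ℂ M) p := by
  rw [IsScalarTower.algebraMap_apply (Polynomial ℂ) (WH0 (Gamma M)) (WH0.FunField (Gamma M)),
    WH0.algebraMap_poly]
  induction p using Polynomial.induction_on' with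
  | add p q hp hq => rw [map_add, map_add, map_add, map_add, hp, hq]
  | monomial n a =>
    rw [← Polynomial.C_mul_X_pow_eq_monomial]
    simp only [map_mul, map_pow, Polynomial.aeval_X, Polynomial.aeval_C, PsiM_j]
    congr 1
    rw [← IsScalarTower.algebraMap_apply, PsiM_const, algebraMap_laurentSeries_eq_single]
    rfl

theorem algebraMap_poly_injective_FF :
    Function.Injective (algebraMap (Polynomial ℂ) (WH0.FunField (Gamma M))) := by
  rw [IsScalarTower.algebraMap_eq (Polynomial ℂ) (WH0 (Gamma M)) (WH0.FunField (Gamma M))]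
  exact (IsFractionRing.injective (WH0 (Gamma M)) (WH0.FunField (Gamma M))).comp
    (WH0.algebraMap_poly_injective (Gamma M))

theorem aeval_jqNModC_ne_zero {p : Polynomial ℂ} (hp : p ≠ 0) :
    Polynomial.aeval (jqNModC ℂ M) p ≠ 0 := by
  rw [← PsiM_algebraMap_poly]
  intro h
  have h0 : PsiM M (algebraMap (Polynomial ℂ) (WH0.FunField (Gamma M)) p) =
      PsiM M (algebraMap (Polynomial ℂ) (WH0.FunField (Gamma M)) 0) := by
    rw [h, map_zero, map_zero]
  exact hp (algebraMap_poly_injective_FF ((PsiM M).injective h0))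

theorem aeval_jqNModC_mem (S : Set (LaurentSeries ℂ)) (hS : jqNModC ℂ M ∈ S) (p : Polynomial ℂ) :
    Polynomial.aeval (jqNModC ℂ M) p ∈ IntermediateField.adjoin ℂ S := by
  rw [Polynomial.aeval_eq_sum_range]
  refine sum_mem fun i _ => ?_
  rw [Algebra.smul_def]
  exact mul_mem (IntermediateField.algebraMap_mem _ _)
    (pow_mem (IntermediateField.subset_adjoin ℂ S hS) _)

/-- **(fix_top)** the invariants of `SL(2,ℤ)` in `Ω₀(M)` are `ℚ̄(j(Q^M))` -/
theorem mem_adjoin_jQ_of_fixed (x : ↥(Omega0 M)) (hx : ∀ γ : SL(2, ℤ), rho γ x = x) :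
    (x : LaurentSeries Qb) ∈ IntermediateField.adjoin Qb {jqNModC Qb M} := by
  have hfix : ∀ g ∈ (⊤ : Subgroup SL(2, ℤ)), slAutFF (Gamma M) g (kappa x) = kappa x := by
    intro g _
    rw [← kappa_rho, hx]
  obtain ⟨a, p, hp0, hpa⟩ := exists_of_slAutFF_fixed (Γ := Gamma M) le_top (kappa x) hfix
  obtain ⟨P, hP⟩ := LevelOne.isWH0_top_iff.1 a.2
  have ha : inclWH0 (le_top : Gamma M ≤ ⊤) a = algebraMap (Polynomial ℂ) (WH0 (Gamma M)) P := by
    apply Subtype.ext
    funext z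
    rw [WH0.algebraMap_poly_apply, ← hP z]
    rfl
  rw [ha, ← IsScalarTower.algebraMap_apply] at hpa
  have h1 := congrArg (PsiM M) hpa
  rw [map_mul, PsiM_kappa, PsiM_algebraMap_poly, PsiM_algebraMap_poly] at h1
  apply mem_of_coeffMap_mem_adjoin (qbarEmb : Qb →+* ℂ)
  have hJ : jqNModC ℂ M ∈ coeffMap (qbarEmb : Qb →+* ℂ) ''
      ((IntermediateField.adjoin Qb {jqNModC Qb M} : IntermediateField Qb (LaurentSeries Qb)) :
        Set (LaurentSeries Qb)) :=
    ⟨jqNModC Qb M, IntermediateField.subset_adjoin Qb _ rfl, coeffMap_jqNModC _ _⟩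
  have h2 : coeffMap (qbarEmb : Qb →+* ℂ) (x : LaurentSeries Qb) =
      Polynomial.aeval (jqNModC ℂ M) P / Polynomial.aeval (jqNModC ℂ M) p := by
    rw [eq_div_iff (aeval_jqNModC_ne_zero hp0), mul_comm]
    exact h1
  rw [h2]
  exact div_mem (aeval_jqNModC_mem _ hJ P) (aeval_jqNModC_mem _ hJ p)

/-! ### generation: (J_M) -/

section GenSub

variable {Γ : Subgroup SL(2, ℤ)} [Fintype (SL(2, ℤ) ⧸ Γ)] {B : Type*} [Field B]

set_option synthInstance.maxHeartbeats 400000 in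
/-- a subfield containing the constants, `j` and a primitive element is everything -/
theorem map_mem_of_adjoin_eq_top {Γ : Subgroup SL(2, ℤ)} {hF : WH0.FunField Γ}
    (htop : IntermediateField.adjoin RatC {hF} = ⊤) (φ : WH0.FunField Γ →+* B)
    (T : Subfield B) (hC : ∀ c : ℂ, φ (algebraMap ℂ (WH0.FunField Γ) c) ∈ T)
    (hj : φ (algebraMap (WH0 Γ) (WH0.FunField Γ) (WH0.j Γ)) ∈ T)
    (hh : φ hF ∈ T) (x : WH0.FunField Γ) : φ x ∈ T := by
  have h1 : ∀ p : Polynomial ℂ, φ (algebraMap (Polynomial ℂ) (WH0.FunField Γ) p) ∈ T := by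
    intro p
    rw [IsScalarTower.algebraMap_apply (Polynomial ℂ) (WH0 Γ) (WH0.FunField Γ),
      WH0.algebraMap_poly, Polynomial.aeval_eq_sum_range, map_sum, map_sum]
    refine sum_mem fun i _ => ?_
    rw [Algebra.smul_def, map_mul, map_mul, map_pow, map_pow, ← IsScalarTower.algebraMap_apply]
    exact mul_mem (hC _) (pow_mem hj _)
  have h2 : ∀ r : RatC, φ (algebraMap RatC (WH0.FunField Γ) r) ∈ T := by
    intro r
    obtain ⟨p, q, -, rfl⟩ := IsFractionRing.div_surjective (A := Polynomial ℂ) r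
    rw [map_div₀, map_div₀, ← IsScalarTower.algebraMap_apply, ← IsScalarTower.algebraMap_apply]
    exact div_mem (h1 p) (h1 q)
  let K : IntermediateField RatC (WH0.FunField Γ) := (T.comap φ).toIntermediateField h2
  have hle : IntermediateField.adjoin RatC {hF} ≤ K := by
    rw [IntermediateField.adjoin_le_iff]
    rintro s rfl
    exact hh
  have hx : x ∈ IntermediateField.adjoin RatC {hF} := by
    rw [htop]
    trivial
  exact hle hx

/-- a subfield containing the constants, `j` and a separating function is everything -/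
theorem map_mem_of_separates {h : WH0 Γ} (hsep : Separates Γ h) (φ : WH0.FunField Γ →+* B)
    (T : Subfield B) (hC : ∀ c : ℂ, φ (algebraMap ℂ (WH0.FunField Γ) c) ∈ T)
    (hj : φ (algebraMap (WH0 Γ) (WH0.FunField Γ) (WH0.j Γ)) ∈ T)
    (hh : φ (algebraMap (WH0 Γ) (WH0.FunField Γ) h) ∈ T) (x : WH0.FunField Γ) : φ x ∈ T :=
  map_mem_of_adjoin_eq_top (adjoin_eq_top_of_separates hsep) φ T hC hj hh x

end GenSub

variable (M) in
/-- the `Q`-expansion map of `Frac (WH0 (±Γ(M)))` -/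
def PsiP : WH0.FunField (pmGamma M) →+* LaurentSeries ℂ :=
  qExpFFW (pmGamma M) M T_pow_mem_pmGamma

theorem PsiP_const (c : ℂ) :
    PsiP M (algebraMap ℂ (WH0.FunField (pmGamma M)) c) = HahnSeries.C c :=
  qExpFFW_const' _ _ _ c

theorem PsiP_tauP {v : Fin 2 → ℤ} (hv : NZ M v) :
    PsiP M (algebraMap (WH0 (pmGamma M)) (WH0.FunField (pmGamma M)) (tauP hv)) =
      tauK M (zC M) (v 0) (v 1) := by
  rw [PsiP, qExpFFW_algebraMap]
  exact laurentExp_tauAn' hv

theorem PsiP_j :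
    PsiP M (algebraMap (WH0 (pmGamma M)) (WH0.FunField (pmGamma M)) (WH0.j (pmGamma M))) =
      jqNModC ℂ M := by
  rw [PsiP, qExpFFW_algebraMap]
  have h := laurentExp_period_mul (n := M) one_pos isMeroAtInfty_jInv
  rw [mul_one] at h
  show laurentExp (M : ℝ) LevelOne.jInv = _
  rw [h, laurentExp_jInv, jqNModC]

theorem pmGamma_le_Gamma0 : pmGamma M ≤ Gamma0 M := by
  rintro γ (hγ | hγ)
  · rw [Gamma_mem] at hγ
    rw [Gamma0_mem]
    exact hγ.2.2.1
  · rw [Gamma_mem] at hγ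
    rw [Gamma0_mem]
    have := hγ.2.2.1
    simp only [Matrix.SpecialLinearGroup.coe_neg, Matrix.neg_apply, Int.cast_neg,
      neg_eq_zero] at this
    exact this

/-- `j(Mτ)` as an element of `WH0 (±Γ(M))` -/
def jMP : WH0 (pmGamma M) := inclWH0 pmGamma_le_Gamma0 (jdWH0 M M dvd_rfl)

theorem PsiP_jMP :
    PsiP M (algebraMap (WH0 (pmGamma M)) (WH0.FunField (pmGamma M)) jMP) =
      jqNModC ℂ (M * M) := by
  rw [PsiP, qExpFFW_algebraMap]
  have h := laurentExp_period_mul (n := M) one_pos (isMeroAtInfty_jScaledFun M)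
  rw [mul_one] at h
  show laurentExp (M : ℝ) (jScaledFun M) = _
  rw [h, laurentExp_jScaledFun, qExpand_qExpand, jqNModC]

set_option synthInstance.maxHeartbeats 400000 in
/-- **generation at level `±Γ(M)`**: every `Q`-expansion of an element of `Frac (WH0 (±Γ(M)))` lies
in the field generated over `ℂ` by (the image of) `Ω₀(M)` -/
theorem PsiP_mem (hM : 1 < M) (y : WH0.FunField (pmGamma M)) :
    PsiP M y ∈ IntermediateField.adjoin ℂ
      (coeffMap (qbarEmb : Qb →+* ℂ) '' ((Omega0 M : IntermediateField Qb (LaurentSeries Qb)) :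
        Set (LaurentSeries Qb))) := by
  obtain ⟨c, hsep⟩ := exists_separates_hSep (M := M) hM
  set T : IntermediateField ℂ (LaurentSeries ℂ) := IntermediateField.adjoin ℂ
    (coeffMap (qbarEmb : Qb →+* ℂ) '' ((Omega0 M : IntermediateField Qb (LaurentSeries Qb)) :
      Set (LaurentSeries Qb))) with hT
  have htau : ∀ {v : Fin 2 → ℤ} (hv : NZ M v),
      PsiP M (algebraMap (WH0 (pmGamma M)) (WH0.FunField (pmGamma M)) (tauP hv)) ∈ T := by
    intro v hv
    rw [PsiP_tauP, ← coeffMap_tauK_zq]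
    exact IntermediateField.subset_adjoin ℂ _ ⟨_, tauK_mem_Omega0 hv, rfl⟩
  have hC : ∀ c : ℂ, PsiP M (algebraMap ℂ (WH0.FunField (pmGamma M)) c) ∈ T := by
    intro c
    rw [PsiP_const]
    have := IntermediateField.algebraMap_mem T c
    rwa [algebraMap_laurentSeries_eq_single] at this
  refine map_mem_of_separates hsep (PsiP M) T.toSubfield hC ?_ ?_ y
  · rw [PsiP_j, ← coeffMap_jqNModC (qbarEmb : Qb →+* ℂ)]
    exact IntermediateField.subset_adjoin ℂ _ ⟨_, jQ_mem_Omega0 M, rfl⟩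
  · rw [hSep, map_add, map_add, Algebra.smul_def, map_mul, map_mul,
      ← IsScalarTower.algebraMap_apply]
    exact add_mem (htau _) (mul_mem (hC c) (htau _))

/-- **(J_M)** `j(Q^{M²}) ∈ Ω₀(M)` -/
theorem jQM_mem_Omega0 (hM : 1 < M) : jqNModC Qb (M * M) ∈ Omega0 M := by
  apply mem_of_coeffMap_mem_adjoin (qbarEmb : Qb →+* ℂ)
  rw [coeffMap_jqNModC, ← PsiP_jMP]
  exact PsiP_mem hM _

/-- `j(dτ)`, `d ∣ M`, as an element of `WH0 (±Γ(M))` -/
def jdP (d : ℕ) [NeZero d] (hd : d ∣ M) : WH0 (pmGamma M) :=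
  inclWH0 pmGamma_le_Gamma0 (jdWH0 M d hd)

theorem PsiP_jdP (d : ℕ) [NeZero d] (hd : d ∣ M) :
    PsiP M (algebraMap (WH0 (pmGamma M)) (WH0.FunField (pmGamma M)) (jdP d hd)) =
      jqNModC ℂ (M * d) := by
  rw [PsiP, qExpFFW_algebraMap]
  have h := laurentExp_period_mul (n := M) one_pos (isMeroAtInfty_jScaledFun d)
  rw [mul_one] at h
  show laurentExp (M : ℝ) (jScaledFun d) = _
  rw [h, laurentExp_jScaledFun, qExpand_qExpand, jqNModC]

/-- **(J_M), all divisors**: `j(Q^{Md}) ∈ Ω₀(M)` for `d ∣ M` -/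
theorem jQd_mem_Omega0 (hM : 1 < M) (d : ℕ) [NeZero d] (hd : d ∣ M) :
    jqNModC Qb (M * d) ∈ Omega0 M := by
  apply mem_of_coeffMap_mem_adjoin (qbarEmb : Qb →+* ℂ)
  rw [coeffMap_jqNModC, ← PsiP_jdP d hd]
  exact PsiP_mem hM _

/-! ### the invariants of `Γ₀(M)` -/

theorem Gamma_le_Gamma0 : Gamma M ≤ Gamma0 M := (Gamma_le_pmGamma M).trans pmGamma_le_Gamma0

variable (M) in
/-- the width-`M` expansion on `Frac (WH0 Γ₀(M))` -/
def PsiZ : WH0.FunField (Gamma0 M) →+* LaurentSeries ℂ := (qExpand ℂ M).comp (qExpFF M)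

theorem PsiM_incl (a : WH0 (Gamma0 M)) :
    PsiM M (algebraMap (WH0 (Gamma M)) (WH0.FunField (Gamma M)) (inclWH0 Gamma_le_Gamma0 a)) =
      PsiZ M (algebraMap (WH0 (Gamma0 M)) (WH0.FunField (Gamma0 M)) a) := by
  rw [PsiM, qExpFFW_algebraMap, PsiZ, RingHom.comp_apply, qExpFF_algebraMap]
  obtain ⟨m, hm⟩ := mem_merRing_of_mem_WH0 M a.2
  have h := laurentExp_period_mul (n := M) one_pos hm
  rw [mul_one] at h
  exact h

set_option synthInstance.maxHeartbeats 400000 in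
theorem PsiZ_mem (y : WH0.FunField (Gamma0 M)) :
    PsiZ M y ∈ IntermediateField.adjoin ℂ {jqNModC ℂ M, jqNModC ℂ (M * M)} := by
  set T : IntermediateField ℂ (LaurentSeries ℂ) :=
    IntermediateField.adjoin ℂ {jqNModC ℂ M, jqNModC ℂ (M * M)} with hT
  refine map_mem_of_adjoin_eq_top (WH0.adjoin_jN_eq_top M) (PsiZ M) T.toSubfield ?_ ?_ ?_ y
  · intro c
    rw [PsiZ, RingHom.comp_apply]
    have h1 : qExpFF M (algebraMap ℂ (WH0.FunField (Gamma0 M)) c) = HahnSeries.C c := by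
      rw [IsScalarTower.algebraMap_apply ℂ (WH0 (Gamma0 M)) (WH0.FunField (Gamma0 M)),
        qExpFF_const]
    rw [h1, qExpand_C]
    have := IntermediateField.algebraMap_mem T c
    rwa [algebraMap_laurentSeries_eq_single] at this
  · have h1 : WH0.j (Gamma0 M) = jdWH0 M 1 (one_dvd M) := by
      apply Subtype.ext
      funext z
      show LevelOne.jInv z = jScaledFun 1 z
      rw [jScaledFun, Function.comp_apply]
      congr 1
      apply UpperHalfPlane.ext
      rw [coe_scaleH]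
      simp
    rw [PsiZ, RingHom.comp_apply, h1, qExpFF_jdWH0, qExpand_one_apply]
    exact IntermediateField.subset_adjoin ℂ _ (Or.inl rfl)
  · rw [PsiZ, RingHom.comp_apply, ← Fermat.Agent.ProgramR.Descent.jdWH0_self, qExpFF_jdWH0,
      qExpand_qExpand]
    exact IntermediateField.subset_adjoin ℂ _ (Or.inr rfl)

/-- **(fix_Gamma0)** the invariants of `Γ₀(M)` in `Ω₀(M)` are `ℚ̄(j(Q^M), j(Q^{M²}))` -/
theorem mem_adjoin_of_fixed_Gamma0 (x : ↥(Omega0 M)) (hx : ∀ γ ∈ Gamma0 M, rho γ x = x) :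
    (x : LaurentSeries Qb) ∈ IntermediateField.adjoin Qb {jqNModC Qb M, jqNModC Qb (M * M)} := by
  have hfix : ∀ g ∈ Gamma0 M, slAutFF (Gamma M) g (kappa x) = kappa x := by
    intro g hg
    rw [← kappa_rho, hx g hg]
  obtain ⟨a, p, hp0, hpa⟩ := exists_of_slAutFF_fixed (Γ := Gamma M) Gamma_le_Gamma0 (kappa x) hfix
  have h1 := congrArg (PsiM M) hpa
  rw [map_mul, PsiM_kappa, PsiM_algebraMap_poly, PsiM_incl] at h1
  apply mem_of_coeffMap_mem_adjoin (qbarEmb : Qb →+* ℂ)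
  set E : IntermediateField Qb (LaurentSeries Qb) :=
    IntermediateField.adjoin Qb {jqNModC Qb M, jqNModC Qb (M * M)} with hE
  have hJ : jqNModC ℂ M ∈ coeffMap (qbarEmb : Qb →+* ℂ) '' (E : Set (LaurentSeries Qb)) :=
    ⟨jqNModC Qb M, IntermediateField.subset_adjoin Qb _ (Or.inl rfl), coeffMap_jqNModC _ _⟩
  have hJM : jqNModC ℂ (M * M) ∈ coeffMap (qbarEmb : Qb →+* ℂ) '' (E : Set (LaurentSeries Qb)) :=
    ⟨jqNModC Qb (M * M), IntermediateField.subset_adjoin Qb _ (Or.inr rfl), coeffMap_jqNModC _ _⟩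
  have h2 : coeffMap (qbarEmb : Qb →+* ℂ) (x : LaurentSeries Qb) =
      PsiZ M (algebraMap (WH0 (Gamma0 M)) (WH0.FunField (Gamma0 M)) a) /
        Polynomial.aeval (jqNModC ℂ M) p := by
    rw [eq_div_iff (aeval_jqNModC_ne_zero hp0), mul_comm]
    exact h1
  rw [h2]
  refine div_mem ?_ (aeval_jqNModC_mem _ hJ p)
  have h3 : IntermediateField.adjoin ℂ {jqNModC ℂ M, jqNModC ℂ (M * M)} ≤
      IntermediateField.adjoin ℂ (coeffMap (qbarEmb : Qb →+* ℂ) '' (E : Set (LaurentSeries Qb))) := by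
    apply IntermediateField.adjoin.mono
    rintro s (rfl | rfl)
    · exact hJ
    · exact hJM
  exact h3 (PsiZ_mem _)

end Fermat.Agent.S48lib.X1
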