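/-
S48lib / X1 / Field / FixedConv  (helper7)

The converse of `(H₁)`: the `q ↦ Q^M` expansions of the elements of `FBar₁(M)` lie in `Ω₀(M)` and are
fixed by `ρ γ`, `γ ∈ ±Γ₁(M)`; together with `FixedInst` the fixed field of `±Γ₁(M)` on `Ω₀(M)` is
exactly the expanded field of `F₁(M)`.  Also the action of `ρ` on the generators.
-/
import Fermat.Agent.S48lib.X1.Field.FixedInst

set_option autoImplicit false
set_option linter.unusedSectionVars false
set_option linter.style.haveILetI false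

noncomputable section

namespace Fermat.Agent.S48lib.X1

open UpperHalfPlane hiding I
open scoped MatrixGroups
open Polynomial ModularCurve Fermat.Agent.ProgramR Fermat.Agent.ProgramR.QExp
open Fermat.Agent.ProgramR.BarField Fermat.Agent.ProgramR.CuspLocal HeckeJ Wp CongruenceSubgroup

attribute [local instance] FractionRing.liftAlgebra

local notation "Qb" => AlgebraicClosure ℚ

variable {M : ℕ} [NeZero M]

/-! ### the action on the generators -/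

theorem kappa_tauK_fx {a b : ℤ} (hv : ¬ ((M : ℤ) ∣ a ∧ (M : ℤ) ∣ b)) :
    kappa (⟨tauK M (zq M) a b, tauK_mem_Omega0 hv⟩ : ↥(Omega0 M)) =
      algebraMap (WH0 (Gamma M)) (WH0.FunField (Gamma M)) (tauG (nz_vec hv)) := by
  apply (PsiM M).injective
  rw [PsiM_kappa, PsiM_tauG, coeffMap_tauK_zq]
  rfl

theorem kappa_jQ_fx :
    kappa (⟨jQ M, jQ_mem_Omega0 M⟩ : ↥(Omega0 M)) =
      algebraMap (WH0 (Gamma M)) (WH0.FunField (Gamma M)) (WH0.j (Gamma M)) := by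
  apply (PsiM M).injective
  rw [PsiM_kappa, PsiM_j]
  show coeffMap (qbarEmb : Qb →+* ℂ) (jQ M) = _
  rw [jQ, coeffMap_jqNModC]

/-- **`ρ γ τ_v = τ_{v γ⁻¹}`** -/
theorem rho_tauK_fx (γ : SL(2, ℤ)) {a b : ℤ} (hv : ¬ ((M : ℤ) ∣ a ∧ (M : ℤ) ∣ b)) :
    ((rho γ (⟨tauK M (zq M) a b, tauK_mem_Omega0 hv⟩ : ↥(Omega0 M)) : ↥(Omega0 M)) :
        LaurentSeries Qb) =
      tauK M (zq M) (rowMul (vec a b) γ⁻¹ 0) (rowMul (vec a b) γ⁻¹ 1) := by
  have hv' : NZ M (rowMul (vec a b) γ⁻¹) := (nz_rowMul γ⁻¹).2 (nz_vec hv)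
  have hv'' : ¬ ((M : ℤ) ∣ rowMul (vec a b) γ⁻¹ 0 ∧ (M : ℤ) ∣ rowMul (vec a b) γ⁻¹ 1) := hv'
  have key : rho γ (⟨tauK M (zq M) a b, tauK_mem_Omega0 hv⟩ : ↥(Omega0 M)) =
      ⟨tauK M (zq M) (rowMul (vec a b) γ⁻¹ 0) (rowMul (vec a b) γ⁻¹ 1),
        tauK_mem_Omega0 hv''⟩ := by
    apply kappa_injective
    rw [kappa_rho, kappa_tauK_fx hv, slAutFF_tauG, kappa_tauK_fx hv'']
    rfl
  rw [key]

/-- **`ρ γ j = j`** -/
theorem rho_jQ_fx (γ : SL(2, ℤ)) :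
    rho γ (⟨jQ M, jQ_mem_Omega0 M⟩ : ↥(Omega0 M)) = ⟨jQ M, jQ_mem_Omega0 M⟩ := by
  apply kappa_injective
  rw [kappa_rho, kappa_jQ_fx, slAutFF_j]

/-! ### the two roots of unity -/

theorem exists_zbar_eq_zq_zpow (M : ℕ) [NeZero M] :
    ∃ c : ℤ, zbar M = zq M ^ c ∧ IsCoprime c (M : ℤ) := by
  have hq := zq_isPrimitiveRoot M
  have hb : IsPrimitiveRoot (zbar M) M := zbar_spec M
  have hq' : IsPrimitiveRoot ((zq M : Qbˣ) : Qb) M := IsPrimitiveRoot.coe_units_iff.mpr hq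
  have hb1 : ((zbar M : Qbˣ) : Qb) ^ M = 1 := by
    rw [← Units.val_pow_eq_pow_val, hb.pow_eq_one]; rfl
  obtain ⟨i, -, hi'⟩ := hq'.eq_pow_of_pow_eq_one hb1
  have hi : zq M ^ i = zbar M := by
    apply Units.ext
    rw [Units.val_pow_eq_pow_val]
    exact hi'
  refine ⟨(i : ℤ), ?_, ?_⟩
  · rw [zpow_natCast, hi]
  · have hcop : i.Coprime M := by
      rw [← hi] at hb
      exact (hq.pow_iff_coprime (NeZero.pos M) i).mp hb
    exact Nat.isCoprime_iff_coprime.mpr hcop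

/-! ### the expanded field of `F₁(M)` inside `Ω₀(M)` -/

theorem qExpand_tauqL (ζ : Qbˣ) (b : ℤ) :
    qExpand Qb M (tauqL Qb M ζ b) = tauK M ζ 0 b := by
  rw [tauqL, qExpand_tauq, tauK]

theorem expandField_F1_eq :
    expandField M (F1 M) =
      IntermediateField.adjoin Qb ((qExpandAlgHomC Qb M) '' genSet Qb M (zbar M)) := by
  have h : laurentBaseChange Qb (F1 M) = genL Qb M (zbar M) := FBar1_eq_genL M
  rw [expandField, h, genL, IntermediateField.adjoin_map]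

/-- the generators of the expanded field of `F₁(M)` are generators of `Ω₀(M)` -/
theorem expand_genSet_subset :
    (qExpandAlgHomC Qb M) '' genSet Qb M (zbar M) ⊆
      {jQ M} ∪ {x | ∃ b : ℤ, ¬ (M : ℤ) ∣ b ∧ x = tauK M (zq M) 0 b} := by
  obtain ⟨c, hc, hcop⟩ := exists_zbar_eq_zq_zpow M
  rintro _ ⟨y, (rfl | ⟨b, hb, rfl⟩), rfl⟩
  · left
    rfl
  · right
    refine ⟨c * b, fun h => hb (hcop.symm.dvd_of_dvd_mul_left h), ?_⟩
    rw [qExpandAlgHomC_apply, hc, tauqL_zpow, qExpand_tauqL]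

theorem expandField_F1_le : expandField M (F1 M) ≤ Omega0 M := by
  rw [expandField_F1_eq, IntermediateField.adjoin_le_iff]
  intro x hx
  rcases expand_genSet_subset hx with rfl | ⟨b, hb, rfl⟩
  · exact jQ_mem_Omega0 M
  · exact tauK_mem_Omega0 (fun h => hb h.2)

/-- the subfield of `ℚ̄((Q))` of the elements of `Ω₀(M)` fixed by `ρ γ` -/
def fixedBy (γ : SL(2, ℤ)) : IntermediateField Qb (LaurentSeries Qb) :=
  (IntermediateField.fixedField (Subgroup.zpowers (rho (M := M) γ))).map (Omega0 M).val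

theorem mem_fixedBy {γ : SL(2, ℤ)} {x : LaurentSeries Qb} :
    x ∈ fixedBy (M := M) γ ↔ ∃ hx : x ∈ Omega0 M, rho γ (⟨x, hx⟩ : ↥(Omega0 M)) = ⟨x, hx⟩ := by
  rw [fixedBy, IntermediateField.mem_map]
  constructor
  · rintro ⟨y, hy, rfl⟩
    refine ⟨y.2, ?_⟩
    rw [IntermediateField.mem_fixedField_iff] at hy
    exact hy _ (Subgroup.mem_zpowers _)
  · rintro ⟨hx, h⟩
    refine ⟨⟨x, hx⟩, ?_, rfl⟩
    rw [IntermediateField.mem_fixedField_iff]
    intro f hf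
    obtain ⟨n, rfl⟩ := Subgroup.mem_zpowers_iff.mp hf
    have h1 : ∀ k : ℕ, (rho (M := M) γ ^ k) (⟨x, hx⟩ : ↥(Omega0 M)) = ⟨x, hx⟩ := by
      intro k
      induction k with
      | zero => rfl
      | succ k ih => rw [pow_succ, AlgEquiv.mul_apply, h, ih]
    have h2 : ∀ k : ℕ, ((rho (M := M) γ)⁻¹ ^ k) (⟨x, hx⟩ : ↥(Omega0 M)) = ⟨x, hx⟩ := by
      intro k
      induction k with
      | zero => rfl
      | succ k ih =>
        rw [pow_succ, AlgEquiv.mul_apply]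
        have h3 : (rho (M := M) γ)⁻¹ (⟨x, hx⟩ : ↥(Omega0 M)) = ⟨x, hx⟩ := by
          conv_lhs => rw [← h]
          exact (rho (M := M) γ).symm_apply_apply _
        rw [h3, ih]
    rcases Int.eq_nat_or_neg n with ⟨k, rfl | rfl⟩
    · rw [zpow_natCast]
      exact h1 k
    · rw [zpow_neg, zpow_natCast, ← inv_pow]
      exact h2 k

/-- **the converse of `(H₁)`**: the expansions of the elements of `FBar₁(M)` are fixed by
`±Γ₁(M)`. -/
theorem expandField_F1_le_fixedBy {γ : SL(2, ℤ)} (hγ : γ ∈ pmGamma1 M) :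
    expandField M (F1 M) ≤ fixedBy (M := M) γ := by
  rw [expandField_F1_eq, IntermediateField.adjoin_le_iff]
  intro x hx
  rw [SetLike.mem_coe, mem_fixedBy]
  rcases expand_genSet_subset hx with rfl | ⟨b, hb, rfl⟩
  · exact ⟨jQ_mem_Omega0 M, rho_jQ_fx γ⟩
  · have hv : ¬ ((M : ℤ) ∣ (0 : ℤ) ∧ (M : ℤ) ∣ b) := fun h => hb h.2
    refine ⟨tauK_mem_Omega0 hv, ?_⟩
    apply Subtype.ext
    rw [rho_tauK_fx γ hv]
    -- `(0, b) γ⁻¹ ≡ ±(0, b)`
    have hγ' : γ⁻¹ ∈ pmGamma1 M := (pmGamma1 M).inv_mem hγ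
    obtain ⟨h0, h1⟩ := mem_pmGamma1.mp hγ'
    have e0 : rowMul (vec 0 b) γ⁻¹ 0 = b * (γ⁻¹ : SL(2, ℤ)) 1 0 := by
      rw [rowMul_zero]; simp
    have e1 : rowMul (vec 0 b) γ⁻¹ 1 = b * (γ⁻¹ : SL(2, ℤ)) 1 1 := by
      rw [rowMul_one]; simp
    rw [e0, e1]
    have d0 : (M : ℤ) ∣ (γ⁻¹ : SL(2, ℤ)) 1 0 := (ZMod.intCast_zmod_eq_zero_iff_dvd _ _).mp h0
    rcases h1 with h1 | h1
    · have d1 : (M : ℤ) ∣ (γ⁻¹ : SL(2, ℤ)) 1 1 - 1 := by
        rw [← ZMod.intCast_zmod_eq_zero_iff_dvd]; push_cast; rw [h1]; ring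
      refine tauK_congr (zq_pow M) ?_ ?_
      · exact (Int.modEq_zero_iff_dvd.mpr (Dvd.dvd.mul_left d0 b))
      · rw [Int.modEq_iff_dvd]
        obtain ⟨k, hk⟩ := d1
        exact ⟨-(b * k), by linear_combination -b * hk⟩
    · have d1 : (M : ℤ) ∣ (γ⁻¹ : SL(2, ℤ)) 1 1 + 1 := by
        rw [← ZMod.intCast_zmod_eq_zero_iff_dvd]; push_cast; rw [h1]; ring
      show _ = tauK M (zq M) 0 b
      rw [← tauK_neg (M := M) (ζ := zq M) 0 b, neg_zero]
      refine tauK_congr (zq_pow M) ?_ ?_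
      · exact (Int.modEq_zero_iff_dvd.mpr (Dvd.dvd.mul_left d0 b))
      · rw [Int.modEq_iff_dvd]
        obtain ⟨k, hk⟩ := d1
        exact ⟨-(b * k), by linear_combination -b * hk⟩

/-- **the fixed field of `±Γ₁(M)` on `Ω₀(M)`** is the expanded field of `F₁(M)`. -/
theorem mem_expandField_F1_iff (hM : 1 < M) (x : ↥(Omega0 M)) :
    (x : LaurentSeries Qb) ∈ expandField M (F1 M) ↔ ∀ γ ∈ pmGamma1 M, rho γ x = x := by
  constructor
  · intro hx γ hγ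
    obtain ⟨hx', h⟩ := mem_fixedBy.mp (expandField_F1_le_fixedBy hγ hx)
    exact h
  · exact mem_expandField_of_fixed_pmGamma1 hM x

end Fermat.Agent.S48lib.X1
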