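/-
S48lib / X1 / Field / PmGamma  (helper3)

`±Γ(M)`: normal of finite index, contains `T^M`; the analytic generators `τ_v` are modular
functions for it, and for `2 < M` a suitable combination `τ_(1,0) + c τ_(0,1)` separates its
cosets.  Consequence: `Frac (WH0 (±Γ(M))) = ℂ(j)(τ_(1,0) + c τ_(0,1))`.
-/
import Fermat.Agent.S48lib.X1.Field.AnSep
import Fermat.Agent.S48lib.X1.Field.Generates

set_option autoImplicit false
set_option linter.unusedSectionVars false

noncomputable section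

namespace Fermat.Agent.S48lib.X1

open UpperHalfPlane hiding I
open scoped MatrixGroups
open ModularCurve Fermat.Agent.ProgramR Fermat.Agent.ProgramR.QExp
open Wp CongruenceSubgroup

/-- `±Γ(M)` -/
def pmGamma (M : ℕ) : Subgroup SL(2, ℤ) where
  carrier := {γ | γ ∈ Gamma M ∨ -γ ∈ Gamma M}
  one_mem' := Or.inl (Gamma M).one_mem
  mul_mem' := by
    rintro a b (ha | ha) (hb | hb)
    · exact Or.inl ((Gamma M).mul_mem ha hb)
    · refine Or.inr ?_
      rw [← mul_neg]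
      exact (Gamma M).mul_mem ha hb
    · refine Or.inr ?_
      rw [← neg_mul]
      exact (Gamma M).mul_mem ha hb
    · refine Or.inl ?_
      rw [← neg_mul_neg]
      exact (Gamma M).mul_mem ha hb
  inv_mem' := by
    rintro a (ha | ha)
    · exact Or.inl ((Gamma M).inv_mem ha)
    · refine Or.inr ?_
      have h : (-a)⁻¹ = -a⁻¹ := by
        apply inv_eq_of_mul_eq_one_right
        rw [neg_mul_neg, mul_inv_cancel]
      rw [← h]
      exact (Gamma M).inv_mem ha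

theorem mem_pmGamma {M : ℕ} {γ : SL(2, ℤ)} : γ ∈ pmGamma M ↔ γ ∈ Gamma M ∨ -γ ∈ Gamma M := Iff.rfl

theorem Gamma_le_pmGamma (M : ℕ) : Gamma M ≤ pmGamma M := fun _ h => Or.inl h

instance pmGamma_normal (M : ℕ) : (pmGamma M).Normal := by
  refine ⟨fun n hn g => ?_⟩
  rcases hn with hn | hn
  · exact Or.inl ((Gamma_normal M).conj_mem n hn g)
  · refine Or.inr ?_
    have : -(g * n * g⁻¹) = g * (-n) * g⁻¹ := by
      rw [mul_neg, neg_mul]
    rw [this]
    exact (Gamma_normal M).conj_mem (-n) hn g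

instance finiteIndex_pmGamma (M : ℕ) [NeZero M] : (pmGamma M).FiniteIndex :=
  Subgroup.finiteIndex_of_le (Gamma_le_pmGamma M)

instance fintypeQuotPmGamma (M : ℕ) [NeZero M] : Fintype (SL(2, ℤ) ⧸ pmGamma M) :=
  Subgroup.fintypeQuotientOfFiniteIndex

variable {M : ℕ} [NeZero M]

theorem T_pow_mem_pmGamma : ModularGroup.T ^ (M : ℤ) ∈ pmGamma M :=
  Gamma_le_pmGamma M T_pow_mem_Gamma

theorem rowMul_neg (v : Fin 2 → ℤ) (γ : SL(2, ℤ)) : rowMul v (-γ) = -rowMul v γ := by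
  funext i
  fin_cases i
  · show rowMul v (-γ) 0 = -rowMul v γ 0
    rw [rowMul_zero, rowMul_zero]
    simp only [Matrix.SpecialLinearGroup.coe_neg, Matrix.neg_apply]
    ring
  · show rowMul v (-γ) 1 = -rowMul v γ 1
    rw [rowMul_one, rowMul_one]
    simp only [Matrix.SpecialLinearGroup.coe_neg, Matrix.neg_apply]
    ring

theorem tauAn_rowMul_of_mem_pmGamma (v : Fin 2 → ℤ) {γ : SL(2, ℤ)} (hγ : γ ∈ pmGamma M) :
    tauAn M (rowMul v γ) = tauAn M v := by
  rcases hγ with hγ | hγ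
  · exact tauAn_congr M (rowMul_sub_dvd (v := v) hγ)
  · have h1 : rowMul v γ = -rowMul v (-γ) := by rw [rowMul_neg, neg_neg]
    rw [h1, tauAn_neg]
    exact tauAn_congr M (rowMul_sub_dvd (v := v) hγ)

/-- **`τ_v` is a modular function for `±Γ(M)`** -/
theorem isWH0_tauAn_pm {v : Fin 2 → ℤ} (hv : NZ M v) : IsWH0 (pmGamma M) (tauAn M v) :=
  isWH0_tauAn_of hv _ fun _ hγ => tauAn_rowMul_of_mem_pmGamma v hγ

/-- `τ_v` as an element of `WH0 (±Γ(M))` -/
def tauP {v : Fin 2 → ℤ} (hv : NZ M v) : WH0 (pmGamma M) := ⟨tauAn M v, isWH0_tauAn_pm hv⟩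

/-! ### a separating combination -/

/-- for a finite set of vectors, a scalar `c` such that `f₁ + c f₂` determines `(f₁, f₂)` -/
theorem exists_sep_coeff {V : Type*} [AddCommGroup V] [Module ℂ V] (F : Finset V) :
    ∃ c : ℂ, ∀ f1 ∈ F, ∀ f2 ∈ F, ∀ g1 ∈ F, ∀ g2 ∈ F,
      f1 + c • f2 = g1 + c • g2 → f1 = g1 ∧ f2 = g2 := by
  classical
  let B : Set ℂ := ⋃ q ∈ (F ×ˢ F ×ˢ F ×ˢ F : Finset (V × V × V × V)),
    {c | q.2.1 ≠ q.2.2.2 ∧ q.1 + c • q.2.1 = q.2.2.1 + c • q.2.2.2}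
  have hB : B.Finite := by
    refine Set.Finite.biUnion (Finset.finite_toSet _) fun q _ => ?_
    refine Set.Subsingleton.finite ?_
    rintro c ⟨hne, hc⟩ c' ⟨-, hc'⟩
    have h1 : (c - c') • (q.2.1 - q.2.2.2) = 0 := by
      linear_combination (norm := module) hc - hc'
    rcases smul_eq_zero.mp h1 with h | h
    · exact sub_eq_zero.mp h
    · exact absurd (sub_eq_zero.mp h) hne
  obtain ⟨c, hc⟩ := hB.exists_notMem
  refine ⟨c, fun f1 h1 f2 h2 g1 h3 g2 h4 heq => ?_⟩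
  have h22 : f2 = g2 := by
    by_contra hne
    apply hc
    refine Set.mem_biUnion (x := (f1, f2, g1, g2)) ?_ ⟨hne, heq⟩
    simp only [Finset.coe_product, Set.mem_prod, Finset.mem_coe]
    exact ⟨h1, h2, h3, h4⟩
  refine ⟨?_, h22⟩
  rw [h22] at heq
  exact add_right_cancel heq

variable (M) in
open Classical in
/-- the finite set of all the functions `τ_v` -/
def tauSet : Finset (ℍ → ℂ) :=
  Finset.univ.image fun p : Fin M × Fin M => tauAn M ![((p.1 : ℕ) : ℤ), ((p.2 : ℕ) : ℤ)]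

theorem tauAn_mem_tauSet (v : Fin 2 → ℤ) : tauAn M v ∈ tauSet M := by
  classical
  have hM : (0 : ℤ) < (M : ℤ) := by exact_mod_cast Nat.pos_of_ne_zero (NeZero.ne M)
  have hlt : ∀ i, (v i % (M : ℤ)).toNat < M := by
    intro i
    have h1 := Int.emod_lt_of_pos (v i) hM
    have h2 := Int.emod_nonneg (v i) hM.ne'
    omega
  rw [tauSet, Finset.mem_image]
  refine ⟨(⟨_, hlt 0⟩, ⟨_, hlt 1⟩), Finset.mem_univ _, ?_⟩
  apply tauAn_congr M
  intro i
  have h2 := Int.emod_nonneg (v i) hM.ne'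
  fin_cases i
  · show (M : ℤ) ∣ (((v 0 % (M : ℤ)).toNat : ℕ) : ℤ) - v 0
    rw [Int.toNat_of_nonneg (Int.emod_nonneg (v 0) hM.ne')]
    exact ⟨-(v 0 / M), by have := Int.emod_add_mul_ediv (v 0) M; linarith⟩
  · show (M : ℤ) ∣ (((v 1 % (M : ℤ)).toNat : ℕ) : ℤ) - v 1
    rw [Int.toNat_of_nonneg (Int.emod_nonneg (v 1) hM.ne')]
    exact ⟨-(v 1 / M), by have := Int.emod_add_mul_ediv (v 1) M; linarith⟩

theorem nz_10 (hM : 1 < M) : NZ M ![1, 0] := fun h => not_dvd_one hM h.1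

theorem nz_01 (hM : 1 < M) : NZ M ![0, 1] := fun h => not_dvd_one hM h.2

/-- the combination `τ_(1,0) + c τ_(0,1)` -/
def hSep (hM : 1 < M) (c : ℂ) : WH0 (pmGamma M) := tauP (nz_10 hM) + c • tauP (nz_01 hM)

theorem coe_hSep (hM : 1 < M) (c : ℂ) (τ : ℍ) :
    ((hSep hM c : WH0 (pmGamma M)) : ℍ → ℂ) τ = tauAn M ![1, 0] τ + c * tauAn M ![0, 1] τ := rfl

/-- **a combination `τ_(1,0) + c τ_(0,1)` separates the cosets of `±Γ(M)`** -/
theorem exists_separates_hSep (hM : 1 < M) : ∃ c : ℂ, Separates (pmGamma M) (hSep hM c) := by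
  obtain ⟨c, hc⟩ := exists_sep_coeff (tauSet M)
  refine ⟨c, fun g g' h => ?_⟩
  set γ : SL(2, ℤ) := g⁻¹ * g' with hγ
  have h1 : ∀ τ : ℍ, ((hSep hM c : WH0 (pmGamma M)) : ℍ → ℂ) (γ • τ) =
      ((hSep hM c : WH0 (pmGamma M)) : ℍ → ℂ) τ := by
    intro τ
    have h1 := congrArg (fun f : Hol => (f : ℍ → ℂ) (g' • τ)) h
    simp only [Hol.slComp_apply] at h1
    rw [inv_smul_smul, ← mul_smul] at h1
    exact h1
  have h2 : tauAn M (rowMul ![1, 0] γ) + c • tauAn M (rowMul ![0, 1] γ) =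
      tauAn M ![1, 0] + c • tauAn M ![0, 1] := by
    funext τ
    have := h1 τ
    rw [coe_hSep, coe_hSep, tauAn_smul, tauAn_smul] at this
    exact this
  obtain ⟨e1, e2⟩ := hc _ (tauAn_mem_tauSet _) _ (tauAn_mem_tauSet _) _ (tauAn_mem_tauSet _) _
    (tauAn_mem_tauSet _) h2
  rw [tauAn_eq_iff hM ((nz_rowMul _).2 (nz_10 hM)) (nz_10 hM)] at e1
  rw [tauAn_eq_iff hM ((nz_rowMul _).2 (nz_01 hM)) (nz_01 hM)] at e2
  have hdet : γ 0 0 * γ 1 1 - γ 0 1 * γ 1 0 = 1 := by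
    have := γ.det_coe
    rwa [Matrix.det_fin_two] at this
  have r10 : rowMul ![1, 0] γ 0 = γ 0 0 := by rw [rowMul_zero]; simp
  have r11 : rowMul ![1, 0] γ 1 = γ 0 1 := by rw [rowMul_one]; simp
  have r00 : rowMul ![0, 1] γ 0 = γ 1 0 := by rw [rowMul_zero]; simp
  have r01 : rowMul ![0, 1] γ 1 = γ 1 1 := by rw [rowMul_one]; simp
  have key : ∀ {a b c' d : ℤ}, a * d - b * c' = 1 → ∀ ε1 ε2 : ℤ, ε1 * ε1 = 1 →
      (M : ℤ) ∣ a - ε1 → (M : ℤ) ∣ b → (M : ℤ) ∣ c' → (M : ℤ) ∣ d - ε2 → (M : ℤ) ∣ d - ε1 := by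
    intro a b c' d hdet ε1 ε2 hε h1 h2 h3 h4
    have : d - ε1 = ε1 * (b * c') - ε1 * d * (a - ε1) := by
      have : ε1 * (a * d - b * c') = ε1 := by rw [hdet, mul_one]
      linear_combination this - d * hε
    rw [this]
    exact dvd_sub (Dvd.dvd.mul_left (Dvd.dvd.mul_right h2 _) _) (Dvd.dvd.mul_left h1 _)
  rw [mem_pmGamma]
  have hmem : ∀ δ : SL(2, ℤ), (M : ℤ) ∣ δ 0 0 - 1 → (M : ℤ) ∣ δ 0 1 → (M : ℤ) ∣ δ 1 0 →
      (M : ℤ) ∣ δ 1 1 - 1 → δ ∈ Gamma M := by
    intro δ h1 h2 h3 h4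
    rw [Gamma_mem]
    refine ⟨?_, ?_, ?_, ?_⟩
    · rw [← sub_eq_zero]
      have := (ZMod.intCast_zmod_eq_zero_iff_dvd _ M).2 h1
      push_cast at this
      exact this
    · exact (ZMod.intCast_zmod_eq_zero_iff_dvd _ M).2 h2
    · exact (ZMod.intCast_zmod_eq_zero_iff_dvd _ M).2 h3
    · rw [← sub_eq_zero]
      have := (ZMod.intCast_zmod_eq_zero_iff_dvd _ M).2 h4
      push_cast at this
      exact this
  rcases e1 with e1 | e1
  · have a0 := e1 0
    have a1 := e1 1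
    rw [r10] at a0
    rw [r11] at a1
    simp only [Matrix.cons_val_zero, Matrix.cons_val_one, sub_zero] at a0 a1
    have b0 : (M : ℤ) ∣ γ 1 0 := by
      rcases e2 with e2 | e2
      · have := e2 0; rw [r00] at this; simpa using this
      · have := e2 0; rw [r00] at this; simpa using this
    have b1 : (M : ℤ) ∣ γ 1 1 - 1 := by
      rcases e2 with e2 | e2
      · have := e2 1; rw [r01] at this; simpa using this
      · have := e2 1
        rw [r01] at this
        simp only [Matrix.cons_val_one] at this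
        exact key hdet 1 (-1) (by norm_num) a0 a1 b0 (by simpa using this)
    exact Or.inl (hmem γ a0 a1 b0 b1)
  · have a0 := e1 0
    have a1 := e1 1
    rw [r10] at a0
    rw [r11] at a1
    simp only [Matrix.cons_val_zero, Matrix.cons_val_one, add_zero] at a0 a1
    have b0 : (M : ℤ) ∣ γ 1 0 := by
      rcases e2 with e2 | e2
      · have := e2 0; rw [r00] at this; simpa using this
      · have := e2 0; rw [r00] at this; simpa using this
    have b1 : (M : ℤ) ∣ γ 1 1 - (-1) := by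
      rcases e2 with e2 | e2
      · have := e2 1
        rw [r01] at this
        simp only [Matrix.cons_val_one] at this
        exact key hdet (-1) 1 (by norm_num) (by simpa using a0) a1 b0 this
      · have := e2 1; rw [r01] at this; simpa using this
    refine Or.inr (hmem (-γ) ?_ ?_ ?_ ?_)
    · simp only [Matrix.SpecialLinearGroup.coe_neg, Matrix.neg_apply]
      have : -γ 0 0 - 1 = -(γ 0 0 + 1) := by ring
      rw [this]; exact (dvd_neg).2 a0
    · simp only [Matrix.SpecialLinearGroup.coe_neg, Matrix.neg_apply]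
      exact (dvd_neg).2 a1
    · simp only [Matrix.SpecialLinearGroup.coe_neg, Matrix.neg_apply]
      exact (dvd_neg).2 b0
    · simp only [Matrix.SpecialLinearGroup.coe_neg, Matrix.neg_apply]
      have : -γ 1 1 - 1 = -(γ 1 1 - (-1)) := by ring
      rw [this]; exact (dvd_neg).2 b1

end Fermat.Agent.S48lib.X1
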