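/-
S48lib / X1 / Field / PowerBasis  (helper3)

`FBar₁(M) = ℚ̄(j)(τ_(0,1))`: the expansion of a separating function is a primitive element of an
analytic `q`-model over `L(j)`; the structure of `FBar 1`-algebra on `FBar₁(M)` and the power basis
`1, τ, …, τ^{d-1}`, `d = [SL₂(ℤ) : ±Γ₁(M)]`.
-/
import Fermat.Agent.S48lib.X1.Field.Degree
import Fermat.Agent.S18lib.Haupt.BarEq

set_option autoImplicit false
set_option linter.unusedSectionVars false

noncomputable section

namespace Fermat.Agent.S48lib.X1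

open Polynomial IntermediateField Module
open scoped MatrixGroups
open ModularCurve Fermat.Agent.ProgramR Fermat.Agent.ProgramR.QExp Fermat.Agent.ProgramR.BarField
open HeckeJ Wp

local notation "Qb" => AlgebraicClosure ℚ

section Gen

variable {Γ : Subgroup SL(2, ℤ)} {hT : ModularGroup.T ^ ((1 : ℕ) : ℤ) ∈ Γ}
  [Fintype (SL(2, ℤ) ⧸ Γ)] {F₀ : IntermediateField ℚ (LaurentSeries ℚ)}
  {L : Type*} [Field L] [Algebra ℚ L] (e : L →+* ℂ) (hj : jq ∈ F₀)

include e in
set_option synthInstance.maxHeartbeats 400000 in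
set_option maxHeartbeats 1600000 in
/-- the minimal polynomial over `L(j)` of the expansion of a separating function has degree
`[SL₂(ℤ) : Γ]` -/
theorem natDegree_minpoly_gen (hM : IsAnModel Γ hT F₀) (θ : ↥(laurentBaseChange L F₀))
    {h : WH0 Γ} (hsep : Wp.Separates Γ h)
    (hθ : coeffMap e (θ : LaurentSeries L) = qExpW Γ 1 hT h) :
    (minpoly L⟮jB L hj⟯ θ).natDegree = Fintype.card (SL(2, ℤ) ⧸ Γ) := by
  classical
  haveI := finiteDimensional_adjoin_jB e hj hM
  have hint : IsIntegral L⟮jB L hj⟯ θ := Algebra.IsIntegral.isIntegral θ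
  apply le_antisymm
  · exact (minpoly.natDegree_le θ).trans_eq (finrank_adjoin_jB_eq e hj hM θ hsep hθ)
  · by_contra hlt
    rw [not_le] at hlt
    have hli := linearIndependent_pow_gen e hj θ hsep hθ
    rw [Fintype.linearIndependent_iff] at hli
    have hmon : (minpoly L⟮jB L hj⟯ θ).Monic := minpoly.monic hint
    have hae : Polynomial.aeval θ (minpoly L⟮jB L hj⟯ θ) = 0 := minpoly.aeval _ _
    generalize minpoly L⟮jB L hj⟯ θ = P at hlt hmon hae
    have h0 : ∑ k : Fin (Fintype.card (SL(2, ℤ) ⧸ Γ)), P.coeff (k : ℕ) • θ ^ (k : ℕ) = 0 := by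
      have e1 := Fin.sum_univ_eq_sum_range (fun k => P.coeff k • θ ^ k)
        (Fintype.card (SL(2, ℤ) ⧸ Γ))
      rw [e1, ← Polynomial.aeval_eq_sum_range' hlt, hae]
    have h1 := hli (fun k => P.coeff (k : ℕ)) h0 ⟨_, hlt⟩
    have h2 : P.coeff P.natDegree = 1 := hmon.coeff_natDegree
    rw [h2] at h1
    exact one_ne_zero h1

include e in
set_option synthInstance.maxHeartbeats 400000 in
/-- **the expansion of a separating function is a primitive element over `L(j)`** -/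
theorem adjoin_gen_eq_top (hM : IsAnModel Γ hT F₀) (θ : ↥(laurentBaseChange L F₀))
    {h : WH0 Γ} (hsep : Wp.Separates Γ h)
    (hθ : coeffMap e (θ : LaurentSeries L) = qExpW Γ 1 hT h) :
    IntermediateField.adjoin L⟮jB L hj⟯ {θ} = ⊤ := by
  haveI := finiteDimensional_adjoin_jB e hj hM
  rw [Field.primitive_element_iff_minpoly_natDegree_eq, natDegree_minpoly_gen e hj hM θ hsep hθ,
    finrank_adjoin_jB_eq e hj hM θ hsep hθ]

include e in
set_option synthInstance.maxHeartbeats 400000 in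
/-- over `L`: `L F₀ = L(j, θ)` -/
theorem adjoin_pair_eq_top (hM : IsAnModel Γ hT F₀) (θ : ↥(laurentBaseChange L F₀))
    {h : WH0 Γ} (hsep : Wp.Separates Γ h)
    (hθ : coeffMap e (θ : LaurentSeries L) = qExpW Γ 1 hT h) :
    IntermediateField.adjoin L ({jB L hj} ∪ {θ} : Set ↥(laurentBaseChange L F₀)) = ⊤ := by
  have h1 := adjoin_gen_eq_top e hj hM θ hsep hθ
  rw [← IntermediateField.adjoin_adjoin_left, h1]
  rfl

end Gen

/-! ### the instance `FBar₁(M)` -/

variable {M : ℕ} [NeZero M]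

theorem tauBar_spec (hM : 1 < M) :
    ∃ h : WH0 (pmGamma1 M), Wp.Separates (pmGamma1 M) h ∧
      coeffMap (qbarEmb : Qb →+* ℂ) ((tauBar hM : ↥(laurentBaseChange Qb (F1 M))) :
        LaurentSeries Qb) = qExpW (pmGamma1 M) 1 T_mem_pmGamma1 h := by
  obtain ⟨c, hc, hcop⟩ := exists_zEmb_eq M
  have hb : ¬ (M : ℤ) ∣ c * 1 := not_dvd_mul_of_isCoprime hcop (not_dvd_one hM)
  have hcop' : IsCoprime (c * 1) (M : ℤ) := by rwa [mul_one]
  refine ⟨_, separates_tauWH0_of_isCoprime hM hcop' hb, ?_⟩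
  rw [coe_tauBar, coeffMap_tauqL]
  have : Units.map ((qbarEmb : Qb →+* ℂ) : Qb →* ℂ) (zbar M) = zC M ^ c := hc
  rw [this, tauqL_zC_zpow_mem hcop (not_dvd_one hM)]

/-- **`FBar₁(M) = ℚ̄(j)(τ_(0,1))`** -/
theorem adjoin_tauBar_eq_top (hM : 1 < M) :
    IntermediateField.adjoin Qb⟮jB Qb (jq_mem_F1 M)⟯ {tauBar hM} = ⊤ := by
  obtain ⟨h, hsep, hθ⟩ := tauBar_spec hM
  exact adjoin_gen_eq_top qbarEmb (jq_mem_F1 M) isAnModel_F1 (tauBar hM) hsep hθ

theorem natDegree_minpoly_tauBar (hM : 1 < M) :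
    (minpoly Qb⟮jB Qb (jq_mem_F1 M)⟯ (tauBar hM)).natDegree =
      Fintype.card (SL(2, ℤ) ⧸ pmGamma1 M) := by
  obtain ⟨h, hsep, hθ⟩ := tauBar_spec hM
  exact natDegree_minpoly_gen qbarEmb (jq_mem_F1 M) isAnModel_F1 (tauBar hM) hsep hθ

/-- `FBar₁(M) = ℚ̄(j, τ_(0,1))` -/
theorem adjoin_jB_tauBar_eq_top (hM : 1 < M) :
    IntermediateField.adjoin Qb ({jB Qb (jq_mem_F1 M)} ∪ {tauBar hM} :
      Set ↥(laurentBaseChange Qb (F1 M))) = ⊤ := by
  obtain ⟨h, hsep, hθ⟩ := tauBar_spec hM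
  exact adjoin_pair_eq_top qbarEmb (jq_mem_F1 M) isAnModel_F1 (tauBar hM) hsep hθ

/-! ### `FBar₁(M)` as an algebra over `FBar 1 = ℚ̄(j)` -/

open Fermat.Agent.S18lib Fermat.Agent.S18lib.Haupt

variable (M) in
theorem bar_one_le_FBar1 : modularFunctionFieldBar 1 ≤ laurentBaseChange Qb (F1 M) := by
  rw [modularFunctionFieldBar_eq 1, modularFunctionFieldFullC, IntermediateField.adjoin_le_iff]
  rintro x ⟨d, hd, hd1, rfl⟩
  have : d = 1 := Nat.dvd_one.mp hd1
  subst this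
  rw [qExpand_one_apply]
  exact (jB Qb (jq_mem_F1 M)).2

variable (M) in
/-- the inclusion `ℚ̄(j) = FBar 1 → FBar₁(M)` -/
def inclBar1 : FBar 1 →ₐ[Qb] ↥(laurentBaseChange Qb (F1 M)) :=
  IntermediateField.inclusion (bar_one_le_FBar1 M)

@[simp] theorem coe_inclBar1 (y : FBar 1) :
    ((inclBar1 M y : ↥(laurentBaseChange Qb (F1 M))) : LaurentSeries Qb) = y :=
  IntermediateField.coe_inclusion (bar_one_le_FBar1 M) y

variable (M) in
/-- the structure of `FBar 1`-algebra on `FBar₁(M)` -/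
@[instance_reducible]
def algebraBar1 : Algebra (FBar 1) ↥(laurentBaseChange Qb (F1 M)) := (inclBar1 M).toRingHom.toAlgebra

attribute [local instance] algebraBar1

theorem algebraMap_bar1_apply (y : FBar 1) :
    algebraMap (FBar 1) ↥(laurentBaseChange Qb (F1 M)) y = inclBar1 M y := rfl

instance isScalarTower_bar1 : IsScalarTower Qb (FBar 1) ↥(laurentBaseChange Qb (F1 M)) :=
  IsScalarTower.of_algebraMap_eq fun a => ((inclBar1 M).commutes a).symm

/-- `j` in `FBar 1` -/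
def jBar1 : FBar 1 := ⟨jqModC Qb, by
  rw [modularFunctionFieldBar_eq 1]
  have h := IntermediateField.subset_adjoin Qb (divisorExpansionsC Qb 1)
    (mem_divisorExpansionsC Qb 1 (one_dvd 1))
  rwa [qExpand_one_apply] at h⟩

theorem inclBar1_jBar1 : inclBar1 M jBar1 = jB Qb (jq_mem_F1 M) :=
  Subtype.ext (coe_inclBar1 jBar1)

set_option synthInstance.maxHeartbeats 400000 in
/-- **`FBar₁(M) = FBar 1 (τ_(0,1))`** -/
theorem adjoin_bar1_tauBar_eq_top (hM : 1 < M) :
    IntermediateField.adjoin (FBar 1) {tauBar hM} = (⊤ : IntermediateField (FBar 1)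
      ↥(laurentBaseChange Qb (F1 M))) := by
  rw [eq_top_iff]
  have h1 : (⊤ : IntermediateField Qb ↥(laurentBaseChange Qb (F1 M))) ≤
      (IntermediateField.adjoin (FBar 1) {tauBar hM}).restrictScalars Qb := by
    rw [← adjoin_jB_tauBar_eq_top hM, IntermediateField.adjoin_le_iff]
    rintro x (rfl | rfl)
    · rw [← inclBar1_jBar1]
      exact (IntermediateField.adjoin (FBar 1) {tauBar hM}).algebraMap_mem jBar1
    · exact IntermediateField.subset_adjoin (FBar 1) _ rfl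
  intro x _
  exact h1 (IntermediateField.mem_top (F := Qb))

/-! ### integrality over `FBar 1` and the power basis -/

theorem coe_mem_bar_one_of_mem_adjoin_jB {x : ↥(laurentBaseChange Qb (F1 M))}
    (hx : x ∈ Qb⟮jB Qb (jq_mem_F1 M)⟯) : (x : LaurentSeries Qb) ∈ modularFunctionFieldBar 1 := by
  have h1 : (Qb⟮jB Qb (jq_mem_F1 M)⟯).map (laurentBaseChange Qb (F1 M)).val ≤
      modularFunctionFieldBar 1 := by
    rw [IntermediateField.adjoin_map, Set.image_singleton, IntermediateField.adjoin_le_iff]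
    rintro s rfl
    exact jBar1.2
  exact h1 ((IntermediateField.mem_map _).2 ⟨x, hx, rfl⟩)

/-- `ℚ̄(j) ⊆ FBar₁(M)` to `FBar 1` -/
def jBToBar1 : ↥(Qb⟮jB Qb (jq_mem_F1 M)⟯) →+* FBar 1 where
  toFun x := ⟨((x : ↥(laurentBaseChange Qb (F1 M))) : LaurentSeries Qb),
    coe_mem_bar_one_of_mem_adjoin_jB x.2⟩
  map_one' := rfl
  map_mul' _ _ := rfl
  map_zero' := rfl
  map_add' _ _ := rfl

theorem inclBar1_jBToBar1 (x : ↥(Qb⟮jB Qb (jq_mem_F1 M)⟯)) :
    inclBar1 M (jBToBar1 x) = (x : ↥(laurentBaseChange Qb (F1 M))) :=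
  Subtype.ext (coe_inclBar1 _)

set_option synthInstance.maxHeartbeats 400000 in
set_option maxHeartbeats 1600000 in
theorem isIntegral_bar1 (x : ↥(laurentBaseChange Qb (F1 M))) : IsIntegral (FBar 1) x := by
  haveI := finiteDimensional_FBar1 (M := M)
  have hint : IsIntegral Qb⟮jB Qb (jq_mem_F1 M)⟯ x := Algebra.IsIntegral.isIntegral x
  obtain ⟨P, hP, hPx⟩ := hint
  refine ⟨P.map jBToBar1, hP.map _, ?_⟩
  rw [Polynomial.eval₂_map]
  have : (algebraMap (FBar 1) ↥(laurentBaseChange Qb (F1 M))).comp jBToBar1 =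
      algebraMap Qb⟮jB Qb (jq_mem_F1 M)⟯ ↥(laurentBaseChange Qb (F1 M)) :=
    RingHom.ext fun y => inclBar1_jBToBar1 y
  rw [this]
  exact hPx

set_option synthInstance.maxHeartbeats 400000 in
theorem algebra_adjoin_bar1_tauBar_eq_top (hM : 1 < M) :
    Algebra.adjoin (FBar 1) {tauBar hM} =
      (⊤ : Subalgebra (FBar 1) ↥(laurentBaseChange Qb (F1 M))) := by
  have h := adjoin_bar1_tauBar_eq_top hM
  have h2 := IntermediateField.adjoin_simple_toSubalgebra_of_isAlgebraic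
    (isIntegral_bar1 (tauBar hM)).isAlgebraic
  rw [← h2, h]
  rfl

theorem inclBar1_mem_adjoin_jB (y : FBar 1) : inclBar1 M y ∈ Qb⟮jB Qb (jq_mem_F1 M)⟯ := by
  have h1 : modularFunctionFieldBar 1 ≤
      (Qb⟮jB Qb (jq_mem_F1 M)⟯).map (laurentBaseChange Qb (F1 M)).val := by
    rw [modularFunctionFieldBar_eq 1, modularFunctionFieldFullC, IntermediateField.adjoin_le_iff]
    rintro x ⟨d, hd, hd1, rfl⟩
    have : d = 1 := Nat.dvd_one.mp hd1
    subst this
    rw [qExpand_one_apply]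
    exact (IntermediateField.mem_map _).2
      ⟨jB Qb (jq_mem_F1 M), IntermediateField.subset_adjoin Qb _ rfl, rfl⟩
  obtain ⟨x, hx, hxy⟩ := (IntermediateField.mem_map _).1 (h1 y.2)
  have : inclBar1 M y = x := Subtype.ext ((coe_inclBar1 y).trans hxy.symm)
  rw [this]
  exact hx

/-- `FBar 1` to `ℚ̄(j) ⊆ FBar₁(M)` -/
def bar1ToJB : FBar 1 →+* ↥(Qb⟮jB Qb (jq_mem_F1 M)⟯) where
  toFun y := ⟨inclBar1 M y, inclBar1_mem_adjoin_jB y⟩
  map_one' := Subtype.ext (map_one _)
  map_mul' _ _ := Subtype.ext (map_mul _ _ _)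
  map_zero' := Subtype.ext (map_zero _)
  map_add' _ _ := Subtype.ext (map_add _ _ _)

set_option synthInstance.maxHeartbeats 400000 in
set_option maxHeartbeats 1600000 in
/-- the minimal polynomial of `τ_(0,1)` over `FBar 1` has degree `[SL₂(ℤ) : ±Γ₁(M)]` -/
theorem natDegree_minpoly_bar1_tauBar (hM : 1 < M) :
    (minpoly (FBar 1) (tauBar hM)).natDegree = Fintype.card (SL(2, ℤ) ⧸ pmGamma1 M) := by
  haveI := finiteDimensional_FBar1 (M := M)
  rw [← natDegree_minpoly_tauBar hM]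
  have hint1 : IsIntegral Qb⟮jB Qb (jq_mem_F1 M)⟯ (tauBar hM) := Algebra.IsIntegral.isIntegral _
  have hint2 : IsIntegral (FBar 1) (tauBar hM) := isIntegral_bar1 _
  apply le_antisymm
  · have hP := minpoly.monic hint1
    have h0 : Polynomial.aeval (tauBar hM)
        ((minpoly Qb⟮jB Qb (jq_mem_F1 M)⟯ (tauBar hM)).map jBToBar1) = 0 := by
      rw [Polynomial.aeval_def, Polynomial.eval₂_map]
      have : (algebraMap (FBar 1) ↥(laurentBaseChange Qb (F1 M))).comp jBToBar1 =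
          algebraMap Qb⟮jB Qb (jq_mem_F1 M)⟯ ↥(laurentBaseChange Qb (F1 M)) :=
        RingHom.ext fun y => inclBar1_jBToBar1 y
      rw [this]
      exact minpoly.aeval _ _
    have h1 := Polynomial.natDegree_le_natDegree
      (minpoly.degree_le_of_ne_zero (FBar 1) (tauBar hM) (hP.map jBToBar1).ne_zero h0)
    rwa [hP.natDegree_map] at h1
  · have hQ := minpoly.monic hint2
    have h0 : Polynomial.aeval (tauBar hM) ((minpoly (FBar 1) (tauBar hM)).map (bar1ToJB (M := M))) = 0 := by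
      rw [Polynomial.aeval_def, Polynomial.eval₂_map]
      have : (algebraMap Qb⟮jB Qb (jq_mem_F1 M)⟯ ↥(laurentBaseChange Qb (F1 M))).comp (bar1ToJB (M := M)) =
          algebraMap (FBar 1) ↥(laurentBaseChange Qb (F1 M)) := RingHom.ext fun y => rfl
      rw [this]
      exact minpoly.aeval _ _
    have h1 := Polynomial.natDegree_le_natDegree
      (minpoly.degree_le_of_ne_zero Qb⟮jB Qb (jq_mem_F1 M)⟯ (tauBar hM)
        (hQ.map (bar1ToJB (M := M))).ne_zero h0)
    rwa [hQ.natDegree_map] at h1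

/-- **the power basis `1, τ, …, τ^{d-1}` of `FBar₁(M)` over `FBar 1 = ℚ̄(j)`**, `τ = τ_(0,1)` -/
def powerBasisBar1 (hM : 1 < M) : PowerBasis (FBar 1) ↥(laurentBaseChange Qb (F1 M)) :=
  PowerBasis.ofAdjoinEqTop (isIntegral_bar1 (tauBar hM)) (algebra_adjoin_bar1_tauBar_eq_top hM)

@[simp] theorem powerBasisBar1_gen (hM : 1 < M) : (powerBasisBar1 hM).gen = tauBar hM := rfl

theorem powerBasisBar1_dim (hM : 1 < M) :
    (powerBasisBar1 hM).dim = Fintype.card (SL(2, ℤ) ⧸ pmGamma1 M) :=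
  natDegree_minpoly_bar1_tauBar hM

theorem finrank_bar1_FBar1 (hM : 1 < M) :
    finrank (FBar 1) ↥(laurentBaseChange Qb (F1 M)) = Fintype.card (SL(2, ℤ) ⧸ pmGamma1 M) := by
  rw [(powerBasisBar1 hM).finrank, powerBasisBar1_dim]

theorem finiteDimensional_bar1_FBar1 (hM : 1 < M) :
    FiniteDimensional (FBar 1) ↥(laurentBaseChange Qb (F1 M)) :=
  (powerBasisBar1 hM).finite

end Fermat.Agent.S48lib.X1
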